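import Mathlib

/-!
# PROJECT U (S34), Euler characteristic, step 1: the graded-module lemma

Pure linear algebra over a field `k`.  `W d ≤ V d` are two increasing filtrations of an ambient
`k`-module `Ω`, stable under an endomorphism `X` which raises the degree by one.  If

* `V` is generated from degree `d₀` on (`V (d+1) ≤ V d ⊔ X (V d)` for `d ≥ d₀`),
* `V d₀` is finite-dimensional,
* every `v ∈ V d₀` lies in some `W (d₀ + r)`                    (chart `x ≠ ∞`),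
* for every `v ∈ V d₀` some `X ^ r v` lies in `W (d₀ + r)`        (chart `x ≠ 0`),

then `V d = W d` for all large `d`.  (Geometrically: the graded module `⊕ V d / W d` over
`k[X₀, X₁]` is a coherent sheaf on `ℙ¹` supported on `{X₀ = 0} ∩ {X₁ = 0} = ∅`.)
-/

set_option autoImplicit false

namespace Fermat.Agent.S34.Euler.Filtered

variable {k : Type*} [Field k] {Ω : Type*} [AddCommGroup Ω] [Module k Ω]

/-- `W` is increasing. -/
theorem mono_of_succ {W : ℕ → Submodule k Ω} (hW : ∀ d, W d ≤ W (d + 1)) {d e : ℕ} (h : d ≤ e) :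
    W d ≤ W e := by
  induction e, h using Nat.le_induction with
  | base => exact le_rfl
  | succ e _ ih => exact ih.trans (hW e)

/-- `X ^ i` raises the degree by `i`. -/
theorem map_pow_le {W : ℕ → Submodule k Ω} {X : Ω →ₗ[k] Ω}
    (hXW : ∀ d, (W d).map X ≤ W (d + 1)) (d i : ℕ) : (W d).map (X ^ i) ≤ W (d + i) := by
  induction i with
  | zero =>
    rw [pow_zero, Module.End.one_eq_id, Submodule.map_id]
    exact le_rfl
  | succ i ih =>
    rw [pow_succ', Module.End.mul_eq_comp, Submodule.map_comp]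
    calc ((W d).map (X ^ i)).map X ≤ (W (d + i)).map X := Submodule.map_mono ih
      _ ≤ W (d + i + 1) := hXW _
      _ = W (d + (i + 1)) := by rw [add_assoc]

/-- The pieces of `V` above `d₀` are spanned by the `X ^ i (V d₀)`. -/
theorem le_iSup_map_pow {V : ℕ → Submodule k Ω} {X : Ω →ₗ[k] Ω} {d₀ : ℕ}
    (hgen : ∀ d, d₀ ≤ d → V (d + 1) ≤ V d ⊔ (V d).map X) (m : ℕ) :
    V (d₀ + m) ≤ ⨆ i : Fin (m + 1), (V d₀).map (X ^ (i : ℕ)) := by
  induction m with
  | zero =>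
    refine le_trans ?_ (le_iSup _ (0 : Fin 1))
    rw [Fin.val_zero, pow_zero, Module.End.one_eq_id, Submodule.map_id]
    exact le_rfl
  | succ m ih =>
    have h1 : V (d₀ + (m + 1)) ≤ V (d₀ + m) ⊔ (V (d₀ + m)).map X := by
      rw [← add_assoc]
      exact hgen _ (Nat.le_add_right _ _)
    refine h1.trans (sup_le ?_ ?_)
    · refine ih.trans (iSup_le fun i => ?_)
      exact le_iSup (fun j : Fin (m + 1 + 1) => (V d₀).map (X ^ (j : ℕ))) i.castSucc
    · refine (Submodule.map_mono ih).trans ?_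
      rw [Submodule.map_iSup]
      refine iSup_le fun i => ?_
      rw [← Submodule.map_comp, ← Module.End.mul_eq_comp, ← pow_succ']
      exact le_iSup (fun j : Fin (m + 1 + 1) => (V d₀).map (X ^ (j : ℕ))) i.succ

/-- A uniform exponent for finitely many elements. -/
theorem exists_uniform {W : ℕ → Submodule k Ω} {X : Ω →ₗ[k] Ω}
    (hWmono : ∀ d, W d ≤ W (d + 1)) (hXW : ∀ d, (W d).map X ≤ W (d + 1))
    {U : Submodule k Ω} [Module.Finite k U] {d₀ : ℕ}
    (h0 : ∀ v ∈ U, ∃ r, v ∈ W (d₀ + r)) (h1 : ∀ v ∈ U, ∃ r, (X ^ r) v ∈ W (d₀ + r)) :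
    ∃ r, U ≤ W (d₀ + r) ∧ U.map (X ^ r) ≤ W (d₀ + r) := by
  classical
  obtain ⟨S, hS⟩ : U.FG := (Submodule.fg_top U).mp Module.Finite.fg_top
  have hSU : ∀ v ∈ S, v ∈ U := fun v hv => hS ▸ Submodule.subset_span hv
  choose! r0 hr0 using h0
  choose! r1 hr1 using h1
  refine ⟨S.sup r0 + S.sup r1, ?_, ?_⟩
  · rw [← hS, Submodule.span_le]
    intro v hv
    have h := hr0 v (hSU v hv)
    refine mono_of_succ hWmono ?_ h
    have : r0 v ≤ S.sup r0 := Finset.le_sup hv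
    omega
  · rw [← hS, Submodule.map_span, Submodule.span_le]
    rintro _ ⟨v, hv, rfl⟩
    have h := hr1 v (hSU v hv)
    have hle : r1 v ≤ S.sup r0 + S.sup r1 := by
      have : r1 v ≤ S.sup r1 := Finset.le_sup hv
      omega
    obtain ⟨e, he⟩ := Nat.exists_eq_add_of_le hle
    have h2 : (X ^ (S.sup r0 + S.sup r1)) v = (X ^ e) ((X ^ r1 v) v) := by
      rw [he, add_comm, pow_add, Module.End.mul_apply]
    rw [SetLike.mem_coe, h2]
    have h3 := map_pow_le hXW (d₀ + r1 v) e (Submodule.mem_map_of_mem h)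
    have h4 : d₀ + r1 v + e = d₀ + (S.sup r0 + S.sup r1) := by omega
    rwa [h4] at h3

/-- **The graded-module lemma.** -/
theorem eventually_le {V W : ℕ → Submodule k Ω} {X : Ω →ₗ[k] Ω}
    (hWmono : ∀ d, W d ≤ W (d + 1)) (hXW : ∀ d, (W d).map X ≤ W (d + 1)) {d₀ : ℕ}
    [Module.Finite k (V d₀)]
    (hgen : ∀ d, d₀ ≤ d → V (d + 1) ≤ V d ⊔ (V d).map X)
    (h0 : ∀ v ∈ V d₀, ∃ r, v ∈ W (d₀ + r))
    (h1 : ∀ v ∈ V d₀, ∃ r, (X ^ r) v ∈ W (d₀ + r)) :
    ∃ d₁, ∀ d, d₁ ≤ d → V d ≤ W d := by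
  obtain ⟨r, hr0, hr1⟩ := exists_uniform hWmono hXW h0 h1
  refine ⟨d₀ + 2 * r, fun d hd => ?_⟩
  obtain ⟨m, rfl⟩ : ∃ m, d = d₀ + m := ⟨d - d₀, by omega⟩
  have hm : 2 * r ≤ m := by omega
  refine (le_iSup_map_pow hgen m).trans (iSup_le fun i => ?_)
  by_cases hi : (i : ℕ) < r
  · -- `X ^ i (V d₀) ≤ X ^ i (W (d₀ + r)) ≤ W (d₀ + r + i) ≤ W (d₀ + m)`
    refine (Submodule.map_mono hr0).trans ((map_pow_le hXW _ _).trans ?_)
    exact mono_of_succ hWmono (by omega)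
  · -- `X ^ i (V d₀) = X ^ (i - r) (X ^ r (V d₀)) ≤ X ^ (i - r) (W (d₀ + r)) ≤ W (d₀ + i)`
    have hi' : r ≤ (i : ℕ) := not_lt.mp hi
    obtain ⟨e, he⟩ := Nat.exists_eq_add_of_le hi'
    have h2 : (V d₀).map (X ^ (i : ℕ)) = ((V d₀).map (X ^ r)).map (X ^ e) := by
      rw [he, add_comm, pow_add, Module.End.mul_eq_comp, Submodule.map_comp]
    rw [h2]
    refine (Submodule.map_mono hr1).trans ((map_pow_le hXW _ _).trans ?_)
    refine mono_of_succ hWmono ?_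
    have := i.2
    omega

/-- The graded-module lemma, equality form. -/
theorem eventually_eq {V W : ℕ → Submodule k Ω} {X : Ω →ₗ[k] Ω}
    (hWV : ∀ d, W d ≤ V d)
    (hWmono : ∀ d, W d ≤ W (d + 1)) (hXW : ∀ d, (W d).map X ≤ W (d + 1)) {d₀ : ℕ}
    [Module.Finite k (V d₀)]
    (hgen : ∀ d, d₀ ≤ d → V (d + 1) ≤ V d ⊔ (V d).map X)
    (h0 : ∀ v ∈ V d₀, ∃ r, v ∈ W (d₀ + r))
    (h1 : ∀ v ∈ V d₀, ∃ r, (X ^ r) v ∈ W (d₀ + r)) :
    ∃ d₁, ∀ d, d₁ ≤ d → W d = V d := by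
  obtain ⟨d₁, h⟩ := eventually_le hWmono hXW hgen h0 h1
  exact ⟨d₁, fun d hd => le_antisymm (hWV d) (h d hd)⟩

end Fermat.Agent.S34.Euler.Filtered
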