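import Mathlib
import Fermat.Agent.S18.NonSpecial
import Fermat.Agent.S18.A.RiemannBasic
import Fermat.Agent.S34.NodalGeneric

/-!
# PROJECT U (S34), Euler characteristic, step 2a: values at places of degree one

`HasValue v h c` : the function `h` takes the value `c ∈ K` at the place `v`
(`v (h - c) < 1`).  Values are unique, additive, multiplicative; at a place of degree one every
regular function has a value.  For a divisor `D` with `D (s i) = 0` at finitely many places
`s i` of degree one we get the evaluation map `evalRR : L(D) →ₗ[K] (ι → K)`, whose kernel is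
`L(D - ∑ s i)`; it is onto as soon as `ℓ(D) = ℓ(D - ∑ s i) + #ι` (Riemann's theorem in large
degree).
-/

set_option autoImplicit false

noncomputable section

namespace Fermat.Agent.S34.Euler.Value

open AlgebraicCurve Fermat.Agent.S18.NonSpecial

variable {K : Type*} [Field K] {F : Type*} [Field F] [Algebra K F]

/-- `h` takes the value `c` at `v`. -/
def HasValue (v : Place K F) (h : F) (c : K) : Prop :=
  v.adicValuation (h - algebraMap K F c) < 1

theorem hasValue_const (v : Place K F) (c : K) : HasValue v (algebraMap K F c) c := by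
  simp [HasValue]

theorem hasValue_zero_iff (v : Place K F) {h : F} : HasValue v h 0 ↔ v.adicValuation h < 1 := by
  simp [HasValue]

theorem HasValue.unique {v : Place K F} {h : F} {c c' : K} (hc : HasValue v h c)
    (hc' : HasValue v h c') : c = c' := by
  have h1 : v.adicValuation (algebraMap K F (c' - c)) < 1 := by
    have : algebraMap K F (c' - c) = (h - algebraMap K F c) - (h - algebraMap K F c') := by
      rw [map_sub]; ring
    rw [this]
    exact lt_of_le_of_lt (Valuation.map_sub _ _ _) (max_lt hc hc')
  have := Fermat.Agent.S34.NodalGeneric.eq_zero_of_adicValuation_algebraMap_lt_one v h1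
  exact (sub_eq_zero.mp this).symm

theorem HasValue.le_one {v : Place K F} {h : F} {c : K} (hc : HasValue v h c) :
    v.adicValuation h ≤ 1 := by
  have h1 : v.adicValuation (algebraMap K F c) ≤ 1 :=
    (Fermat.Agent.S24.Ord.mem_iff v _).mp (v.algebraMap_mem' c)
  have : h = (h - algebraMap K F c) + algebraMap K F c := by ring
  rw [this]
  exact (Valuation.map_add _ _ _).trans (max_le hc.le h1)

theorem HasValue.add {v : Place K F} {h h' : F} {c c' : K} (hc : HasValue v h c)
    (hc' : HasValue v h' c') : HasValue v (h + h') (c + c') := by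
  unfold HasValue
  have : h + h' - algebraMap K F (c + c') = (h - algebraMap K F c) + (h' - algebraMap K F c') := by
    rw [map_add]; ring
  rw [this]
  exact lt_of_le_of_lt (Valuation.map_add _ _ _) (max_lt hc hc')

theorem HasValue.sub {v : Place K F} {h h' : F} {c c' : K} (hc : HasValue v h c)
    (hc' : HasValue v h' c') : HasValue v (h - h') (c - c') := by
  unfold HasValue
  have : h - h' - algebraMap K F (c - c') = (h - algebraMap K F c) - (h' - algebraMap K F c') := by
    rw [map_sub]; ring
  rw [this]
  exact lt_of_le_of_lt (Valuation.map_sub _ _ _) (max_lt hc hc')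

theorem HasValue.mul {v : Place K F} {h h' : F} {c c' : K} (hc : HasValue v h c)
    (hc' : HasValue v h' c') : HasValue v (h * h') (c * c') := by
  unfold HasValue
  have : h * h' - algebraMap K F (c * c')
      = (h - algebraMap K F c) * h' + algebraMap K F c * (h' - algebraMap K F c') := by
    rw [map_mul]; ring
  rw [this]
  have h1 : v.adicValuation (algebraMap K F c) ≤ 1 :=
    (Fermat.Agent.S24.Ord.mem_iff v _).mp (v.algebraMap_mem' c)
  refine lt_of_le_of_lt (Valuation.map_add _ _ _) (max_lt ?_ ?_)
  · rw [map_mul]
    exact mul_lt_one_of_lt_of_le hc hc'.le_one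
  · rw [map_mul]
    calc v.adicValuation (algebraMap K F c) * v.adicValuation (h' - algebraMap K F c')
        ≤ 1 * v.adicValuation (h' - algebraMap K F c') := mul_le_mul_left h1 _
      _ = v.adicValuation (h' - algebraMap K F c') := one_mul _
      _ < 1 := hc'

theorem HasValue.smul {v : Place K F} {h : F} {c : K} (a : K) (hc : HasValue v h c) :
    HasValue v (a • h) (a * c) := by
  rw [Algebra.smul_def]
  exact (hasValue_const v a).mul hc

theorem HasValue.pow {v : Place K F} {h : F} {c : K} (hc : HasValue v h c) (n : ℕ) :
    HasValue v (h ^ n) (c ^ n) := by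
  induction n with
  | zero =>
    have := hasValue_const v (1 : K)
    simpa using this
  | succ n ih =>
    rw [pow_succ, pow_succ]
    exact ih.mul hc

theorem exists_hasValue (v : Place K F) (hv : v.deg = 1) {h : F} (hh : v.adicValuation h ≤ 1) :
    ∃ c : K, HasValue v h c :=
  Fermat.Agent.S18.A.Riemann.exists_sub_const_lt_one v hv hh

/-- the value of a regular function at a place of degree one (junk value `0` otherwise) -/
def value (v : Place K F) (h : F) : K :=
  open Classical in if hx : ∃ c : K, HasValue v h c then hx.choose else 0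

theorem hasValue_value {v : Place K F} {h : F} (hx : ∃ c : K, HasValue v h c) :
    HasValue v h (value v h) := by
  rw [value, dif_pos hx]
  exact hx.choose_spec

theorem HasValue.value_eq {v : Place K F} {h : F} {c : K} (hc : HasValue v h c) :
    value v h = c :=
  (hasValue_value ⟨c, hc⟩).unique hc

/-- A submodule of functions which are regular at `v`. -/
def RegAt (v : Place K F) (L : Submodule K F) : Prop := ∀ h ∈ L, v.adicValuation h ≤ 1

/-- evaluation at a place of degree one, on a space of regular functions -/
def evalₗ (v : Place K F) (hv : v.deg = 1) (L : Submodule K F) (hL : RegAt v L) : L →ₗ[K] K where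
  toFun h := value v (h : F)
  map_add' h h' := by
    have h1 := hasValue_value (exists_hasValue v hv (hL h h.2))
    have h2 := hasValue_value (exists_hasValue v hv (hL h' h'.2))
    exact (h1.add h2).value_eq
  map_smul' a h := by
    have h1 := hasValue_value (exists_hasValue v hv (hL h h.2))
    exact (h1.smul a).value_eq

theorem hasValue_evalₗ (v : Place K F) (hv : v.deg = 1) (L : Submodule K F) (hL : RegAt v L)
    (h : L) : HasValue v (h : F) (evalₗ v hv L hL h) :=
  hasValue_value (exists_hasValue v hv (hL h h.2))

/-- evaluation at finitely many places of degree one -/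
def evalFam {ι : Type*} (s : ι → Place K F) (hs : ∀ i, (s i).deg = 1) (L : Submodule K F)
    (hL : ∀ i, RegAt (s i) L) : L →ₗ[K] (ι → K) :=
  LinearMap.pi fun i => evalₗ (s i) (hs i) L (hL i)

theorem hasValue_evalFam {ι : Type*} (s : ι → Place K F) (hs : ∀ i, (s i).deg = 1)
    (L : Submodule K F) (hL : ∀ i, RegAt (s i) L) (h : L) (i : ι) :
    HasValue (s i) (h : F) (evalFam s hs L hL h i) :=
  hasValue_evalₗ (s i) (hs i) L (hL i) h

theorem mem_ker_evalFam {ι : Type*} (s : ι → Place K F) (hs : ∀ i, (s i).deg = 1)
    (L : Submodule K F) (hL : ∀ i, RegAt (s i) L) (h : L) :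
    h ∈ LinearMap.ker (evalFam s hs L hL) ↔ ∀ i, (s i).adicValuation (h : F) < 1 := by
  rw [LinearMap.mem_ker]
  constructor
  · intro h0 i
    have := hasValue_evalFam s hs L hL h i
    rw [h0] at this
    exact (hasValue_zero_iff _).mp this
  · intro h0
    funext i
    exact ((hasValue_evalFam s hs L hL h i).unique ((hasValue_zero_iff _).mpr (h0 i)))

/-! ### The Riemann–Roch space of a divisor which is `0` at the places `s i` -/

/-- elements of `L(D)` are regular at `v` when `D v ≤ 0` -/
theorem regAt_rr {D : Divisor K F} {v : Place K F} (hD : D v ≤ 0) :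
    RegAt v (riemannRochSpace D) := by
  intro h hh
  rw [mem_riemannRochSpace_iff] at hh
  rcases eq_or_ne h 0 with rfl | h0
  · simp
  · have := (hh v).resolve_left h0
    rw [← Fermat.Agent.S24.Ord.ord_nonneg_iff v h0]
    omega

/-- the divisor `∑ i, s i` -/
def sumFam {ι : Type*} [Fintype ι] (s : ι → Place K F) : Divisor K F :=
  ∑ i, Finsupp.single (s i) (1 : ℤ)

theorem sumFam_apply {ι : Type*} [Fintype ι] {s : ι → Place K F} (hs : Function.Injective s)
    (i : ι) : sumFam s (s i) = 1 := by
  classical
  unfold sumFam
  rw [Finsupp.finsetSum_apply]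
  simp only [Finsupp.single_apply]
  rw [Finset.sum_eq_single i]
  · simp
  · intro j _ hji
    rw [if_neg]
    intro h
    exact hji (hs h)
  · intro h
    exact absurd (Finset.mem_univ i) h

theorem sumFam_apply_of_not_mem {ι : Type*} [Fintype ι] {s : ι → Place K F} {v : Place K F}
    (hv : ∀ i, s i ≠ v) : sumFam s v = 0 := by
  classical
  unfold sumFam
  rw [Finsupp.finsetSum_apply]
  apply Finset.sum_eq_zero
  intro i _
  rw [Finsupp.single_apply, if_neg (hv i)]

theorem sumFam_nonneg {ι : Type*} [Fintype ι] (s : ι → Place K F) : 0 ≤ sumFam s := by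
  unfold sumFam
  apply Finset.sum_nonneg
  intro i _
  exact Fermat.Agent.S18.NonSpecial.single_nonneg (s i)

theorem degree_sumFam {ι : Type*} [Fintype ι] (s : ι → Place K F) (hs : ∀ i, (s i).deg = 1) :
    Divisor.degree (sumFam s) = Fintype.card ι := by
  unfold sumFam
  rw [map_sum]
  simp only [Divisor.degree_single, hs]
  simp

/-- the kernel of the evaluation map on `L(D)` is `L(D - ∑ s i)` -/
theorem mem_rr_sub_sumFam_iff {ι : Type*} [Fintype ι] {s : ι → Place K F}
    (hinj : Function.Injective s) {D : Divisor K F} (hD : ∀ i, D (s i) = 0) {h : F}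
    (hh : h ∈ riemannRochSpace D) :
    h ∈ riemannRochSpace (D - sumFam s) ↔ ∀ i, (s i).adicValuation h < 1 := by
  rcases eq_or_ne h 0 with rfl | h0
  · simp
  rw [mem_riemannRochSpace_iff] at hh ⊢
  constructor
  · intro hm i
    have := (hm (s i)).resolve_left h0
    rw [Finsupp.sub_apply, hD i, sumFam_apply hinj] at this
    rw [← Fermat.Agent.S24.Ord.ord_pos_iff _ h0]
    omega
  · intro hm v
    right
    have h1 := (hh v).resolve_left h0
    by_cases hv : ∃ i, s i = v
    · obtain ⟨i, rfl⟩ := hv
      rw [Finsupp.sub_apply, hD i, sumFam_apply hinj]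
      have := (Fermat.Agent.S24.Ord.ord_pos_iff _ h0).mpr (hm i)
      omega
    · push Not at hv
      rw [Finsupp.sub_apply, sumFam_apply_of_not_mem hv]
      omega

/-- The evaluation map `L(D) → K^ι`. -/
def evalRR {ι : Type*} (s : ι → Place K F) (hs : ∀ i, (s i).deg = 1) (D : Divisor K F)
    (hD : ∀ i, D (s i) = 0) : riemannRochSpace D →ₗ[K] (ι → K) :=
  evalFam s hs (riemannRochSpace D) fun i => regAt_rr (le_of_eq (hD i))

theorem hasValue_evalRR {ι : Type*} (s : ι → Place K F) (hs : ∀ i, (s i).deg = 1)
    (D : Divisor K F) (hD : ∀ i, D (s i) = 0) (h : riemannRochSpace D) (i : ι) :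
    HasValue (s i) (h : F) (evalRR s hs D hD h i) :=
  hasValue_evalFam s hs _ _ h i

/-- **Surjectivity of evaluation** from the dimension count. -/
theorem evalRR_surjective {ι : Type*} [Fintype ι] (s : ι → Place K F)
    (hs : ∀ i, (s i).deg = 1) (hinj : Function.Injective s) (D : Divisor K F)
    (hD : ∀ i, D (s i) = 0) [Module.Finite K (riemannRochSpace D)]
    (hdim : ell D = ell (D - sumFam s) + Fintype.card ι) :
    Function.Surjective (evalRR s hs D hD) := by
  classical
  rw [← LinearMap.range_eq_top]
  apply Submodule.eq_top_of_finrank_eq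
  rw [Module.finrank_pi, Fintype.card]
  have h1 := LinearMap.finrank_range_add_finrank_ker (evalRR s hs D hD)
  -- the kernel is `L(D - ∑ s i)`
  have hker : Module.finrank K (LinearMap.ker (evalRR s hs D hD)) = ell (D - sumFam s) := by
    have hle : riemannRochSpace (D - sumFam s) ≤ riemannRochSpace D :=
      riemannRochSpace_mono (sub_le_self _ (sumFam_nonneg s))
    have : LinearMap.ker (evalRR s hs D hD)
        = (riemannRochSpace (D - sumFam s)).comap (riemannRochSpace D).subtype := by
      ext h
      rw [evalRR, mem_ker_evalFam, Submodule.mem_comap, Submodule.subtype_apply,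
        mem_rr_sub_sumFam_iff hinj hD h.2]
    rw [this]
    unfold ell
    exact (Submodule.comapSubtypeEquivOfLe hle).finrank_eq
  have h2 : Module.finrank K (riemannRochSpace D) = ell D := rfl
  rw [hker, h2, hdim] at h1
  simp only [Fintype.card] at h1
  omega

end Fermat.Agent.S34.Euler.Value
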