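import Mathlib
import Fermat.Agent.S34.Euler.Value
import Fermat.Agent.S37.Deuring.FundIneq

/-!
# PROJECT U (S34), Euler characteristic, step 2b: sections on a nodal curve with two components

Two function fields `κ₁, κ₂` over `k`, nodes `s₁ i ↔ s₂ i` (places of degree one).
`glued s₁ s₂ E₁ E₂` is the space of pairs `(h₁, h₂) ∈ L(E₁) × L(E₂)` taking a common value at
every node.

* `finrank_glued` : `dim glued + #nodes = ℓ(E₁) + ℓ(E₂)` as soon as evaluation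
  `L(E₁) → k^nodes` is onto (dimension criterion `ℓ(E₁) = ℓ(E₁ - ∑ s₁ i) + #nodes`).
* for `x̄ = (x₁, x₂)` glued with pole divisors `E₁, E₂`: multiplication by `x̄` maps
  `V d := glued (d E₁) (d E₂)` into `V (d+1)`, and `V (d+1) ∩ x̄ V (d+1) ≤ x̄ V d`.
* `generation_of_finrank` (abstract): an affine-linear dimension formula gives
  `V (d+1) = V d + x̄ V d` for large `d`.
-/

set_option autoImplicit false
set_option linter.unusedSectionVars false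

noncomputable section

namespace Fermat.Agent.S34.Euler.Glued

open AlgebraicCurve Fermat.Agent.S18.NonSpecial Fermat.Agent.S34.Euler.Value
  Fermat.Agent.S37.Deuring.Core

variable {k : Type*} [Field k]
variable {κ₁ : Type*} [Field κ₁] [Algebra k κ₁] {κ₂ : Type*} [Field κ₂] [Algebra k κ₂]
variable {ι : Type*}

/-- common value at the node `i` -/
def GluedAt (s₁ : ι → Place k κ₁) (s₂ : ι → Place k κ₂) (i : ι) (p : κ₁ × κ₂) : Prop :=
  ∃ c : k, HasValue (s₁ i) p.1 c ∧ HasValue (s₂ i) p.2 c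

theorem GluedAt.add {s₁ : ι → Place k κ₁} {s₂ : ι → Place k κ₂} {i : ι} {p p' : κ₁ × κ₂}
    (h : GluedAt s₁ s₂ i p) (h' : GluedAt s₁ s₂ i p') : GluedAt s₁ s₂ i (p + p') := by
  obtain ⟨c, h1, h2⟩ := h
  obtain ⟨c', h1', h2'⟩ := h'
  exact ⟨c + c', h1.add h1', h2.add h2'⟩

theorem GluedAt.smul {s₁ : ι → Place k κ₁} {s₂ : ι → Place k κ₂} {i : ι} {p : κ₁ × κ₂}
    (a : k) (h : GluedAt s₁ s₂ i p) : GluedAt s₁ s₂ i (a • p) := by
  obtain ⟨c, h1, h2⟩ := h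
  exact ⟨a * c, h1.smul a, h2.smul a⟩

theorem GluedAt.mul {s₁ : ι → Place k κ₁} {s₂ : ι → Place k κ₂} {i : ι} {p p' : κ₁ × κ₂}
    (h : GluedAt s₁ s₂ i p) (h' : GluedAt s₁ s₂ i p') : GluedAt s₁ s₂ i (p * p') := by
  obtain ⟨c, h1, h2⟩ := h
  obtain ⟨c', h1', h2'⟩ := h'
  exact ⟨c * c', h1.mul h1', h2.mul h2'⟩

theorem gluedAt_zero (s₁ : ι → Place k κ₁) (s₂ : ι → Place k κ₂) (i : ι) :
    GluedAt s₁ s₂ i 0 :=
  ⟨0, by simp [HasValue], by simp [HasValue]⟩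

/-- The space of sections: pairs in `L(E₁) × L(E₂)` glued along the nodes. -/
def glued (s₁ : ι → Place k κ₁) (s₂ : ι → Place k κ₂) (E₁ : Divisor k κ₁) (E₂ : Divisor k κ₂) :
    Submodule k (κ₁ × κ₂) where
  carrier := {p | p.1 ∈ riemannRochSpace E₁ ∧ p.2 ∈ riemannRochSpace E₂ ∧
    ∀ i, GluedAt s₁ s₂ i p}
  zero_mem' := ⟨Submodule.zero_mem _, Submodule.zero_mem _, fun i => gluedAt_zero s₁ s₂ i⟩
  add_mem' := by
    rintro p p' ⟨h1, h2, h3⟩ ⟨h1', h2', h3'⟩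
    exact ⟨Submodule.add_mem _ h1 h1', Submodule.add_mem _ h2 h2', fun i => (h3 i).add (h3' i)⟩
  smul_mem' := by
    rintro a p ⟨h1, h2, h3⟩
    exact ⟨Submodule.smul_mem _ a h1, Submodule.smul_mem _ a h2, fun i => (h3 i).smul a⟩

theorem mem_glued {s₁ : ι → Place k κ₁} {s₂ : ι → Place k κ₂} {E₁ : Divisor k κ₁}
    {E₂ : Divisor k κ₂} {p : κ₁ × κ₂} :
    p ∈ glued s₁ s₂ E₁ E₂ ↔ p.1 ∈ riemannRochSpace E₁ ∧ p.2 ∈ riemannRochSpace E₂ ∧
      ∀ i, GluedAt s₁ s₂ i p := Iff.rfl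

theorem glued_mono {s₁ : ι → Place k κ₁} {s₂ : ι → Place k κ₂} {E₁ E₁' : Divisor k κ₁}
    {E₂ E₂' : Divisor k κ₂} (h₁ : E₁ ≤ E₁') (h₂ : E₂ ≤ E₂') :
    glued s₁ s₂ E₁ E₂ ≤ glued s₁ s₂ E₁' E₂' := by
  rintro p ⟨h1, h2, h3⟩
  exact ⟨riemannRochSpace_mono h₁ h1, riemannRochSpace_mono h₂ h2, h3⟩

/-! ### The dimension of the glued space -/

section Dimension

variable [Fintype ι] (s₁ : ι → Place k κ₁) (s₂ : ι → Place k κ₂)
  (hs₁ : ∀ i, (s₁ i).deg = 1) (hs₂ : ∀ i, (s₂ i).deg = 1)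
  (E₁ : Divisor k κ₁) (E₂ : Divisor k κ₂)
  (hE₁ : ∀ i, E₁ (s₁ i) = 0) (hE₂ : ∀ i, E₂ (s₂ i) = 0)

/-- the difference of the two evaluation maps -/
def delta : (riemannRochSpace E₁ × riemannRochSpace E₂) →ₗ[k] (ι → k) :=
  (evalRR s₁ hs₁ E₁ hE₁).comp (LinearMap.fst k _ _) -
    (evalRR s₂ hs₂ E₂ hE₂).comp (LinearMap.snd k _ _)

/-- the inclusion `L(E₁) × L(E₂) → κ₁ × κ₂` -/
def incl : (riemannRochSpace E₁ × riemannRochSpace E₂) →ₗ[k] (κ₁ × κ₂) :=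
  LinearMap.prodMap (riemannRochSpace E₁).subtype (riemannRochSpace E₂).subtype

theorem incl_injective : Function.Injective (incl (k := k) E₁ E₂) := by
  rintro ⟨a, b⟩ ⟨a', b'⟩ h
  simp only [incl, LinearMap.prodMap_apply, Submodule.subtype_apply, Prod.mk.injEq] at h
  exact Prod.ext (Subtype.ext h.1) (Subtype.ext h.2)

theorem glued_eq_map :
    glued s₁ s₂ E₁ E₂ = (LinearMap.ker (delta s₁ s₂ hs₁ hs₂ E₁ E₂ hE₁ hE₂)).map (incl E₁ E₂) := by
  ext p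
  rw [mem_glued, Submodule.mem_map]
  constructor
  · rintro ⟨h1, h2, h3⟩
    refine ⟨(⟨p.1, h1⟩, ⟨p.2, h2⟩), ?_, rfl⟩
    rw [LinearMap.mem_ker, delta, LinearMap.sub_apply, sub_eq_zero]
    funext i
    obtain ⟨c, hc1, hc2⟩ := h3 i
    have e1 := (hasValue_evalRR s₁ hs₁ E₁ hE₁ ⟨p.1, h1⟩ i).unique hc1
    have e2 := (hasValue_evalRR s₂ hs₂ E₂ hE₂ ⟨p.2, h2⟩ i).unique hc2
    simp only [LinearMap.comp_apply, LinearMap.fst_apply, LinearMap.snd_apply]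
    rw [e1, e2]
  · rintro ⟨⟨a, b⟩, hker, rfl⟩
    refine ⟨a.2, b.2, fun i => ?_⟩
    rw [LinearMap.mem_ker, delta, LinearMap.sub_apply, sub_eq_zero] at hker
    have hi := congrFun hker i
    simp only [LinearMap.comp_apply, LinearMap.fst_apply, LinearMap.snd_apply] at hi
    refine ⟨evalRR s₁ hs₁ E₁ hE₁ a i, hasValue_evalRR s₁ hs₁ E₁ hE₁ a i, ?_⟩
    rw [hi]
    exact hasValue_evalRR s₂ hs₂ E₂ hE₂ b i

include hs₂ hE₂ in
/-- **Dimension of the glued space**, when evaluation on the first component is onto. -/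
theorem finrank_glued [Module.Finite k (riemannRochSpace E₁)]
    [Module.Finite k (riemannRochSpace E₂)]
    (hsurj : Function.Surjective (evalRR s₁ hs₁ E₁ hE₁)) :
    Module.finrank k (glued s₁ s₂ E₁ E₂) + Fintype.card ι = ell E₁ + ell E₂ := by
  classical
  rw [glued_eq_map s₁ s₂ hs₁ hs₂ E₁ E₂ hE₁ hE₂]
  have h1 : Module.finrank k ((LinearMap.ker (delta s₁ s₂ hs₁ hs₂ E₁ E₂ hE₁ hE₂)).map (incl E₁ E₂))
      = Module.finrank k (LinearMap.ker (delta s₁ s₂ hs₁ hs₂ E₁ E₂ hE₁ hE₂)) :=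
    (Submodule.equivMapOfInjective (incl E₁ E₂) (incl_injective E₁ E₂) _).finrank_eq.symm
  rw [h1]
  have hsurjΔ : Function.Surjective (delta s₁ s₂ hs₁ hs₂ E₁ E₂ hE₁ hE₂) := by
    intro y
    obtain ⟨a, ha⟩ := hsurj y
    refine ⟨(a, 0), ?_⟩
    simp [delta, ha]
  have h2 := LinearMap.finrank_range_add_finrank_ker (delta s₁ s₂ hs₁ hs₂ E₁ E₂ hE₁ hE₂)
  rw [LinearMap.range_eq_top.mpr hsurjΔ, finrank_top, Module.finrank_pi, Module.finrank_prod] at h2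
  simp only [Fintype.card] at h2 ⊢
  unfold ell
  omega

theorem finite_glued [Module.Finite k (riemannRochSpace E₁)]
    [Module.Finite k (riemannRochSpace E₂)] : Module.Finite k (glued s₁ s₂ E₁ E₂) := by
  have hle : glued s₁ s₂ E₁ E₂ ≤ (Submodule.prod (riemannRochSpace E₁) (riemannRochSpace E₂)) := by
    rintro p ⟨h1, h2, -⟩
    exact ⟨h1, h2⟩
  have : Module.Finite k (Submodule.prod (riemannRochSpace E₁) (riemannRochSpace E₂)) := by
    have e : (Submodule.prod (riemannRochSpace E₁) (riemannRochSpace E₂))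
        = (⊤ : Submodule k (riemannRochSpace E₁ × riemannRochSpace E₂)).map (incl E₁ E₂) := by
      ext p
      simp only [Submodule.mem_prod, Submodule.mem_map, Submodule.mem_top, true_and]
      constructor
      · rintro ⟨h1, h2⟩
        exact ⟨(⟨p.1, h1⟩, ⟨p.2, h2⟩), rfl⟩
      · rintro ⟨⟨a, b⟩, rfl⟩
        exact ⟨a.2, b.2⟩
    rw [e]
    infer_instance
  exact Submodule.finiteDimensional_of_le hle

end Dimension

/-! ### Multiplication by `x̄` -/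

section Mul

variable (s₁ : ι → Place k κ₁) (s₂ : ι → Place k κ₂)
  {x₁ : κ₁} {x₂ : κ₂} {E₁ : Divisor k κ₁} {E₂ : Divisor k κ₂}

/-- multiplication by `(x₁, x₂)` on `κ₁ × κ₂` -/
def mulX (x₁ : κ₁) (x₂ : κ₂) : (κ₁ × κ₂) →ₗ[k] (κ₁ × κ₂) :=
  LinearMap.mulLeft k ((x₁, x₂) : κ₁ × κ₂)

@[simp] theorem mulX_apply (x₁ : κ₁) (x₂ : κ₂) (p : κ₁ × κ₂) :
    mulX (k := k) x₁ x₂ p = (x₁ * p.1, x₂ * p.2) := rfl

theorem mulX_injective (h₁ : x₁ ≠ 0) (h₂ : x₂ ≠ 0) : Function.Injective (mulX (k := k) x₁ x₂) := by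
  rintro ⟨a, b⟩ ⟨a', b'⟩ h
  simp only [mulX_apply, Prod.mk.injEq] at h
  exact Prod.ext (mul_left_cancel₀ h₁ h.1) (mul_left_cancel₀ h₂ h.2)

theorem mulX_pow_apply (x₁ : κ₁) (x₂ : κ₂) (r : ℕ) (p : κ₁ × κ₂) :
    (mulX (k := k) x₁ x₂ ^ r) p = (x₁ ^ r * p.1, x₂ ^ r * p.2) := by
  induction r generalizing p with
  | zero => simp
  | succ r ih =>
    rw [pow_succ, Module.End.mul_apply, ih, mulX_apply]
    simp only [pow_succ, mul_assoc]

/-- the filtration `V d = glued (d E₁) (d E₂)` -/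
def V (E₁ : Divisor k κ₁) (E₂ : Divisor k κ₂) (d : ℕ) : Submodule k (κ₁ × κ₂) :=
  glued s₁ s₂ (d • E₁) (d • E₂)

theorem V_mono (h₁ : 0 ≤ E₁) (h₂ : 0 ≤ E₂) (d : ℕ) : V s₁ s₂ E₁ E₂ d ≤ V s₁ s₂ E₁ E₂ (d + 1) := by
  apply glued_mono
  · rw [succ_nsmul]; exact le_add_of_nonneg_right h₁
  · rw [succ_nsmul]; exact le_add_of_nonneg_right h₂

theorem map_mulX_V_le (hx₁ : IsPoleDiv x₁ E₁) (hx₂ : IsPoleDiv x₂ E₂)
    (hx : ∀ i, GluedAt s₁ s₂ i (x₁, x₂)) (d : ℕ) :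
    (V s₁ s₂ E₁ E₂ d).map (mulX x₁ x₂) ≤ V s₁ s₂ E₁ E₂ (d + 1) := by
  rintro _ ⟨p, ⟨h1, h2, h3⟩, rfl⟩
  refine ⟨?_, ?_, fun i => ?_⟩
  · have := Fermat.Agent.S37.Deuring.FundIneq.mul_mem_rr
      (Fermat.Agent.S37.Deuring.FundIneq.mem_rr_of_isPoleDiv hx₁) h1
    rw [succ_nsmul, add_comm]
    exact this
  · have := Fermat.Agent.S37.Deuring.FundIneq.mul_mem_rr
      (Fermat.Agent.S37.Deuring.FundIneq.mem_rr_of_isPoleDiv hx₂) h2
    rw [succ_nsmul, add_comm]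
    exact this
  · exact (hx i).mul (h3 i)

/-- if `a ∈ L((d+1) E)` and `x a ∈ L((d+1) E)` with `(x)_∞ = E`, then `a ∈ L(d E)` -/
theorem mem_rr_of_mul_mem {F : Type*} [Field F] [Algebra k F] {x : F} {E : Divisor k F}
    (hx : IsPoleDiv x E) {a : F} {d : ℕ} (ha : a ∈ riemannRochSpace ((d + 1) • E))
    (hxa : x * a ∈ riemannRochSpace ((d + 1) • E)) : a ∈ riemannRochSpace (d • E) := by
  rcases eq_or_ne a 0 with rfl | ha0
  · exact Submodule.zero_mem _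
  rw [mem_riemannRochSpace_iff] at ha hxa ⊢
  intro v
  right
  have h1 := (ha v).resolve_left ha0
  rw [Finsupp.smul_apply, nsmul_eq_mul] at h1 ⊢
  have hE := hx v
  by_cases hpos : 0 < E v
  · -- a pole of `x`
    have hordx : v.ord x = - E v := by
      rcases le_total 0 (- v.ord x) with h | h
      · rw [max_eq_right h] at hE; omega
      · rw [max_eq_left h] at hE; omega
    have hx0 : x ≠ 0 := by
      rintro rfl
      rw [Place.ord_zero] at hordx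
      omega
    have h2 := (hxa v).resolve_left (mul_ne_zero hx0 ha0)
    rw [v.ord_mul hx0 ha0, hordx, Finsupp.smul_apply, nsmul_eq_mul] at h2
    push_cast at h2 ⊢
    nlinarith
  · have hE0 : E v = 0 := by
      have : 0 ≤ E v := by rw [hE]; exact le_max_left _ _
      omega
    rw [hE0] at h1 ⊢
    simpa using h1

theorem V_inf_map_le (hx₁ : IsPoleDiv x₁ E₁) (hx₂ : IsPoleDiv x₂ E₂) (d : ℕ) :
    V s₁ s₂ E₁ E₂ (d + 1) ⊓ (V s₁ s₂ E₁ E₂ (d + 1)).map (mulX x₁ x₂)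
      ≤ (V s₁ s₂ E₁ E₂ d).map (mulX x₁ x₂) := by
  rintro _ ⟨⟨h1, h2, -⟩, ⟨a, ⟨ha1, ha2, ha3⟩, rfl⟩⟩
  refine ⟨a, ⟨?_, ?_, ha3⟩, rfl⟩
  · exact mem_rr_of_mul_mem hx₁ ha1 h1
  · exact mem_rr_of_mul_mem hx₂ ha2 h2

end Mul

/-! ### Generation from an affine-linear dimension formula (abstract) -/

theorem generation_of_finrank {Ω : Type*} [AddCommGroup Ω] [Module k Ω]
    {V : ℕ → Submodule k Ω} {X : Ω →ₗ[k] Ω} (hinj : Function.Injective X)
    [∀ d, Module.Finite k (V d)]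
    (hmono : ∀ d, V d ≤ V (d + 1)) (hX : ∀ d, (V d).map X ≤ V (d + 1))
    (hcap : ∀ d, V (d + 1) ⊓ (V (d + 1)).map X ≤ (V d).map X)
    (n c : ℤ) (d₀ : ℕ) (hf : ∀ d, d₀ ≤ d → (Module.finrank k (V d) : ℤ) = d * n + c) :
    ∀ d, d₀ + 1 ≤ d → V (d + 1) ≤ V d ⊔ (V d).map X := by
  intro d hd
  obtain ⟨e, rfl⟩ : ∃ e, d = e + 1 := ⟨d - 1, by omega⟩
  have hmapfin : ∀ d, Module.finrank k ((V d).map X) = Module.finrank k (V d) := fun d =>
    (Submodule.equivMapOfInjective X hinj (V d)).finrank_eq.symm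
  have hle : V (e + 1) ⊔ (V (e + 1)).map X ≤ V (e + 1 + 1) := sup_le (hmono _) (hX _)
  have h1 := Submodule.finrank_sup_add_finrank_inf_eq (V (e + 1)) ((V (e + 1)).map X)
  have h2 : Module.finrank k (↥(V (e + 1) ⊓ (V (e + 1)).map X)) ≤ Module.finrank k (V e) := by
    rw [← hmapfin e]
    exact Submodule.finrank_mono (hcap e)
  have f0 := hf e (by omega)
  have f1 := hf (e + 1) (by omega)
  have f2 := hf (e + 1 + 1) (by omega)
  rw [hmapfin] at h1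
  have h3 : Module.finrank k (V (e + 1 + 1)) ≤ Module.finrank k ↥(V (e + 1) ⊔ (V (e + 1)).map X) := by
    have : (Module.finrank k (V (e + 1 + 1)) : ℤ)
        ≤ Module.finrank k ↥(V (e + 1) ⊔ (V (e + 1)).map X) := by
      have h1' : (Module.finrank k ↥(V (e + 1) ⊔ (V (e + 1)).map X) : ℤ)
          + Module.finrank k ↥(V (e + 1) ⊓ (V (e + 1)).map X)
          = Module.finrank k (V (e + 1)) + Module.finrank k (V (e + 1)) := by exact_mod_cast h1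
      have h2' : (Module.finrank k ↥(V (e + 1) ⊓ (V (e + 1)).map X) : ℤ)
          ≤ Module.finrank k (V e) := by exact_mod_cast h2
      push_cast at f0 f1 f2
      linarith
    exact_mod_cast this
  exact (Submodule.eq_of_le_of_finrank_le hle h3).ge

end Fermat.Agent.S34.Euler.Glued
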