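import Mathlib
import Fermat.Agent.S34.Euler.Filtered
import Fermat.Agent.S34.Euler.Glued

/-!
# PROJECT U (S34), Euler characteristic, step 3: the genus of a function field with a
two-component nodal reduction

`FL / L` a function field of genus `g` (Riemann's theorem as a hypothesis), `κ₁, κ₂ / k` function
fields of genus `g₁, g₂`, nodes `s₁ i ↔ s₂ i` (`i : ι`).  `x̄ = (x₁, x₂)` a pair of non-constant
functions glued at the nodes, with pole divisors `E₁, E₂` (off the nodes); `D` a divisor of `FL`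
(the pole divisor of a lift `x`) with `deg D = deg E₁ + deg E₂` (fundamental equality).

`W d ≤ κ₁ × κ₂` is the reduction of the lattice `L(d D) ∩ O₁ ∩ O₂`; all we use of it:
it is increasing, stable under multiplication by `x̄` (raising `d` by one), `dim W d ≤ ℓ(d D)`
(lifting of linear independence), and the **two-chart sandwich**: every glued section
`p ∈ V d = glued (d E₁) (d E₂)` lies in some `W (d + r)`, and some `x̄ ^ r p` lies in `W (d + r)`.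

* `genus_le`  : `g + 1 ≤ g₁ + g₂ + #ι`          (the inequality (NC) consumed by the nodal core);
* `genus_eq`  : `g + 1 = g₁ + g₂ + #ι`          if moreover `W d ≤ V d` (pole control) and
  `ℓ(d D) ≤ dim W d` (orthonormal bases).
-/

set_option autoImplicit false
set_option linter.unusedSectionVars false
set_option linter.style.haveILetI false

noncomputable section

namespace Fermat.Agent.S34.Euler.GenusIdentity

open AlgebraicCurve Fermat.Agent.S18.NonSpecial Fermat.Agent.S34.Euler.Value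
  Fermat.Agent.S34.Euler.Glued Fermat.Agent.S37.Deuring.Core

variable {L : Type*} [Field L] {FL : Type*} [Field FL] [Algebra L FL]
variable {k : Type*} [Field k]
variable {κ₁ : Type*} [Field κ₁] [Algebra k κ₁] {κ₂ : Type*} [Field κ₂] [Algebra k κ₂]
variable {ι : Type*} [Fintype ι]

section KSide

variable {g₁ g₂ : ℕ} (H₁ : RiemannHyp k κ₁ g₁) (H₂ : RiemannHyp k κ₂ g₂)
  (s₁ : ι → Place k κ₁) (s₂ : ι → Place k κ₂) (hinj : Function.Injective s₁)
  {E₁ : Divisor k κ₁} {E₂ : Divisor k κ₂}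
  (hE₁ : ∀ i, E₁ (s₁ i) = 0) (hE₂ : ∀ i, E₂ (s₂ i) = 0)
  (hpos₁ : 0 < Divisor.degree E₁) (hpos₂ : 0 < Divisor.degree E₂)

include H₁ H₂ hinj hE₁ hE₂ hpos₁ hpos₂ in
/-- **The dimension of the space of glued sections in large degree.** -/
theorem exists_finrank_V :
    ∃ d₀ : ℕ, ∀ d, d₀ ≤ d → (Module.finrank k (V s₁ s₂ E₁ E₂ d) : ℤ)
      = d * (Divisor.degree E₁ + Divisor.degree E₂) + (2 - g₁ - g₂ - Fintype.card ι) := by
  classical
  obtain ⟨c₁, hc₁⟩ := H₁.riemann_eq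
  obtain ⟨c₂, hc₂⟩ := H₂.riemann_eq
  refine ⟨(max (c₁ + Fintype.card ι) c₂).toNat, fun d hd => ?_⟩
  have hd' : max (c₁ + Fintype.card ι) c₂ ≤ d := by
    have := Int.self_le_toNat (max (c₁ + Fintype.card ι) c₂)
    exact this.trans (by exact_mod_cast hd)
  have hdeg₁ : Divisor.degree (d • E₁) = d * Divisor.degree E₁ := by
    rw [map_nsmul, nsmul_eq_mul]
  have hdeg₂ : Divisor.degree (d • E₂) = d * Divisor.degree E₂ := by
    rw [map_nsmul, nsmul_eq_mul]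
  have hd₁ : c₁ + Fintype.card ι ≤ d * Divisor.degree E₁ := by
    have : (d : ℤ) ≤ d * Divisor.degree E₁ := by nlinarith
    exact ((le_max_left _ _).trans hd').trans this
  have hd₂ : c₂ ≤ d * Divisor.degree E₂ := by
    have : (d : ℤ) ≤ d * Divisor.degree E₂ := by nlinarith
    exact ((le_max_right _ _).trans hd').trans this
  have e₁ : (ell (d • E₁) : ℤ) = d * Divisor.degree E₁ + 1 - g₁ := by
    rw [hc₁ (d • E₁) (by rw [hdeg₁]; linarith [Nat.cast_nonneg (α := ℤ) (Fintype.card ι)]), hdeg₁]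
  have e₂ : (ell (d • E₂) : ℤ) = d * Divisor.degree E₂ + 1 - g₂ := by
    rw [hc₂ (d • E₂) (by rw [hdeg₂]; exact hd₂), hdeg₂]
  have hs₁ : ∀ i, (s₁ i).deg = 1 := fun i => H₁.deg_one _
  have hs₂ : ∀ i, (s₂ i).deg = 1 := fun i => H₂.deg_one _
  have e₁' : (ell (d • E₁ - sumFam s₁) : ℤ) = d * Divisor.degree E₁ + 1 - g₁ - Fintype.card ι := by
    have hdeg : Divisor.degree (d • E₁ - sumFam s₁) = d * Divisor.degree E₁ - Fintype.card ι := by
      rw [map_sub, hdeg₁, degree_sumFam s₁ hs₁]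
    rw [hc₁ _ (by rw [hdeg]; linarith), hdeg]
    ring
  have hE₁' : ∀ i, (d • E₁) (s₁ i) = 0 := fun i => by
    rw [Finsupp.smul_apply, hE₁ i, smul_zero]
  have hE₂' : ∀ i, (d • E₂) (s₂ i) = 0 := fun i => by
    rw [Finsupp.smul_apply, hE₂ i, smul_zero]
  haveI := H₁.finite (d • E₁)
  haveI := H₂.finite (d • E₂)
  have hdim : ell (d • E₁) = ell (d • E₁ - sumFam s₁) + Fintype.card ι := by
    have : (ell (d • E₁) : ℤ) = ell (d • E₁ - sumFam s₁) + Fintype.card ι := by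
      rw [e₁, e₁']; ring
    exact_mod_cast this
  have hsurj := evalRR_surjective s₁ hs₁ hinj (d • E₁) hE₁' hdim
  have hfin := finrank_glued s₁ s₂ hs₁ hs₂ (d • E₁) (d • E₂) hE₁' hE₂' hsurj
  have hfin' : (Module.finrank k (V s₁ s₂ E₁ E₂ d) : ℤ) + Fintype.card ι
      = ell (d • E₁) + ell (d • E₂) := by
    unfold V
    exact_mod_cast hfin
  rw [e₁, e₂] at hfin'
  linarith

end KSide

section Main

variable {g g₁ g₂ : ℕ} (HL : RiemannHyp L FL g) (H₁ : RiemannHyp k κ₁ g₁)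
  (H₂ : RiemannHyp k κ₂ g₂)
  (s₁ : ι → Place k κ₁) (s₂ : ι → Place k κ₂) (hinj : Function.Injective s₁)
  {x₁ : κ₁} {x₂ : κ₂} {E₁ : Divisor k κ₁} {E₂ : Divisor k κ₂}
  (hx₁ : IsPoleDiv x₁ E₁) (hx₂ : IsPoleDiv x₂ E₂)
  (hE₁ : ∀ i, E₁ (s₁ i) = 0) (hE₂ : ∀ i, E₂ (s₂ i) = 0)
  (hpos₁ : 0 < Divisor.degree E₁) (hpos₂ : 0 < Divisor.degree E₂)
  (hxg : ∀ i, GluedAt s₁ s₂ i (x₁, x₂))
  (D : Divisor L FL) (hdeg : Divisor.degree D = Divisor.degree E₁ + Divisor.degree E₂)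
  (W : ℕ → Submodule k (κ₁ × κ₂)) [∀ d, Module.Finite k (W d)]
  (hWmono : ∀ d, W d ≤ W (d + 1))
  (hXW : ∀ d, (W d).map (mulX (k := k) x₁ x₂) ≤ W (d + 1))
  (h0 : ∀ d, ∀ p ∈ V s₁ s₂ E₁ E₂ d, ∃ r, p ∈ W (d + r))
  (h1 : ∀ d, ∀ p ∈ V s₁ s₂ E₁ E₂ d, ∃ r, (mulX (k := k) x₁ x₂ ^ r) p ∈ W (d + r))

include H₁ H₂ hinj hx₁ hx₂ hE₁ hE₂ hpos₁ hpos₂ hxg hWmono hXW h0 h1 in
/-- The reduction of the lattice is eventually ALL glued sections. -/
theorem exists_V_le_W : ∃ d₁ : ℕ, ∀ d, d₁ ≤ d → V s₁ s₂ E₁ E₂ d ≤ W d := by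
  classical
  obtain ⟨d₀, hd₀⟩ := exists_finrank_V H₁ H₂ s₁ s₂ hinj hE₁ hE₂ hpos₁ hpos₂
  have hEnn₁ : 0 ≤ E₁ := hx₁.nonneg
  have hEnn₂ : 0 ≤ E₂ := hx₂.nonneg
  have hx₁0 : x₁ ≠ 0 := by
    rintro rfl
    have : E₁ = 0 := by
      ext v
      rw [hx₁ v]
      simp
    rw [this, map_zero] at hpos₁
    exact lt_irrefl _ hpos₁
  have hx₂0 : x₂ ≠ 0 := by
    rintro rfl
    have : E₂ = 0 := by
      ext v
      rw [hx₂ v]
      simp
    rw [this, map_zero] at hpos₂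
    exact lt_irrefl _ hpos₂
  haveI : ∀ d, Module.Finite k (V s₁ s₂ E₁ E₂ d) := fun d => by
    haveI := H₁.finite (d • E₁)
    haveI := H₂.finite (d • E₂)
    exact finite_glued s₁ s₂ (d • E₁) (d • E₂)
  have hgen := generation_of_finrank (mulX_injective (k := k) hx₁0 hx₂0)
    (V_mono s₁ s₂ hEnn₁ hEnn₂) (map_mulX_V_le s₁ s₂ hx₁ hx₂ hxg)
    (V_inf_map_le s₁ s₂ hx₁ hx₂) _ _ d₀ hd₀
  exact Fermat.Agent.S34.Euler.Filtered.eventually_le (V := V s₁ s₂ E₁ E₂) (W := W)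
    (X := mulX x₁ x₂) (d₀ := d₀ + 1) hWmono hXW hgen (h0 _) (h1 _)

include HL H₁ H₂ hinj hx₁ hx₂ hE₁ hE₂ hpos₁ hpos₂ hxg hdeg hWmono hXW h0 h1 in
/-- **(NC): the genus is at most the arithmetic genus of the nodal fibre.** -/
theorem genus_le (hWle : ∀ d, Module.finrank k (W d) ≤ ell (d • D)) :
    (g : ℤ) + 1 ≤ g₁ + g₂ + Fintype.card ι := by
  classical
  obtain ⟨d₀, hd₀⟩ := exists_finrank_V H₁ H₂ s₁ s₂ hinj hE₁ hE₂ hpos₁ hpos₂
  obtain ⟨d₁, hd₁⟩ := exists_V_le_W H₁ H₂ s₁ s₂ hinj hx₁ hx₂ hE₁ hE₂ hpos₁ hpos₂ hxg W hWmono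
    hXW h0 h1
  obtain ⟨c, hc⟩ := HL.riemann_eq
  have hposD : 0 < Divisor.degree D := by rw [hdeg]; linarith
  set d : ℕ := max (max d₀ d₁) c.toNat with hd
  have hdd₀ : d₀ ≤ d := (le_max_left _ _).trans (le_max_left _ _)
  have hdd₁ : d₁ ≤ d := (le_max_right _ _).trans (le_max_left _ _)
  have hdc : c ≤ d := (Int.self_le_toNat c).trans (by exact_mod_cast le_max_right _ _)
  have e := hd₀ d hdd₀
  have hle : Module.finrank k (V s₁ s₂ E₁ E₂ d) ≤ Module.finrank k (W d) :=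
    Submodule.finrank_mono (hd₁ d hdd₁)
  have hL : (ell (d • D) : ℤ) = d * Divisor.degree D + 1 - g := by
    have hdegd : Divisor.degree (d • D) = d * Divisor.degree D := by
      rw [map_nsmul, nsmul_eq_mul]
    rw [hc (d • D) (by rw [hdegd]; nlinarith), hdegd]
  have h2 : (Module.finrank k (V s₁ s₂ E₁ E₂ d) : ℤ) ≤ ell (d • D) := by
    exact_mod_cast hle.trans (hWle d)
  rw [e, hL, hdeg] at h2
  linarith

include HL H₁ H₂ hinj hx₁ hx₂ hE₁ hE₂ hpos₁ hpos₂ hxg hdeg hWmono hXW h0 h1 in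
/-- **The genus identity** `g = g₁ + g₂ + δ - 1`. -/
theorem genus_eq (hWle : ∀ d, Module.finrank k (W d) ≤ ell (d • D))
    (hWV : ∀ d, W d ≤ V s₁ s₂ E₁ E₂ d)
    (hOB : ∀ d, ell (d • D) ≤ Module.finrank k (W d)) :
    (g : ℤ) + 1 = g₁ + g₂ + Fintype.card ι := by
  classical
  refine le_antisymm (genus_le HL H₁ H₂ s₁ s₂ hinj hx₁ hx₂ hE₁ hE₂ hpos₁ hpos₂ hxg D hdeg W
    hWmono hXW h0 h1 hWle) ?_
  obtain ⟨d₀, hd₀⟩ := exists_finrank_V H₁ H₂ s₁ s₂ hinj hE₁ hE₂ hpos₁ hpos₂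
  obtain ⟨c, hc⟩ := HL.riemann_eq
  have hposD : 0 < Divisor.degree D := by rw [hdeg]; linarith
  set d : ℕ := max d₀ c.toNat with hd
  have hdd₀ : d₀ ≤ d := le_max_left _ _
  have hdc : c ≤ d := (Int.self_le_toNat c).trans (by exact_mod_cast le_max_right _ _)
  have e := hd₀ d hdd₀
  haveI : Module.Finite k (V s₁ s₂ E₁ E₂ d) := by
    haveI := H₁.finite (d • E₁)
    haveI := H₂.finite (d • E₂)
    exact finite_glued s₁ s₂ (d • E₁) (d • E₂)
  have hle : Module.finrank k (W d) ≤ Module.finrank k (V s₁ s₂ E₁ E₂ d) :=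
    Submodule.finrank_mono (hWV d)
  have hL : (ell (d • D) : ℤ) = d * Divisor.degree D + 1 - g := by
    have hdegd : Divisor.degree (d • D) = d * Divisor.degree D := by
      rw [map_nsmul, nsmul_eq_mul]
    rw [hc (d • D) (by rw [hdegd]; nlinarith), hdegd]
  have h2 : (ell (d • D) : ℤ) ≤ Module.finrank k (V s₁ s₂ E₁ E₂ d) := by
    exact_mod_cast (hOB d).trans hle
  rw [e, hL, hdeg] at h2
  linarith

end Main

end Fermat.Agent.S34.Euler.GenusIdentity
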