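import Mathlib
import Fermat.Agent.S34.Euler.Glued
import Fermat.Agent.S37.Deuring.Core
import Fermat.Agent.S37.Deuring.FundIneq

/-!
# PROJECT U (S34), Euler characteristic, step 4: the reduction of a lattice for TWO Gauss data

`G₁ : GaussDatum A π FL κ₁`, `G₂ : GaussDatum A π FL κ₂` two Gauss data of the same function
field `FL / L` over the same valued base `(L, A, π : A → k)` (the two components of the special
fibre).  `redSpace₂ G₁ G₂ D ≤ κ₁ × κ₂` is the reduction of the lattice `L(D) ∩ O₁ ∩ O₂`.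

* `linearIndependent_of_red₂` : `k`-independent reduced PAIRS lift to `L`-independent functions;
* `finrank_redSpace₂_le` : `dim_k redSpace₂ D ≤ ℓ(D)`  (the only inequality (NC) needs);
* for `x ∈ O₁ ∩ O₂` with pole divisor `D`: `W d := redSpace₂ (d D)` is increasing and
  `x̄ · W d ≤ W (d+1)` - the hypotheses `hWmono`, `hXW`, `hWle` of
  `Euler.GenusIdentity.genus_le`.
-/

set_option autoImplicit false
set_option linter.unusedSectionVars false
set_option linter.style.haveILetI false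

noncomputable section

namespace Fermat.Agent.S34.Euler.RedPair

open AlgebraicCurve Fermat.Agent.S18.NonSpecial Fermat.Agent.S37.Deuring.Core
  Fermat.Agent.S34.Euler.Glued

variable {L : Type*} [Field L] {k : Type*} [Field k]
variable {A : ValuationSubring L} {π : A →+* k}
variable {FL : Type*} [Field FL] [Algebra L FL]
variable {κ₁ : Type*} [Field κ₁] [Algebra k κ₁] {κ₂ : Type*} [Field κ₂] [Algebra k κ₂]
variable (G₁ : GaussDatum A π FL κ₁) (G₂ : GaussDatum A π FL κ₂)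

/-- the reduced pair of a function which is integral for both Gauss valuations -/
def redPair (f : FL) (h₁ : f ∈ G₁.O) (h₂ : f ∈ G₂.O) : κ₁ × κ₂ :=
  (G₁.red ⟨f, h₁⟩, G₂.red ⟨f, h₂⟩)

theorem redPair_add {f f' : FL} (h₁ : f ∈ G₁.O) (h₂ : f ∈ G₂.O) (h₁' : f' ∈ G₁.O)
    (h₂' : f' ∈ G₂.O) :
    redPair G₁ G₂ (f + f') (G₁.O.add_mem _ _ h₁ h₁') (G₂.O.add_mem _ _ h₂ h₂')
      = redPair G₁ G₂ f h₁ h₂ + redPair G₁ G₂ f' h₁' h₂' := by
  unfold redPair
  ext
  · exact map_add G₁.red ⟨f, h₁⟩ ⟨f', h₁'⟩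
  · exact map_add G₂.red ⟨f, h₂⟩ ⟨f', h₂'⟩

theorem redPair_mul {f f' : FL} (h₁ : f ∈ G₁.O) (h₂ : f ∈ G₂.O) (h₁' : f' ∈ G₁.O)
    (h₂' : f' ∈ G₂.O) :
    redPair G₁ G₂ (f * f') (G₁.O.mul_mem _ _ h₁ h₁') (G₂.O.mul_mem _ _ h₂ h₂')
      = redPair G₁ G₂ f h₁ h₂ * redPair G₁ G₂ f' h₁' h₂' := by
  unfold redPair
  ext
  · exact map_mul G₁.red ⟨f, h₁⟩ ⟨f', h₁'⟩
  · exact map_mul G₂.red ⟨f, h₂⟩ ⟨f', h₂'⟩

theorem redPair_const_mul (a : A) {f : FL} (h₁ : f ∈ G₁.O) (h₂ : f ∈ G₂.O) :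
    redPair G₁ G₂ (algebraMap L FL (a : L) * f)
        (G₁.O.mul_mem _ _ (G₁.algebraMap_mem a) h₁) (G₂.O.mul_mem _ _ (G₂.algebraMap_mem a) h₂)
      = π a • redPair G₁ G₂ f h₁ h₂ := by
  unfold redPair
  ext
  · show G₁.red (G₁.const a * ⟨f, h₁⟩) = π a • G₁.red ⟨f, h₁⟩
    rw [map_mul, GaussDatum.red_const, Algebra.smul_def]
  · show G₂.red (G₂.const a * ⟨f, h₂⟩) = π a • G₂.red ⟨f, h₂⟩
    rw [map_mul, GaussDatum.red_const, Algebra.smul_def]

theorem redPair_congr {f f' : FL} (h : f = f') (h₁ : f ∈ G₁.O) (h₂ : f ∈ G₂.O) :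
    redPair G₁ G₂ f h₁ h₂ = redPair G₁ G₂ f' (h ▸ h₁) (h ▸ h₂) := by
  subst h; rfl

/-- The reduction of the lattice `L(D) ∩ O₁ ∩ O₂`. -/
def redSpace₂ (D : Divisor L FL) : Submodule k (κ₁ × κ₂) where
  carrier := {p | ∃ (f : FL) (h₁ : f ∈ G₁.O) (h₂ : f ∈ G₂.O),
    f ∈ riemannRochSpace D ∧ redPair G₁ G₂ f h₁ h₂ = p}
  zero_mem' := ⟨0, G₁.O.zero_mem, G₂.O.zero_mem, Submodule.zero_mem _, by
    unfold redPair
    ext
    · exact map_zero G₁.red
    · exact map_zero G₂.red⟩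
  add_mem' := by
    rintro _ _ ⟨f, h₁, h₂, hf, rfl⟩ ⟨f', h₁', h₂', hf', rfl⟩
    exact ⟨f + f', G₁.O.add_mem _ _ h₁ h₁', G₂.O.add_mem _ _ h₂ h₂', Submodule.add_mem _ hf hf',
      redPair_add G₁ G₂ h₁ h₂ h₁' h₂'⟩
  smul_mem' := by
    rintro c _ ⟨f, h₁, h₂, hf, rfl⟩
    obtain ⟨a, rfl⟩ := G₁.pi_surjective c
    refine ⟨algebraMap L FL (a : L) * f, G₁.O.mul_mem _ _ (G₁.algebraMap_mem a) h₁,
      G₂.O.mul_mem _ _ (G₂.algebraMap_mem a) h₂, ?_, redPair_const_mul G₁ G₂ a h₁ h₂⟩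
    rw [← Algebra.smul_def]
    exact Submodule.smul_mem _ _ hf

theorem mem_redSpace₂ {D : Divisor L FL} {p : κ₁ × κ₂} :
    p ∈ redSpace₂ G₁ G₂ D ↔ ∃ (f : FL) (h₁ : f ∈ G₁.O) (h₂ : f ∈ G₂.O),
      f ∈ riemannRochSpace D ∧ redPair G₁ G₂ f h₁ h₂ = p := Iff.rfl

theorem redSpace₂_mono {D D' : Divisor L FL} (h : D ≤ D') :
    redSpace₂ G₁ G₂ D ≤ redSpace₂ G₁ G₂ D' := by
  rintro _ ⟨f, h₁, h₂, hf, rfl⟩
  exact ⟨f, h₁, h₂, riemannRochSpace_mono h hf, rfl⟩

/-! ### Lifting linear independence -/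

/-- a relation with coefficients in `A` reduces to a relation over `k` -/
theorem red_rel {κ : Type*} [Field κ] [Algebra k κ] (G : GaussDatum A π FL κ)
    {ι : Type*} [Fintype ι] (f : ι → FL) (a : ι → A) (hm : ∀ i, f i ∈ G.O)
    (hrel : ∑ i, algebraMap L FL ((a i : A) : L) * f i = 0) :
    ∑ i, π (a i) • G.red ⟨f i, hm i⟩ = 0 := by
  have hsum : ∑ i, G.const (a i) * ⟨f i, hm i⟩ = (0 : G.O) := by
    apply Subtype.ext
    rw [show ((∑ i, G.const (a i) * ⟨f i, hm i⟩ : G.O) : FL)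
      = G.O.subtype (∑ i, G.const (a i) * ⟨f i, hm i⟩) from rfl, map_sum]
    exact hrel
  have hred := congrArg G.red hsum
  rw [map_sum, map_zero] at hred
  rw [← hred]
  refine Finset.sum_congr rfl fun i _ => ?_
  rw [map_mul, GaussDatum.red_const, Algebra.smul_def]

/-- `k`-linearly independent reduced pairs lift to `L`-linearly independent functions. -/
theorem linearIndependent_of_red₂ {ι : Type*} [Fintype ι] (f : ι → FL)
    (h₁ : ∀ i, f i ∈ G₁.O) (h₂ : ∀ i, f i ∈ G₂.O)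
    (h : LinearIndependent k fun i => redPair G₁ G₂ (f i) (h₁ i) (h₂ i)) :
    LinearIndependent L f := by
  classical
  rw [Fintype.linearIndependent_iff]
  intro c hc
  by_contra hne
  push Not at hne
  obtain ⟨i₁, hi₁⟩ := hne
  obtain ⟨i₀, -, h0, hA⟩ := GaussDatum.exists_max_const (A := A) Finset.univ c
    ⟨i₁, Finset.mem_univ _, hi₁⟩
  set a : ι → A := fun i => ⟨c i / c i₀, hA i (Finset.mem_univ _)⟩ with ha
  -- the normalised relation
  have hrel : ∑ i, algebraMap L FL ((a i : A) : L) * f i = 0 := by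
    have h2 : ∑ i, algebraMap L FL ((a i : A) : L) * f i = (c i₀)⁻¹ • ∑ i, c i • f i := by
      rw [Finset.smul_sum]
      refine Finset.sum_congr rfl fun i _ => ?_
      rw [smul_smul, ← Algebra.smul_def]
      congr 1
      simp [ha, div_eq_inv_mul]
    rw [h2, hc, smul_zero]
  have hpair : ∑ i, π (a i) • redPair G₁ G₂ (f i) (h₁ i) (h₂ i) = 0 := by
    unfold redPair
    ext
    · rw [Prod.fst_sum]
      simpa using red_rel G₁ f a h₁ hrel
    · rw [Prod.snd_sum]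
      simpa using red_rel G₂ f a h₂ hrel
  have := (Fintype.linearIndependent_iff.mp h) (fun i => π (a i)) hpair i₀
  have h1 : a i₀ = 1 := by
    apply Subtype.ext
    simp [ha, div_self h0]
  rw [h1, map_one] at this
  exact one_ne_zero this

theorem card_le_ell_of_linearIndependent₂ (D : Divisor L FL)
    [Module.Finite L (riemannRochSpace D)] {ι : Type*} [Fintype ι] (y : ι → κ₁ × κ₂)
    (hs : ∀ i, y i ∈ redSpace₂ G₁ G₂ D) (hli : LinearIndependent k y) :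
    Fintype.card ι ≤ ell D := by
  classical
  choose f h₁ h₂ hf hfy using hs
  have hli' : LinearIndependent k fun i => redPair G₁ G₂ (f i) (h₁ i) (h₂ i) := by
    have : (fun i => redPair G₁ G₂ (f i) (h₁ i) (h₂ i)) = y := funext hfy
    rw [this]
    exact hli
  have hL := linearIndependent_of_red₂ G₁ G₂ f h₁ h₂ hli'
  let g : ι → riemannRochSpace D := fun i => ⟨f i, hf i⟩
  have hg : LinearIndependent L g := by
    apply LinearIndependent.of_comp (riemannRochSpace D).subtype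
    exact hL
  have := hg.fintype_card_le_finrank
  simpa [ell] using this

theorem rank_redSpace₂_le (D : Divisor L FL) [Module.Finite L (riemannRochSpace D)] :
    Module.rank k (redSpace₂ G₁ G₂ D) ≤ (ell D : ℕ) := by
  classical
  apply rank_le
  intro s hs
  have h1 : LinearIndependent k
      (fun i : s => (redSpace₂ G₁ G₂ D).subtype (i : redSpace₂ G₁ G₂ D)) :=
    hs.map' _ (Submodule.ker_subtype _)
  have := card_le_ell_of_linearIndependent₂ G₁ G₂ D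
    (fun i : s => (redSpace₂ G₁ G₂ D).subtype (i : redSpace₂ G₁ G₂ D))
    (fun i => (i : redSpace₂ G₁ G₂ D).2) h1
  rwa [Fintype.card_coe] at this

theorem finite_redSpace₂ (D : Divisor L FL) [Module.Finite L (riemannRochSpace D)] :
    Module.Finite k (redSpace₂ G₁ G₂ D) := by
  rw [← Module.rank_lt_aleph0_iff]
  exact lt_of_le_of_lt (rank_redSpace₂_le G₁ G₂ D) (Cardinal.natCast_lt_aleph0)

/-- **`dim_k red(L(D) ∩ O₁ ∩ O₂) ≤ ℓ(D)`.** -/
theorem finrank_redSpace₂_le (D : Divisor L FL) [Module.Finite L (riemannRochSpace D)] :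
    Module.finrank k (redSpace₂ G₁ G₂ D) ≤ ell D :=
  Module.finrank_le_of_rank_le (rank_redSpace₂_le G₁ G₂ D)

/-! ### The filtration `W d = redSpace₂ (d D)` -/

/-- the filtration by multiples of `D` -/
def W (D : Divisor L FL) (d : ℕ) : Submodule k (κ₁ × κ₂) := redSpace₂ G₁ G₂ (d • D)

theorem W_mono {D : Divisor L FL} (hD : 0 ≤ D) (d : ℕ) : W G₁ G₂ D d ≤ W G₁ G₂ D (d + 1) := by
  apply redSpace₂_mono
  rw [succ_nsmul]
  exact le_add_of_nonneg_right hD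

theorem map_mulX_W_le {D : Divisor L FL} {x : FL} (hx₁ : x ∈ G₁.O) (hx₂ : x ∈ G₂.O)
    (hxD : x ∈ riemannRochSpace D) (d : ℕ) :
    (W G₁ G₂ D d).map (mulX (k := k) (G₁.red ⟨x, hx₁⟩) (G₂.red ⟨x, hx₂⟩)) ≤ W G₁ G₂ D (d + 1) := by
  rintro _ ⟨_, ⟨f, h₁, h₂, hf, rfl⟩, rfl⟩
  refine ⟨x * f, G₁.O.mul_mem _ _ hx₁ h₁, G₂.O.mul_mem _ _ hx₂ h₂, ?_, ?_⟩
  · have := Fermat.Agent.S37.Deuring.FundIneq.mul_mem_rr hxD hf
    rw [succ_nsmul, add_comm]
    exact this
  · rw [redPair_mul G₁ G₂ hx₁ hx₂ h₁ h₂]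
    rfl

theorem finite_W (H : ∀ D : Divisor L FL, Module.Finite L (riemannRochSpace D))
    (D : Divisor L FL) (d : ℕ) : Module.Finite k (W G₁ G₂ D d) :=
  haveI := H (d • D)
  finite_redSpace₂ G₁ G₂ (d • D)

theorem finrank_W_le (H : ∀ D : Divisor L FL, Module.Finite L (riemannRochSpace D))
    (D : Divisor L FL) (d : ℕ) : Module.finrank k (W G₁ G₂ D d) ≤ ell (d • D) :=
  haveI := H (d • D)
  finrank_redSpace₂_le G₁ G₂ (d • D)

end Fermat.Agent.S34.Euler.RedPair
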