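import Mathlib
import Fermat.Agent.S34.Euler.GenusIdentity
import Fermat.Agent.S34.Euler.RedPair

/-!
# PROJECT U (S34), Euler characteristic: (NC) for two Gauss data, in one call

`G₁, G₂` two Gauss data of `FL / L` with residue function fields `κ₁, κ₂ / k`; `x ∈ O₁ ∩ O₂` with
pole divisor `D`, reductions `x₁ = red₁ x`, `x₂ = red₂ x` with pole divisors `E₁, E₂` of positive
degree, `deg D = deg E₁ + deg E₂`; nodes `s₁ i ↔ s₂ i` off the poles of `x̄`, at which `x̄` is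
glued.  If the two-chart sandwich holds:

* (chart `x ≠ ∞`) every glued pair `p ∈ L(d E₁) × L(d E₂)` is the reduction of a function of
  `L((d+r) D) ∩ O₁ ∩ O₂` for some `r`,
* (chart `x ≠ 0`) for every such `p` some `x̄ ^ r p` is the reduction of a function of
  `L((d+r) D) ∩ O₁ ∩ O₂`,

then `g(FL) + 1 ≤ g(κ₁) + g(κ₂) + #nodes`.
-/

set_option autoImplicit false
set_option linter.unusedSectionVars false
set_option linter.style.haveILetI false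

noncomputable section

namespace Fermat.Agent.S34.Euler.Main

open AlgebraicCurve Fermat.Agent.S18.NonSpecial Fermat.Agent.S37.Deuring.Core
  Fermat.Agent.S34.Euler.Glued Fermat.Agent.S34.Euler.RedPair

variable {L : Type*} [Field L] {k : Type*} [Field k]
variable {A : ValuationSubring L} {π : A →+* k}
variable {FL : Type*} [Field FL] [Algebra L FL]
variable {κ₁ : Type*} [Field κ₁] [Algebra k κ₁] {κ₂ : Type*} [Field κ₂] [Algebra k κ₂]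
variable {ι : Type*} [Fintype ι]

/-- **(NC)** `g + 1 ≤ g₁ + g₂ + δ` from the two-chart sandwich. -/
theorem genus_le_of_sandwich (G₁ : GaussDatum A π FL κ₁) (G₂ : GaussDatum A π FL κ₂)
    {g g₁ g₂ : ℕ} (HL : RiemannHyp L FL g) (H₁ : RiemannHyp k κ₁ g₁) (H₂ : RiemannHyp k κ₂ g₂)
    (s₁ : ι → Place k κ₁) (s₂ : ι → Place k κ₂) (hinj : Function.Injective s₁)
    {x : FL} (hxO₁ : x ∈ G₁.O) (hxO₂ : x ∈ G₂.O)
    {D : Divisor L FL} (hxD : IsPoleDiv x D)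
    {E₁ : Divisor k κ₁} {E₂ : Divisor k κ₂}
    (hx₁ : IsPoleDiv (G₁.red ⟨x, hxO₁⟩) E₁) (hx₂ : IsPoleDiv (G₂.red ⟨x, hxO₂⟩) E₂)
    (hE₁ : ∀ i, E₁ (s₁ i) = 0) (hE₂ : ∀ i, E₂ (s₂ i) = 0)
    (hpos₁ : 0 < Divisor.degree E₁) (hpos₂ : 0 < Divisor.degree E₂)
    (hxg : ∀ i, GluedAt s₁ s₂ i (G₁.red ⟨x, hxO₁⟩, G₂.red ⟨x, hxO₂⟩))
    (hdeg : Divisor.degree D = Divisor.degree E₁ + Divisor.degree E₂)
    (h0 : ∀ d, ∀ p ∈ V s₁ s₂ E₁ E₂ d, ∃ r, p ∈ redSpace₂ G₁ G₂ ((d + r) • D))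
    (h1 : ∀ d, ∀ p ∈ V s₁ s₂ E₁ E₂ d, ∃ r,
      ((G₁.red ⟨x, hxO₁⟩) ^ r * p.1, (G₂.red ⟨x, hxO₂⟩) ^ r * p.2)
        ∈ redSpace₂ G₁ G₂ ((d + r) • D)) :
    (g : ℤ) + 1 ≤ g₁ + g₂ + Fintype.card ι := by
  haveI : ∀ d, Module.Finite k (W G₁ G₂ D d) := finite_W G₁ G₂ HL.finite D
  refine Fermat.Agent.S34.Euler.GenusIdentity.genus_le HL H₁ H₂ s₁ s₂ hinj hx₁ hx₂ hE₁ hE₂
    hpos₁ hpos₂ hxg D hdeg (W G₁ G₂ D) (W_mono G₁ G₂ hxD.nonneg)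
    (map_mulX_W_le G₁ G₂ hxO₁ hxO₂ (Fermat.Agent.S37.Deuring.FundIneq.mem_rr_of_isPoleDiv hxD))
    h0 ?_ (finrank_W_le G₁ G₂ HL.finite D)
  intro d p hp
  obtain ⟨r, hr⟩ := h1 d p hp
  refine ⟨r, ?_⟩
  rw [mulX_pow_apply]
  exact hr

end Fermat.Agent.S34.Euler.Main
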