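import Mathlib
import Fermat.Agent.S34.Sandwich
import Fermat.Agent.S34.Euler.Value

/-!
# PROJECT U (S34), Route G: the affine sandwich in the language of places

`κ / k` a function field all of whose places have degree one, `φ : κ →ₐ[k] κ` an endomorphism
and `Fr` a map on places with the **value rule** `(φ g)(v) = g(Fr v)`
(`HasValue v (φ g) c ↔ HasValue (Fr v) g c`; at `X₀(M)` in characteristic `q`: the Frobenius
pull-back and the geometric Frobenius on points).  `P` a set of places with `v ∉ P → Fr v ∉ P`,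
`regOff P` the `k`-algebra of functions regular off `P`.

For a subring `B ≤ κ × κ` containing the pairs `(g, φ g)` and `(φ g, g)` (`g ∈ regOff P`), and a
finite set `Z` of places off `P` such that every `w ∈ regOff P` vanishing on `Z` lies in the ideal
generated by the `g - φ (φ g)`, there is a subset `S ⊆ Z` (the **nodes**) with

  `(h₁, h₂) ∈ B ↔ ∀ b ∈ S, h₁ (Fr b) = h₂ b`      for `h₁, h₂` regular off `P`.
-/

set_option autoImplicit false

noncomputable section

namespace Fermat.Agent.S34.Euler.Places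

open AlgebraicCurve Fermat.Agent.S34.Euler.Value Fermat.Agent.S34.Sandwich

variable {k : Type*} [Field k] {κ : Type*} [Field κ] [Algebra k κ]

/-- the functions which are regular off `P` -/
def regOff (P : Set (Place k κ)) : Subalgebra k κ where
  carrier := {g | ∀ v : Place k κ, v ∉ P → v.adicValuation g ≤ 1}
  mul_mem' := by
    intro a b ha hb v hv
    rw [map_mul]
    exact mul_le_one' (ha v hv) (hb v hv)
  add_mem' := by
    intro a b ha hb v hv
    exact (Valuation.map_add _ _ _).trans (max_le (ha v hv) (hb v hv))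
  algebraMap_mem' := by
    intro c v _
    exact (Fermat.Agent.S24.Ord.mem_iff v _).mp (v.algebraMap_mem' c)

theorem mem_regOff {P : Set (Place k κ)} {g : κ} :
    g ∈ regOff P ↔ ∀ v : Place k κ, v ∉ P → v.adicValuation g ≤ 1 := Iff.rfl

theorem regOff_mono {P P' : Set (Place k κ)} (h : P ⊆ P') : regOff P ≤ regOff P' :=
  fun _ hg v hv => hg v fun hvP => hv (h hvP)

/-- The value rule. -/
def ValueRule (φ : κ →ₐ[k] κ) (Fr : Place k κ → Place k κ) : Prop :=
  ∀ (v : Place k κ) (g : κ) (c : k), HasValue v (φ g) c ↔ HasValue (Fr v) g c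

section

variable {φ : κ →ₐ[k] κ} {Fr : Place k κ → Place k κ}

theorem ValueRule.le_one_iff (hval : ValueRule φ Fr) (hdeg : ∀ v : Place k κ, v.deg = 1)
    (v : Place k κ) (g : κ) : v.adicValuation (φ g) ≤ 1 ↔ (Fr v).adicValuation g ≤ 1 := by
  constructor
  · intro h
    obtain ⟨c, hc⟩ := exists_hasValue v (hdeg v) h
    exact ((hval v g c).mp hc).le_one
  · intro h
    obtain ⟨c, hc⟩ := exists_hasValue (Fr v) (hdeg _) h
    exact ((hval v g c).mpr hc).le_one

theorem ValueRule.map_mem_regOff (hval : ValueRule φ Fr) (hdeg : ∀ v : Place k κ, v.deg = 1)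
    {P : Set (Place k κ)} (hFrP : ∀ v, v ∉ P → Fr v ∉ P) {g : κ} (hg : g ∈ regOff P) :
    φ g ∈ regOff P := fun v hv =>
  (hval.le_one_iff hdeg v g).mpr (hg (Fr v) (hFrP v hv))

/-- `φ` restricted to the functions regular off `P` -/
def phiR (hval : ValueRule φ Fr) (hdeg : ∀ v : Place k κ, v.deg = 1) {P : Set (Place k κ)}
    (hFrP : ∀ v, v ∉ P → Fr v ∉ P) : regOff P →+* regOff P where
  toFun g := ⟨φ g, hval.map_mem_regOff hdeg hFrP g.2⟩
  map_one' := Subtype.ext (map_one φ)
  map_mul' a b := Subtype.ext (map_mul φ (a : κ) (b : κ))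
  map_zero' := Subtype.ext (map_zero φ)
  map_add' a b := Subtype.ext (map_add φ (a : κ) (b : κ))

@[simp] theorem coe_phiR (hval : ValueRule φ Fr) (hdeg : ∀ v : Place k κ, v.deg = 1)
    {P : Set (Place k κ)} (hFrP : ∀ v, v ∉ P → Fr v ∉ P) (g : regOff P) :
    ((phiR hval hdeg hFrP g : regOff P) : κ) = φ (g : κ) := rfl

end

/-- the value rule from the order rule `ord_v (φ g) = n · ord_(Fr v) g`, `n > 0` -/
theorem valueRule_of_ord {φ : κ →ₐ[k] κ} {Fr : Place k κ → Place k κ} {n : ℤ} (hn : 0 < n)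
    (hord : ∀ (v : Place k κ) (g : κ), v.ord (φ g) = n * (Fr v).ord g) : ValueRule φ Fr := by
  intro v g c
  unfold HasValue
  have e : φ g - algebraMap k κ c = φ (g - algebraMap k κ c) := by
    rw [map_sub, AlgHom.commutes]
  rw [e]
  rcases eq_or_ne (g - algebraMap k κ c) 0 with h0 | h0
  · rw [h0, map_zero]
    simp
  · have hφ0 : φ (g - algebraMap k κ c) ≠ 0 :=
      (map_ne_zero_iff _ φ.toRingHom.injective).mpr h0
    rw [← Fermat.Agent.S24.Ord.ord_pos_iff v hφ0, ← Fermat.Agent.S24.Ord.ord_pos_iff _ h0, hord]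
    constructor
    · intro h
      by_contra hle
      have : n * (Fr v).ord (g - algebraMap k κ c) ≤ 0 :=
        mul_nonpos_of_nonneg_of_nonpos hn.le (not_lt.mp hle)
      omega
    · intro h
      exact mul_pos hn h

/-- the maximal ideal of `regOff P` at a place `b ∉ P` -/
def maxIdeal {P : Set (Place k κ)} (b : Place k κ) (hb : b ∉ P) : Ideal (regOff P) where
  carrier := {w | b.adicValuation (w : κ) < 1}
  zero_mem' := by simp
  add_mem' := by
    intro a c ha hc
    have ha' : b.adicValuation (a : κ) < 1 := ha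
    have hc' : b.adicValuation (c : κ) < 1 := hc
    show b.adicValuation ((a : κ) + (c : κ)) < 1
    exact lt_of_le_of_lt (Valuation.map_add _ _ _) (max_lt ha' hc')
  smul_mem' := by
    intro c w hw
    have hw' : b.adicValuation (w : κ) < 1 := hw
    show b.adicValuation ((c : κ) * (w : κ)) < 1
    rw [map_mul]
    calc b.adicValuation (c : κ) * b.adicValuation (w : κ)
        ≤ 1 * b.adicValuation (w : κ) := mul_le_mul_left (c.2 b hb) _
      _ = b.adicValuation (w : κ) := one_mul _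
      _ < 1 := hw'

theorem mem_maxIdeal {P : Set (Place k κ)} {b : Place k κ} {hb : b ∉ P} {w : regOff P} :
    w ∈ maxIdeal b hb ↔ b.adicValuation (w : κ) < 1 := Iff.rfl

theorem maxIdeal_isMaximal {P : Set (Place k κ)} (b : Place k κ) (hb : b ∉ P)
    (hdeg : b.deg = 1) : (maxIdeal (P := P) b hb).IsMaximal := by
  rw [Ideal.isMaximal_iff]
  constructor
  · intro h1
    have : b.adicValuation ((1 : regOff P) : κ) < 1 := h1
    simp at this
  · intro J w hle hw hwJ
    have hw1 : b.adicValuation (w : κ) ≤ 1 := w.2 b hb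
    obtain ⟨c, hc⟩ := exists_hasValue b hdeg hw1
    have hc0 : c ≠ 0 := by
      rintro rfl
      exact hw ((hasValue_zero_iff b).mp hc)
    -- `w - c ∈ 𝔪_b ⊆ J`, `w ∈ J`, so `c ∈ J`, a unit
    have h1 : w - algebraMap k (regOff P) c ∈ J := hle (by
      show b.adicValuation ((w : κ) - algebraMap k κ c) < 1
      exact hc)
    have h2 : algebraMap k (regOff P) c ∈ J := by
      have := J.sub_mem hwJ h1
      simpa using this
    have h3 : algebraMap k (regOff P) c⁻¹ * algebraMap k (regOff P) c = 1 := by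
      rw [← map_mul, inv_mul_cancel₀ hc0, map_one]
    rw [← h3]
    exact J.mul_mem_left _ h2

/-- `B` seen inside `regOff P × regOff P` -/
def resB (P : Set (Place k κ)) (B : Subring (κ × κ)) : Subring (regOff P × regOff P) :=
  B.comap (RingHom.prodMap (regOff P).val.toRingHom (regOff P).val.toRingHom)

theorem mem_resB {P : Set (Place k κ)} {B : Subring (κ × κ)} {p : regOff P × regOff P} :
    p ∈ resB P B ↔ ((p.1 : κ), (p.2 : κ)) ∈ B := Iff.rfl

/-- Transport of the radical-ideal hypothesis from any presentation `(R, φR)` of the ring of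
functions regular off `P` (for instance `FrobK.holo`, `FrobK.phiHolo`). -/
theorem hJ_of_subalgebra {φ : κ →ₐ[k] κ} {Fr : Place k κ → Place k κ}
    (hval : ValueRule φ Fr) (hdeg : ∀ v : Place k κ, v.deg = 1) {P : Set (Place k κ)}
    (hFrP : ∀ v, v ∉ P → Fr v ∉ P) (Z : Finset (Place k κ))
    (R : Subalgebra k κ) (hR : ∀ g, g ∈ R ↔ g ∈ regOff P) (φR : R →+* R)
    (hφR : ∀ g : R, ((φR g : R) : κ) = φ (g : κ))
    (hJ : ∀ w : R, (∀ b ∈ Z, b.adicValuation (w : κ) < 1) →
      w ∈ Ideal.span (Set.range fun g : R => g - φR (φR g))) :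
    ∀ w : regOff P, (∀ b ∈ Z, b.adicValuation (w : κ) < 1) →
      w ∈ Ideal.span (Set.range fun g : regOff P =>
        g - phiR hval hdeg hFrP (phiR hval hdeg hFrP g)) := by
  obtain rfl : R = regOff P := SetLike.ext hR
  obtain rfl : φR = phiR hval hdeg hFrP := RingHom.ext fun g => Subtype.ext (hφR g)
  exact hJ

/-- **The affine sandwich in the language of places.** -/
theorem exists_nodes_places {φ : κ →ₐ[k] κ} {Fr : Place k κ → Place k κ}
    (hval : ValueRule φ Fr) (hdeg : ∀ v : Place k κ, v.deg = 1) {P : Set (Place k κ)}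
    (hFrP : ∀ v, v ∉ P → Fr v ∉ P) (B : Subring (κ × κ))
    (hB₁ : ∀ g ∈ regOff P, (g, φ g) ∈ B) (hB₂ : ∀ g ∈ regOff P, (φ g, g) ∈ B)
    (Z : Finset (Place k κ)) (hZP : ∀ b ∈ Z, b ∉ P)
    (hJ : ∀ w : regOff P, (∀ b ∈ Z, b.adicValuation (w : κ) < 1) →
      w ∈ Ideal.span (Set.range fun g : regOff P =>
        g - phiR hval hdeg hFrP (phiR hval hdeg hFrP g))) :
    ∃ S ⊆ Z, ∀ h₁ h₂ : κ, h₁ ∈ regOff P → h₂ ∈ regOff P →
      ((h₁, h₂) ∈ B ↔ ∀ b ∈ S, ∃ c : k, HasValue (Fr b) h₁ c ∧ HasValue b h₂ c) := by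
  classical
  set φR := phiR hval hdeg hFrP with hφR
  have hsw : IsSandwich φR φR (resB P B) :=
    ⟨fun g => hB₁ g g.2, fun g => hB₂ g g.2⟩
  -- the finite set of maximal ideals
  set Z' : Finset (Ideal (regOff P)) :=
    Z.attach.image fun b : {x // x ∈ Z} => maxIdeal b.1 (hZP b.1 b.2) with hZ'
  have hmax : ∀ m ∈ Z', m.IsMaximal := by
    intro m hm
    obtain ⟨b, -, rfl⟩ := Finset.mem_image.mp hm
    exact maxIdeal_isMaximal _ _ (hdeg _)
  have hJ' : Z'.inf id ≤ Ideal.span (Set.range fun g : regOff P => g - φR (φR g)) := by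
    intro w hw
    apply hJ w
    intro b hb
    have hmem : maxIdeal b (hZP b hb) ∈ Z' :=
      Finset.mem_image.mpr ⟨⟨b, hb⟩, Finset.mem_attach _ _, rfl⟩
    have := (Finset.inf_le hmem : Z'.inf id ≤ id (maxIdeal b (hZP b hb))) hw
    exact this
  obtain ⟨S', hS'Z, -, hdesc⟩ := exists_nodes hsw Z' hmax hJ'
  refine ⟨Z.filter fun b => ∃ hb : b ∈ Z, maxIdeal b (hZP b hb) ∈ S', Finset.filter_subset _ _,
    fun h₁ h₂ hh₁ hh₂ => ?_⟩
  have h1 := hdesc ⟨h₁, hh₁⟩ ⟨h₂, hh₂⟩
  rw [mem_resB] at h1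
  rw [h1]
  -- translate the ideal conditions
  have hpt : ∀ b : Place k κ, b ∉ P →
      (b.adicValuation (h₂ - φ h₁) < 1 ↔ ∃ c : k, HasValue (Fr b) h₁ c ∧ HasValue b h₂ c) := by
    intro b hb
    constructor
    · intro hlt
      obtain ⟨c, hc⟩ := exists_hasValue b (hdeg b) (hh₂ b hb)
      refine ⟨c, (hval b h₁ c).mp ?_, hc⟩
      show b.adicValuation (φ h₁ - algebraMap k κ c) < 1
      have : φ h₁ - algebraMap k κ c = (h₂ - algebraMap k κ c) - (h₂ - φ h₁) := by ring
      rw [this]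
      exact lt_of_le_of_lt (Valuation.map_sub _ _ _) (max_lt hc hlt)
    · rintro ⟨c, hc1, hc2⟩
      have hc1' := (hval b h₁ c).mpr hc1
      have : h₂ - φ h₁ = (h₂ - algebraMap k κ c) - (φ h₁ - algebraMap k κ c) := by ring
      rw [this]
      exact lt_of_le_of_lt (Valuation.map_sub _ _ _) (max_lt hc2 hc1')
  constructor
  · intro hm b hb
    obtain ⟨hbZ, hbS'⟩ := (Finset.mem_filter.mp hb).2
    exact (hpt b (hZP b hbZ)).mp (hm _ hbS')
  · intro hm m hmS'
    obtain ⟨b, -, rfl⟩ := Finset.mem_image.mp (hS'Z hmS')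
    have hbS : b.1 ∈ Z.filter fun b => ∃ hb : b ∈ Z, maxIdeal b (hZP b hb) ∈ S' :=
      Finset.mem_filter.mpr ⟨b.2, b.2, hmS'⟩
    exact (hpt b.1 (hZP b.1 b.2)).mpr (hm b.1 hbS)

end Fermat.Agent.S34.Euler.Places
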