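import Mathlib
import Fermat.Agent.S34.Euler.Places
import Fermat.Agent.S34.Euler.Main

/-!
# PROJECT U (S34), Euler characteristic: the two-chart bridge

Both components of the special fibre are the same function field `κ / k` (at `X₀(qM)`:
`κ = κ_M`), with a Frobenius pair `(φ, Fr)` satisfying the value rule.  `G₁, G₂` two Gauss data of
`FL / L` with values in `κ`, `x ∈ O₁ ∩ O₂` with pole divisor `D`, reductions `x₁, x₂` whose poles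
are exactly the places of `P₀` and whose zeros are exactly the places of `P₁`.

* `Rbar0` : the ring `⋃ r, red (L(rD) ∩ O₁ ∩ O₂)` (chart `x ≠ ∞`);
* `Rbar1` : the ring `⋃ r, x̄⁻ʳ red (L(rD) ∩ O₁ ∩ O₂)` (chart `x ≠ 0`).

`genus_le_of_charts` : from the level-`M` surjectivities `(LS0)`, `(LS1)` (the rings contain the
two graphs of `φ`), the radical-ideal statements `(Z0)`, `(Z1)` and `(CUSP)` (no chart-1 node is a
pole of `x̄`), there is a finite set `S` of places (the **nodes**, `s₁ = Fr b`, `s₂ = b`) with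

  `g(FL) + 1 ≤ 2 g(κ) + #S`   and   `(h₁, h₂) ∈ Rbar0 ↔ ∀ b ∈ S, h₁ (Fr b) = h₂ b`

for `h₁, h₂` regular off `P₀`.
-/

set_option autoImplicit false
set_option linter.unusedSectionVars false
set_option linter.style.haveILetI false

noncomputable section

namespace Fermat.Agent.S34.Euler.Chart

open AlgebraicCurve Fermat.Agent.S18.NonSpecial Fermat.Agent.S37.Deuring.Core
  Fermat.Agent.S34.Euler.Value Fermat.Agent.S34.Euler.Glued Fermat.Agent.S34.Euler.RedPair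
  Fermat.Agent.S34.Euler.Places

variable {L : Type*} [Field L] {k : Type*} [Field k]
variable {A : ValuationSubring L} {π : A →+* k}
variable {FL : Type*} [Field FL] [Algebra L FL]
variable {κ : Type*} [Field κ] [Algebra k κ]
variable (G₁ G₂ : GaussDatum A π FL κ)

/-! ### More on `redSpace₂` -/

theorem one_mem_redSpace₂ {D : Divisor L FL} (hD : 0 ≤ D) : (1 : κ × κ) ∈ redSpace₂ G₁ G₂ D := by
  refine ⟨1, G₁.O.one_mem, G₂.O.one_mem, one_mem_riemannRochSpace hD, ?_⟩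
  unfold redPair
  ext
  · exact map_one G₁.red
  · exact map_one G₂.red

theorem mul_mem_redSpace₂ {D D' : Divisor L FL} {p p' : κ × κ} (hp : p ∈ redSpace₂ G₁ G₂ D)
    (hp' : p' ∈ redSpace₂ G₁ G₂ D') : p * p' ∈ redSpace₂ G₁ G₂ (D + D') := by
  obtain ⟨f, h₁, h₂, hf, rfl⟩ := hp
  obtain ⟨f', h₁', h₂', hf', rfl⟩ := hp'
  exact ⟨f * f', G₁.O.mul_mem _ _ h₁ h₁', G₂.O.mul_mem _ _ h₂ h₂',
    Fermat.Agent.S37.Deuring.FundIneq.mul_mem_rr hf hf', redPair_mul G₁ G₂ h₁ h₂ h₁' h₂'⟩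

theorem W_le_of_le {D : Divisor L FL} (hD : 0 ≤ D) {r r' : ℕ} (h : r ≤ r') :
    W G₁ G₂ D r ≤ W G₁ G₂ D r' := by
  apply redSpace₂_mono
  obtain ⟨e, rfl⟩ := Nat.exists_eq_add_of_le h
  rw [add_nsmul]
  exact le_add_of_nonneg_right (nsmul_nonneg hD e)

theorem mul_mem_W {D : Divisor L FL} {r r' : ℕ} {p p' : κ × κ} (hp : p ∈ W G₁ G₂ D r)
    (hp' : p' ∈ W G₁ G₂ D r') : p * p' ∈ W G₁ G₂ D (r + r') := by
  have := mul_mem_redSpace₂ G₁ G₂ hp hp'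
  unfold W
  rwa [add_nsmul]

/-- chart `x ≠ ∞`: the ring of reductions of integral functions with poles only at poles of `x` -/
def Rbar0 {D : Divisor L FL} (hD : 0 ≤ D) : Subring (κ × κ) where
  carrier := {p | ∃ r, p ∈ W G₁ G₂ D r}
  mul_mem' := by
    rintro p p' ⟨r, hr⟩ ⟨r', hr'⟩
    exact ⟨r + r', mul_mem_W G₁ G₂ hr hr'⟩
  one_mem' := ⟨0, by
    unfold W
    rw [zero_nsmul]
    exact one_mem_redSpace₂ G₁ G₂ le_rfl⟩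
  add_mem' := by
    rintro p p' ⟨r, hr⟩ ⟨r', hr'⟩
    exact ⟨max r r', Submodule.add_mem _ (W_le_of_le G₁ G₂ hD (le_max_left _ _) hr)
      (W_le_of_le G₁ G₂ hD (le_max_right _ _) hr')⟩
  zero_mem' := ⟨0, Submodule.zero_mem _⟩
  neg_mem' := by
    rintro p ⟨r, hr⟩
    exact ⟨r, Submodule.neg_mem _ hr⟩

theorem mem_Rbar0 {D : Divisor L FL} (hD : 0 ≤ D) {p : κ × κ} :
    p ∈ Rbar0 G₁ G₂ hD ↔ ∃ r, p ∈ W G₁ G₂ D r := Iff.rfl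

section Chart1

variable {D : Divisor L FL} {x : FL} (hxO₁ : x ∈ G₁.O) (hxO₂ : x ∈ G₂.O) (hxD : IsPoleDiv x D)

/-- the pair `x̄ = (red₁ x, red₂ x)` -/
def xbar : κ × κ := (G₁.red ⟨x, hxO₁⟩, G₂.red ⟨x, hxO₂⟩)

include hxD in
theorem xbar_mem_W_one : xbar G₁ G₂ hxO₁ hxO₂ ∈ W G₁ G₂ D 1 := by
  refine ⟨x, hxO₁, hxO₂, ?_, rfl⟩
  rw [one_nsmul]
  exact Fermat.Agent.S37.Deuring.FundIneq.mem_rr_of_isPoleDiv hxD

include hxD in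
theorem xbar_pow_mul_mem_W {r : ℕ} {p : κ × κ} (hp : p ∈ W G₁ G₂ D r) (e : ℕ) :
    xbar G₁ G₂ hxO₁ hxO₂ ^ e * p ∈ W G₁ G₂ D (r + e) := by
  induction e with
  | zero => simpa using hp
  | succ e ih =>
    have := mul_mem_W G₁ G₂ (xbar_mem_W_one G₁ G₂ hxO₁ hxO₂ hxD) ih
    rw [pow_succ', mul_assoc]
    have h2 : 1 + (r + e) = r + (e + 1) := by omega
    rwa [h2] at this

/-- chart `x ≠ 0`: the ring `⋃ r, x̄⁻ʳ W r` -/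
def Rbar1 : Subring (κ × κ) where
  carrier := {p | ∃ r, xbar G₁ G₂ hxO₁ hxO₂ ^ r * p ∈ W G₁ G₂ D r}
  mul_mem' := by
    rintro p p' ⟨r, hr⟩ ⟨r', hr'⟩
    refine ⟨r + r', ?_⟩
    have := mul_mem_W G₁ G₂ hr hr'
    have e : xbar G₁ G₂ hxO₁ hxO₂ ^ (r + r') * (p * p')
        = (xbar G₁ G₂ hxO₁ hxO₂ ^ r * p) * (xbar G₁ G₂ hxO₁ hxO₂ ^ r' * p') := by
      rw [pow_add]; ring
    rwa [e]
  one_mem' := ⟨0, by
    unfold W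
    rw [zero_nsmul, pow_zero, one_mul]
    exact one_mem_redSpace₂ G₁ G₂ le_rfl⟩
  add_mem' := by
    rintro p p' ⟨r, hr⟩ ⟨r', hr'⟩
    refine ⟨r + r', ?_⟩
    have h1 := xbar_pow_mul_mem_W G₁ G₂ hxO₁ hxO₂ hxD hr r'
    have h2 := xbar_pow_mul_mem_W G₁ G₂ hxO₁ hxO₂ hxD hr' r
    have e : xbar G₁ G₂ hxO₁ hxO₂ ^ (r + r') * (p + p')
        = xbar G₁ G₂ hxO₁ hxO₂ ^ r' * (xbar G₁ G₂ hxO₁ hxO₂ ^ r * p)
          + xbar G₁ G₂ hxO₁ hxO₂ ^ r * (xbar G₁ G₂ hxO₁ hxO₂ ^ r' * p') := by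
      rw [pow_add]; ring
    rw [e]
    refine Submodule.add_mem _ h1 ?_
    rwa [add_comm r r']
  zero_mem' := ⟨0, by rw [mul_zero]; exact Submodule.zero_mem _⟩
  neg_mem' := by
    rintro p ⟨r, hr⟩
    exact ⟨r, by rw [mul_neg]; exact Submodule.neg_mem _ hr⟩

theorem mem_Rbar1 {p : κ × κ} :
    p ∈ Rbar1 G₁ G₂ hxO₁ hxO₂ hxD ↔ ∃ r, xbar G₁ G₂ hxO₁ hxO₂ ^ r * p ∈ W G₁ G₂ D r := Iff.rfl

theorem mem_Rbar1_iff_redSpace₂ {p : κ × κ} :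
    p ∈ Rbar1 G₁ G₂ hxO₁ hxO₂ hxD ↔
      ∃ r : ℕ, (G₁.red ⟨x, hxO₁⟩ ^ r * p.1, G₂.red ⟨x, hxO₂⟩ ^ r * p.2)
        ∈ redSpace₂ G₁ G₂ (r • D) := Iff.rfl

end Chart1

theorem mem_Rbar0_iff_redSpace₂ {D : Divisor L FL} (hD : 0 ≤ D) {p : κ × κ} :
    p ∈ Rbar0 G₁ G₂ hD ↔ ∃ r : ℕ, p ∈ redSpace₂ G₁ G₂ (r • D) := Iff.rfl

/-! ### The main theorem -/

section Main

variable {g gκ : ℕ} (HL : RiemannHyp L FL g) (Hκ : RiemannHyp k κ gκ)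
  {φ : κ →ₐ[k] κ} {Fr : Place k κ → Place k κ} (hval : ValueRule φ Fr)
  (hFrinj : Function.Injective Fr)
  {x : FL} (hxO₁ : x ∈ G₁.O) (hxO₂ : x ∈ G₂.O) {D : Divisor L FL} (hxD : IsPoleDiv x D)
  {E₁ E₂ : Divisor k κ}
  (hx₁ : IsPoleDiv (G₁.red ⟨x, hxO₁⟩) E₁) (hx₂ : IsPoleDiv (G₂.red ⟨x, hxO₂⟩) E₂)
  (hpos₁ : 0 < Divisor.degree E₁) (hpos₂ : 0 < Divisor.degree E₂)
  (hdeg : Divisor.degree D = Divisor.degree E₁ + Divisor.degree E₂)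
  -- the poles `P₀` and the zeros `P₁` of `x̄`
  {P₀ P₁ : Set (Place k κ)}
  (hP₀₁ : ∀ v, 0 < E₁ v ↔ v ∈ P₀) (hP₀₂ : ∀ v, 0 < E₂ v ↔ v ∈ P₀)
  (hP₁₁ : ∀ v, 0 < v.ord (G₁.red ⟨x, hxO₁⟩) ↔ v ∈ P₁)
  (hP₁₂ : ∀ v, 0 < v.ord (G₂.red ⟨x, hxO₂⟩) ↔ v ∈ P₁)
  (hFr₀ : ∀ v, v ∉ P₀ → Fr v ∉ P₀) (hFr₁ : ∀ v, v ∉ P₁ → Fr v ∉ P₁)

/-- `L(d (y)_∞)` consists of functions regular off the poles of `y` -/
theorem rr_le_regOff {y : κ} {E : Divisor k κ} (hy : IsPoleDiv y E) {P : Set (Place k κ)}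
    (hP : ∀ v, 0 < E v ↔ v ∈ P) (d : ℕ) {h : κ} (hh : h ∈ riemannRochSpace (d • E)) :
    h ∈ regOff P := by
  intro v hv
  rcases eq_or_ne h 0 with rfl | h0
  · simp
  have h1 := ((mem_riemannRochSpace_iff.mp hh) v).resolve_left h0
  have hE : E v = 0 := by
    have hnn : 0 ≤ E v := by rw [hy v]; exact le_max_left _ _
    have : ¬ 0 < E v := fun hp => hv ((hP v).mp hp)
    omega
  rw [Finsupp.smul_apply, hE, smul_zero, neg_zero] at h1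
  exact (Fermat.Agent.S24.Ord.ord_nonneg_iff v h0).mp h1

/-- `x⁻ᵈ h` is regular off the zeros of `x` when `h ∈ L(d (x)_∞)` -/
theorem inv_pow_mul_mem_regOff {y : κ} {E : Divisor k κ} (hy : IsPoleDiv y E) (hy0 : y ≠ 0)
    {P : Set (Place k κ)} (hP : ∀ v, 0 < v.ord y ↔ v ∈ P) (d : ℕ) {h : κ}
    (hh : h ∈ riemannRochSpace (d • E)) : (y ^ d)⁻¹ * h ∈ regOff P := by
  intro v hv
  rcases eq_or_ne h 0 with rfl | h0
  · simp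
  have h1 := ((mem_riemannRochSpace_iff.mp hh) v).resolve_left h0
  have hyd : (y ^ d)⁻¹ ≠ 0 := inv_ne_zero (pow_ne_zero _ hy0)
  have hpow : v.ord (y ^ d) = d * v.ord y := by
    have := v.ord_zpow y (d : ℤ)
    rwa [zpow_natCast] at this
  rw [← Fermat.Agent.S24.Ord.ord_nonneg_iff v (mul_ne_zero hyd h0), v.ord_mul hyd h0, v.ord_inv,
    hpow]
  have hle : v.ord y ≤ 0 := by
    have : ¬ 0 < v.ord y := fun hp => hv ((hP v).mp hp)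
    omega
  have hE : E v = - v.ord y := by
    rw [hy v, max_eq_right (by omega)]
  rw [Finsupp.smul_apply, hE, nsmul_eq_mul] at h1
  linarith

/-- **A producer of `(CUSP)`**: an integral `f ∈ L(rD)` with `red₁ f = x₁ʳ` and
`red₂ f · t = x₂ʳ`, where `t` has a pole at every place of `P₀` and `t⁻¹` is regular off `P₁`
(at `X₀(qM)`: `f = xʳ j_q / j^q`, `t = j̄^(q²-1)`). -/
theorem cusp_of_witness {t : κ}
    (htP₀ : ∀ b ∈ P₀, b.ord t < 0) (htP₁ : t⁻¹ ∈ regOff P₁) {r : ℕ} {p : κ × κ}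
    (hp : p ∈ redSpace₂ G₁ G₂ (r • D)) (hp1 : p.1 = G₁.red ⟨x, hxO₁⟩ ^ r)
    (hp2 : p.2 * t = G₂.red ⟨x, hxO₂⟩ ^ r) (Z₁ : Finset (Place k κ)) :
    ∀ b ∈ Z₁, b ∈ P₀ → ∃ p ∈ Rbar1 G₁ G₂ hxO₁ hxO₂ hxD, p.1 ∈ regOff P₁ ∧
      p.2 ∈ regOff P₁ ∧ ¬ ∃ c : k, HasValue (Fr b) p.1 c ∧ HasValue b p.2 c := by
  intro b _ hbP₀
  have ht0 : t ≠ 0 := by
    rintro rfl
    have := htP₀ b hbP₀
    rw [Place.ord_zero] at this
    exact lt_irrefl _ this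
  refine ⟨(1, t⁻¹), ⟨r, ?_⟩, (regOff P₁).one_mem, htP₁, ?_⟩
  · have e : xbar G₁ G₂ hxO₁ hxO₂ ^ r * ((1, t⁻¹) : κ × κ) = p := by
      ext
      · show (xbar G₁ G₂ hxO₁ hxO₂ ^ r).1 * 1 = p.1
        rw [Prod.pow_fst, mul_one, hp1]
        rfl
      · show (xbar G₁ G₂ hxO₁ hxO₂ ^ r).2 * t⁻¹ = p.2
        rw [Prod.pow_snd]
        show G₂.red ⟨x, hxO₂⟩ ^ r * t⁻¹ = p.2
        rw [← hp2, mul_assoc, mul_inv_cancel₀ ht0, mul_one]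
    rw [e]
    exact hp
  · rintro ⟨c, hc1, hc2⟩
    have h1 : c = 1 := by
      have := hasValue_const (Fr b) (1 : k)
      rw [map_one] at this
      exact hc1.unique this
    have h0 : c = 0 := by
      apply hc2.unique
      rw [hasValue_zero_iff, ← Fermat.Agent.S24.Ord.ord_pos_iff b (inv_ne_zero ht0), b.ord_inv]
      have := htP₀ b hbP₀
      omega
    rw [h1] at h0
    exact one_ne_zero h0

include HL Hκ hval hFrinj hxD hx₁ hx₂ hpos₁ hpos₂ hdeg hP₀₁ hP₀₂ hP₁₁ hP₁₂ hFr₀ hFr₁ in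
/-- **(NC) from the two charts.** -/
theorem genus_le_of_charts
    -- chart 0
    (LS0 : ∀ h ∈ regOff P₀, (h, φ h) ∈ Rbar0 G₁ G₂ hxD.nonneg ∧ (φ h, h) ∈ Rbar0 G₁ G₂ hxD.nonneg)
    (Z₀ : Finset (Place k κ)) (hZ₀ : ∀ b ∈ Z₀, b ∉ P₀)
    (hJ₀ : ∀ w : regOff P₀, (∀ b ∈ Z₀, b.adicValuation (w : κ) < 1) →
      w ∈ Ideal.span (Set.range fun h : regOff P₀ =>
        h - phiR hval Hκ.deg_one hFr₀ (phiR hval Hκ.deg_one hFr₀ h)))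
    -- chart 1
    (LS1 : ∀ h ∈ regOff P₁, (h, φ h) ∈ Rbar1 G₁ G₂ hxO₁ hxO₂ hxD ∧
      (φ h, h) ∈ Rbar1 G₁ G₂ hxO₁ hxO₂ hxD)
    (Z₁ : Finset (Place k κ)) (hZ₁ : ∀ b ∈ Z₁, b ∉ P₁)
    (hJ₁ : ∀ w : regOff P₁, (∀ b ∈ Z₁, b.adicValuation (w : κ) < 1) →
      w ∈ Ideal.span (Set.range fun h : regOff P₁ =>
        h - phiR hval Hκ.deg_one hFr₁ (phiR hval Hκ.deg_one hFr₁ h)))
    (CUSP : ∀ b ∈ Z₁, b ∈ P₀ → ∃ p ∈ Rbar1 G₁ G₂ hxO₁ hxO₂ hxD, p.1 ∈ regOff P₁ ∧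
      p.2 ∈ regOff P₁ ∧ ¬ ∃ c : k, HasValue (Fr b) p.1 c ∧ HasValue b p.2 c) :
    ∃ S ⊆ Z₀, (g : ℤ) + 1 ≤ gκ + gκ + S.card ∧
      ∀ h₁ h₂ : κ, h₁ ∈ regOff P₀ → h₂ ∈ regOff P₀ →
        ((h₁, h₂) ∈ Rbar0 G₁ G₂ hxD.nonneg ↔
          ∀ b ∈ S, ∃ c : k, HasValue (Fr b) h₁ c ∧ HasValue b h₂ c) := by
  classical
  have hdeg1 := Hκ.deg_one
  obtain ⟨S, hSZ, hS⟩ := exists_nodes_places hval hdeg1 hFr₀ (Rbar0 G₁ G₂ hxD.nonneg)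
    (fun h hh => (LS0 h hh).1) (fun h hh => (LS0 h hh).2) Z₀ hZ₀ hJ₀
  obtain ⟨S₁, hS₁Z, hS₁⟩ := exists_nodes_places hval hdeg1 hFr₁ (Rbar1 G₁ G₂ hxO₁ hxO₂ hxD)
    (fun h hh => (LS1 h hh).1) (fun h hh => (LS1 h hh).2) Z₁ hZ₁ hJ₁
  refine ⟨S, hSZ, ?_, hS⟩
  set x₁ : κ := G₁.red ⟨x, hxO₁⟩ with hx₁def
  set x₂ : κ := G₂.red ⟨x, hxO₂⟩ with hx₂def
  have hx₁0 : x₁ ≠ 0 := by
    intro h0
    have : E₁ = 0 := by
      ext v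
      rw [hx₁ v, h0]
      simp
    rw [this, map_zero] at hpos₁
    exact lt_irrefl _ hpos₁
  have hx₂0 : x₂ ≠ 0 := by
    intro h0
    have : E₂ = 0 := by
      ext v
      rw [hx₂ v, h0]
      simp
    rw [this, map_zero] at hpos₂
    exact lt_irrefl _ hpos₂
  -- the nodes
  let s₂ : S → Place k κ := fun b => b.1
  let s₁ : S → Place k κ := fun b => Fr b.1
  have hinj : Function.Injective s₁ := fun b b' h => Subtype.ext (hFrinj h)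
  have hnotP₀ : ∀ b : S, b.1 ∉ P₀ := fun b => hZ₀ _ (hSZ b.2)
  have hE₁ : ∀ b : S, E₁ (s₁ b) = 0 := by
    intro b
    have hnn : 0 ≤ E₁ (Fr b.1) := by rw [hx₁ _]; exact le_max_left _ _
    have : ¬ 0 < E₁ (Fr b.1) := fun hp => hFr₀ _ (hnotP₀ b) ((hP₀₁ _).mp hp)
    show E₁ (Fr b.1) = 0
    omega
  have hE₂ : ∀ b : S, E₂ (s₂ b) = 0 := by
    intro b
    have hnn : 0 ≤ E₂ b.1 := by rw [hx₂ _]; exact le_max_left _ _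
    have : ¬ 0 < E₂ b.1 := fun hp => hnotP₀ b ((hP₀₂ _).mp hp)
    show E₂ b.1 = 0
    omega
  -- `x̄` is regular off `P₀` and lies in `Rbar0`
  have hxreg₁ : x₁ ∈ regOff P₀ := by
    apply rr_le_regOff hx₁ hP₀₁ 1
    rw [one_nsmul]
    exact Fermat.Agent.S37.Deuring.FundIneq.mem_rr_of_isPoleDiv hx₁
  have hxreg₂ : x₂ ∈ regOff P₀ := by
    apply rr_le_regOff hx₂ hP₀₂ 1
    rw [one_nsmul]
    exact Fermat.Agent.S37.Deuring.FundIneq.mem_rr_of_isPoleDiv hx₂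
  have hxR0 : (x₁, x₂) ∈ Rbar0 G₁ G₂ hxD.nonneg := ⟨1, xbar_mem_W_one G₁ G₂ hxO₁ hxO₂ hxD⟩
  have hxg : ∀ b : S, GluedAt s₁ s₂ b (x₁, x₂) := fun b =>
    (hS x₁ x₂ hxreg₁ hxreg₂).mp hxR0 b.1 b.2
  -- chart 0: every glued section is a reduction
  have h0 : ∀ d, ∀ p ∈ V s₁ s₂ E₁ E₂ d, ∃ r, p ∈ redSpace₂ G₁ G₂ ((d + r) • D) := by
    rintro d p ⟨hp1, hp2, hp3⟩
    have hR0 : (p.1, p.2) ∈ Rbar0 G₁ G₂ hxD.nonneg := by
      rw [hS p.1 p.2 (rr_le_regOff hx₁ hP₀₁ d hp1)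
        (rr_le_regOff hx₂ hP₀₂ d hp2)]
      intro b hb
      exact hp3 ⟨b, hb⟩
    obtain ⟨r, hr⟩ := hR0
    exact ⟨r, W_le_of_le G₁ G₂ hxD.nonneg (Nat.le_add_left r d) hr⟩
  -- chart 1
  have h1 : ∀ d, ∀ p ∈ V s₁ s₂ E₁ E₂ d, ∃ r,
      (x₁ ^ r * p.1, x₂ ^ r * p.2) ∈ redSpace₂ G₁ G₂ ((d + r) • D) := by
    intro d p hp
    obtain ⟨hp1, hp2, hp3⟩ := hp
    obtain ⟨r₀, hr₀⟩ := h0 d p ⟨hp1, hp2, hp3⟩
    -- `ξ = 1 / x̄`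
    set ξ : κ × κ := (x₁⁻¹, x₂⁻¹) with hξ
    have hxξ : xbar G₁ G₂ hxO₁ hxO₂ * ξ = 1 := by
      show ((x₁, x₂) : κ × κ) * (x₁⁻¹, x₂⁻¹) = 1
      ext
      · exact mul_inv_cancel₀ hx₁0
      · exact mul_inv_cancel₀ hx₂0
    have hξR1 : ξ ∈ Rbar1 G₁ G₂ hxO₁ hxO₂ hxD := by
      refine ⟨1, ?_⟩
      rw [pow_one, hxξ]
      unfold W
      exact one_mem_redSpace₂ G₁ G₂ (by rw [one_nsmul]; exact hxD.nonneg)
    have hξreg : ∀ (y : κ), y ≠ 0 → (∀ v, 0 < v.ord y ↔ v ∈ P₁) → y⁻¹ ∈ regOff P₁ := by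
      intro y hy0 hP v hv
      rw [← Fermat.Agent.S24.Ord.ord_nonneg_iff v (inv_ne_zero hy0), v.ord_inv]
      have : ¬ 0 < v.ord y := fun hp => hv ((hP v).mp hp)
      omega
    have hξ₁ : ξ.1 ∈ regOff P₁ := hξreg x₁ hx₁0 hP₁₁
    have hξ₂ : ξ.2 ∈ regOff P₁ := hξreg x₂ hx₂0 hP₁₂
    -- `q = ξ ^ d * p` is regular off `P₁`
    set q : κ × κ := ξ ^ d * p with hq
    have hq₁ : q.1 ∈ regOff P₁ := by
      have := inv_pow_mul_mem_regOff hx₁ hx₁0 hP₁₁ d hp1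
      have e : q.1 = (x₁ ^ d)⁻¹ * p.1 := by
        show (ξ ^ d * p).1 = _
        rw [Prod.fst_mul, Prod.pow_fst, inv_pow]
      rwa [e]
    have hq₂ : q.2 ∈ regOff P₁ := by
      have := inv_pow_mul_mem_regOff hx₂ hx₂0 hP₁₂ d hp2
      have e : q.2 = (x₂ ^ d)⁻¹ * p.2 := by
        show (ξ ^ d * p).2 = _
        rw [Prod.snd_mul, Prod.pow_snd, inv_pow]
      rwa [e]
    -- `ξ ^ (d + r₀) * p ∈ Rbar1`
    have hmem : ξ ^ r₀ * q ∈ Rbar1 G₁ G₂ hxO₁ hxO₂ hxD := by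
      refine ⟨d + r₀, ?_⟩
      have e : xbar G₁ G₂ hxO₁ hxO₂ ^ (d + r₀) * (ξ ^ r₀ * q) = p := by
        rw [hq, ← mul_assoc (ξ ^ r₀), ← pow_add, add_comm r₀ d, ← mul_assoc, ← mul_pow, hxξ,
          one_pow, one_mul]
      rw [e]
      exact hr₀
    -- gluing at the chart-1 nodes
    have hglue : ∀ b ∈ S₁, ∃ c : k, HasValue (Fr b) q.1 c ∧ HasValue b q.2 c := by
      intro b hb
      have hbP₁ : b ∉ P₁ := hZ₁ b (hS₁Z hb)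
      -- `ξ` is glued at `b` with non-zero value
      obtain ⟨ζ, hζ1, hζ2⟩ := (hS₁ ξ.1 ξ.2 hξ₁ hξ₂).mp hξR1 b hb
      have hζ0 : ζ ≠ 0 := by
        rintro rfl
        -- then `b` is a pole of `x₂`, i.e. a cusp
        have hlt : b.adicValuation x₂⁻¹ < 1 := (hasValue_zero_iff b).mp hζ2
        have hpos := (Fermat.Agent.S24.Ord.ord_pos_iff b (inv_ne_zero hx₂0)).mpr hlt
        rw [b.ord_inv] at hpos
        have hbP₀ : b ∈ P₀ := by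
          apply (hP₀₂ b).mp
          rw [hx₂ b]
          exact lt_max_of_lt_right (by omega)
        obtain ⟨p', hp'R, hp'1, hp'2, hp'n⟩ := CUSP b (hS₁Z hb) hbP₀
        exact hp'n ((hS₁ p'.1 p'.2 hp'1 hp'2).mp hp'R b hb)
      -- values of `q`
      obtain ⟨c₁, hc₁⟩ := exists_hasValue (Fr b) (hdeg1 _) (hq₁ _ (hFr₁ b hbP₁))
      obtain ⟨c₂, hc₂⟩ := exists_hasValue b (hdeg1 _) (hq₂ _ hbP₁)
      have hreg₁ : (ξ ^ r₀ * q).1 ∈ regOff P₁ := by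
        rw [Prod.fst_mul, Prod.pow_fst]
        exact (regOff P₁).mul_mem ((regOff P₁).pow_mem hξ₁ _) hq₁
      have hreg₂ : (ξ ^ r₀ * q).2 ∈ regOff P₁ := by
        rw [Prod.snd_mul, Prod.pow_snd]
        exact (regOff P₁).mul_mem ((regOff P₁).pow_mem hξ₂ _) hq₂
      obtain ⟨c, hc1, hc2⟩ := (hS₁ _ _ hreg₁ hreg₂).mp hmem b hb
      have e1 : c = ζ ^ r₀ * c₁ := by
        apply hc1.unique
        rw [Prod.fst_mul, Prod.pow_fst]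
        exact (hζ1.pow r₀).mul hc₁
      have e2 : c = ζ ^ r₀ * c₂ := by
        apply hc2.unique
        rw [Prod.snd_mul, Prod.pow_snd]
        exact (hζ2.pow r₀).mul hc₂
      have : c₁ = c₂ := by
        have h3 : ζ ^ r₀ * c₁ = ζ ^ r₀ * c₂ := by rw [← e1, ← e2]
        exact mul_left_cancel₀ (pow_ne_zero _ hζ0) h3
      exact ⟨c₁, hc₁, this ▸ hc₂⟩
    have hqR1 : (q.1, q.2) ∈ Rbar1 G₁ G₂ hxO₁ hxO₂ hxD := (hS₁ q.1 q.2 hq₁ hq₂).mpr hglue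
    obtain ⟨r', hr'⟩ := hqR1
    -- raise `r'` by `d`
    have h2 := xbar_pow_mul_mem_W G₁ G₂ hxO₁ hxO₂ hxD hr' d
    refine ⟨r', ?_⟩
    have e : xbar G₁ G₂ hxO₁ hxO₂ ^ d * (xbar G₁ G₂ hxO₁ hxO₂ ^ r' * (q.1, q.2))
        = (x₁ ^ r' * p.1, x₂ ^ r' * p.2) := by
      have hq' : ((q.1, q.2) : κ × κ) = ξ ^ d * p := rfl
      rw [hq', mul_left_comm, ← mul_assoc (xbar G₁ G₂ hxO₁ hxO₂ ^ d), ← mul_pow, hxξ, one_pow,
        one_mul]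
      rfl
    rw [e, add_comm r' d] at h2
    exact h2
  have hfin : (g : ℤ) + 1 ≤ gκ + gκ + Fintype.card S :=
    Fermat.Agent.S34.Euler.Main.genus_le_of_sandwich G₁ G₂ HL Hκ Hκ s₁ s₂ hinj hxO₁ hxO₂ hxD hx₁
      hx₂ hE₁ hE₂ hpos₁ hpos₂ hxg hdeg h0 h1
  rw [Fintype.card_coe] at hfin
  exact hfin

end Main

end Fermat.Agent.S34.Euler.Chart
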