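import Mathlib
import Fermat.Agent.S34.FrobK
import Fermat.Agent.S34.Euler.Chart

/-!
# PROJECT U (S34), Euler characteristic: the `k`-side inputs of `Chart.genus_le_of_charts`
at `κ = modularFunctionFieldFullC k N`

`k` algebraically closed of characteristic `q`, `φ = FrobK.phi`, `Fr = FrobK.Fr`.

* `valueRule` : `ValueRule (phi k N q) (Fr k N q)`;
* `P0 k N` (poles of `j̄`), `P1 k N` (zeros of `j̄`), both `Fr`-stable (`Fr_mem_P0_iff`, ...);
* `Zfix k N q P` : the finite set of `Fr²`-fixed places off `P`;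
* `regOff_eq_holo` : `Places.regOff S = FrobK.holo k N S`;
* `pos_iff_mem_P0`, `pos_iff_mem_P1` : the hypotheses `hP₀ᵢ`, `hP₁ᵢ` of `genus_le_of_charts` for a
  function `y` with `y = j̄ ^ (n + 1)`.
-/

set_option autoImplicit false
set_option linter.unusedSectionVars false

noncomputable section

namespace Fermat.Agent.S34.Euler.FrobSide

open AlgebraicCurve ModularCurve
open Fermat.Agent.S18.B.FkBasics (jk)
open Fermat.Agent.S34.FrobK Fermat.Agent.S34.Euler.Places Fermat.Agent.S34.Euler.Value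
open Fermat.Agent.S37.Deuring.Core (IsPoleDiv)

variable (k : Type*) [Field k] (N : ℕ) [NeZero N]
variable (q : ℕ) [hq : Fact q.Prime] [CharP k q] [PerfectField k]

/-- the value rule `(φ g)(v) = g(Fr v)` -/
theorem valueRule : ValueRule (phi k N q) (Fr k N q) :=
  valueRule_of_ord (n := (q : ℤ)) (by exact_mod_cast hq.out.pos) (fun v g => ord_phi k N q v g)

theorem Fr_injective : Function.Injective (Fr k N q) := (Fr k N q).injective

/-- `ord_(Fr v) j̄ = ord_v j̄` -/
theorem ord_Fr_jk (v : Place k ↥(modularFunctionFieldFullC k N)) :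
    (Fr k N q v).ord (jk k N) = v.ord (jk k N) :=
  ord_Fr_of_psi_eq k N q v (psi_jk k N q)

/-- the poles of `j̄` (the cusps) -/
def P0 : Set (Place k ↥(modularFunctionFieldFullC k N)) := {v | v.ord (jk k N) < 0}

/-- the zeros of `j̄` -/
def P1 : Set (Place k ↥(modularFunctionFieldFullC k N)) := {v | 0 < v.ord (jk k N)}

theorem mem_P0 {v : Place k ↥(modularFunctionFieldFullC k N)} :
    v ∈ P0 k N ↔ v.ord (jk k N) < 0 := Iff.rfl

theorem mem_P1 {v : Place k ↥(modularFunctionFieldFullC k N)} :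
    v ∈ P1 k N ↔ 0 < v.ord (jk k N) := Iff.rfl

theorem Fr_mem_P0_iff (v : Place k ↥(modularFunctionFieldFullC k N)) :
    Fr k N q v ∈ P0 k N ↔ v ∈ P0 k N := by
  rw [mem_P0, mem_P0, ord_Fr_jk]

theorem Fr_mem_P1_iff (v : Place k ↥(modularFunctionFieldFullC k N)) :
    Fr k N q v ∈ P1 k N ↔ v ∈ P1 k N := by
  rw [mem_P1, mem_P1, ord_Fr_jk]

theorem Fr_not_mem_P0 (v : Place k ↥(modularFunctionFieldFullC k N)) (hv : v ∉ P0 k N) :
    Fr k N q v ∉ P0 k N := fun h => hv ((Fr_mem_P0_iff k N q v).mp h)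

theorem Fr_not_mem_P1 (v : Place k ↥(modularFunctionFieldFullC k N)) (hv : v ∉ P1 k N) :
    Fr k N q v ∉ P1 k N := fun h => hv ((Fr_mem_P1_iff k N q v).mp h)

theorem jk_ne_zero : jk k N ≠ 0 := by
  have htr := Fermat.Agent.S18.B.FkBasics.transcendental_jk k N
  intro h
  rw [h] at htr
  exact htr ⟨Polynomial.X, Polynomial.X_ne_zero, by simp⟩

/-- the hypothesis `hP₀ᵢ` of `genus_le_of_charts` for `y = j̄ ^ (n + 1)` -/
theorem pos_iff_mem_P0 {y : ↥(modularFunctionFieldFullC k N)} {n : ℕ}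
    (hy : y = jk k N ^ (n + 1)) {E : Divisor k ↥(modularFunctionFieldFullC k N)}
    (hE : IsPoleDiv y E) (v : Place k ↥(modularFunctionFieldFullC k N)) :
    0 < E v ↔ v ∈ P0 k N := by
  have hpow : v.ord y = ((n + 1 : ℕ) : ℤ) * v.ord (jk k N) := by
    rw [hy]
    exact Fermat.Agent.S18.CoreOrd.ord_pow v _ _
  have hn : (0 : ℤ) < ((n + 1 : ℕ) : ℤ) := by exact_mod_cast Nat.succ_pos n
  rw [hE v, mem_P0, hpow]
  constructor
  · intro h
    by_contra hle
    have h0 : 0 ≤ ((n + 1 : ℕ) : ℤ) * v.ord (jk k N) := mul_nonneg hn.le (not_lt.mp hle)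
    have : max 0 (-(((n + 1 : ℕ) : ℤ) * v.ord (jk k N))) = 0 := max_eq_left (by omega)
    omega
  · intro h
    have h0 : ((n + 1 : ℕ) : ℤ) * v.ord (jk k N) < 0 := mul_neg_of_pos_of_neg hn h
    exact lt_max_of_lt_right (by omega)

/-- the hypothesis `hP₁ᵢ` of `genus_le_of_charts` for `y = j̄ ^ (n + 1)` -/
theorem pos_iff_mem_P1 {y : ↥(modularFunctionFieldFullC k N)} {n : ℕ}
    (hy : y = jk k N ^ (n + 1)) (v : Place k ↥(modularFunctionFieldFullC k N)) :
    0 < v.ord y ↔ v ∈ P1 k N := by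
  have hpow : v.ord y = ((n + 1 : ℕ) : ℤ) * v.ord (jk k N) := by
    rw [hy]
    exact Fermat.Agent.S18.CoreOrd.ord_pow v _ _
  have hn : (0 : ℤ) < ((n + 1 : ℕ) : ℤ) := by exact_mod_cast Nat.succ_pos n
  rw [mem_P1, hpow]
  constructor
  · intro h
    by_contra hle
    have : ((n + 1 : ℕ) : ℤ) * v.ord (jk k N) ≤ 0 :=
      mul_nonpos_of_nonneg_of_nonpos hn.le (not_lt.mp hle)
    omega
  · intro h
    exact mul_pos hn h

/-- `regOff S` and `holo k N S` are the same subalgebra -/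
theorem mem_holo_iff_mem_regOff (S : Set (Place k ↥(modularFunctionFieldFullC k N)))
    (g : ↥(modularFunctionFieldFullC k N)) : g ∈ holo k N S ↔ g ∈ regOff S := by
  rw [mem_holo_iff, mem_regOff]
  exact forall₂_congr fun v _ => Fermat.Agent.S24.Ord.mem_iff v g

theorem holo_eq_regOff (S : Set (Place k ↥(modularFunctionFieldFullC k N))) :
    holo k N S = regOff S := SetLike.ext (mem_holo_iff_mem_regOff k N S)

/-- the `t` of `Chart.cusp_of_witness`: `j̄ ^ (n + 1)` has a pole at every cusp and its inverse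
is regular off the zeros of `j̄` -/
theorem ord_jk_pow_neg {n : ℕ} (b : Place k ↥(modularFunctionFieldFullC k N))
    (hb : b ∈ P0 k N) : b.ord (jk k N ^ (n + 1)) < 0 := by
  rw [Fermat.Agent.S18.CoreOrd.ord_pow]
  have hn : (0 : ℤ) < ((n + 1 : ℕ) : ℤ) := by exact_mod_cast Nat.succ_pos n
  exact mul_neg_of_pos_of_neg hn hb

theorem inv_jk_pow_mem_regOff (n : ℕ) : (jk k N ^ n)⁻¹ ∈ regOff (P1 k N) := by
  intro v hv
  have h0 : (jk k N ^ n)⁻¹ ≠ 0 := inv_ne_zero (pow_ne_zero _ (jk_ne_zero k N))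
  rw [← Fermat.Agent.S24.Ord.ord_nonneg_iff v h0, v.ord_inv, Fermat.Agent.S18.CoreOrd.ord_pow]
  have hle : v.ord (jk k N) ≤ 0 := not_lt.mp hv
  have : (n : ℤ) * v.ord (jk k N) ≤ 0 :=
    mul_nonpos_of_nonneg_of_nonpos (Int.natCast_nonneg n) hle
  omega

section Fixed

variable [HasPrincipalDivisors k ↥(modularFunctionFieldFullC k N)] [IsAlgClosed k]

open Classical in
/-- the finite set of `Fr²`-fixed places off `P` -/
def Zfix (P : Set (Place k ↥(modularFunctionFieldFullC k N))) :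
    Finset (Place k ↥(modularFunctionFieldFullC k N)) :=
  (finite_Fr_Fr_fixed k N q).toFinset.filter fun v => v ∉ P

theorem mem_Zfix {P : Set (Place k ↥(modularFunctionFieldFullC k N))}
    {v : Place k ↥(modularFunctionFieldFullC k N)} :
    v ∈ Zfix k N q P ↔ Fr k N q (Fr k N q v) = v ∧ v ∉ P := by
  classical
  rw [Zfix, Finset.mem_filter, Set.Finite.mem_toFinset]
  rfl

theorem not_mem_of_mem_Zfix {P : Set (Place k ↥(modularFunctionFieldFullC k N))}
    (v : Place k ↥(modularFunctionFieldFullC k N)) (hv : v ∈ Zfix k N q P) : v ∉ P :=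
  ((mem_Zfix k N q).mp hv).2

end Fixed

end Fermat.Agent.S34.Euler.FrobSide
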