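import Mathlib
import Fermat.Agent.S34.NodalDefs
import Fermat.Agent.S34.LevelMSurj
import Fermat.Agent.S34.Euler.Chart

/-!
# PROJECT U (S34): the chart-0 gluing description in the vocabulary of `NodalDefs`

`Chart.genus_le_of_charts` produces the node set `S` together with the description
`(h₁, h₂) ∈ Rbar0 ↔ ∀ b ∈ S, h₁ (Fr b) = h₂ b` (for `h₁, h₂` regular off `P₀`), stated with
`Euler.Value.HasValue`.  Here:

* `hasValue_iff_nodal` : `Euler.Value.HasValue = NodalDefs.HasValue`;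
* `glued_of_chart0` : an `f ∈ O₁ ∩ O₂ ∩ L(rD)` whose two reductions are regular off `P₀` is glued at
  every node (the last conjunct of `GNodalDatum.pcg` for the functions with poles at the poles of
  `x` only);
* `glued_of_chart0'` : the same for `f ∈ O₁ ∩ O₂` regular off the poles of `x`.
-/

set_option autoImplicit false
set_option linter.unusedSectionVars false

noncomputable section

namespace Fermat.Agent.S34.Euler.NodeValues

open AlgebraicCurve Fermat.Agent.S37.Deuring.Core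
  Fermat.Agent.S34.Euler.Value Fermat.Agent.S34.Euler.RedPair
  Fermat.Agent.S34.Euler.Places Fermat.Agent.S34.Euler.Chart

variable {k : Type*} [Field k] {κ : Type*} [Field κ] [Algebra k κ]

/-- the two notions of "value at a place" agree -/
theorem hasValue_iff_nodal (Q : Place k κ) (φ : κ) (γ : k) :
    HasValue Q φ γ ↔ Fermat.Agent.S34.NodalDefs.HasValue Q φ γ := by
  unfold HasValue Fermat.Agent.S34.NodalDefs.HasValue
  rcases eq_or_ne (φ - algebraMap k κ γ) 0 with h0 | h0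
  · rw [h0]
    simp only [map_zero, zero_lt_one, true_iff]
    exact Or.inl (sub_eq_zero.mp h0)
  · rw [← Fermat.Agent.S24.Ord.ord_pos_iff Q h0]
    constructor
    · exact Or.inr
    · rintro (h | h)
      · exact absurd (sub_eq_zero.mpr h) h0
      · exact h

variable {L : Type*} [Field L] {A : ValuationSubring L} {π : A →+* k}
variable {FL : Type*} [Field FL] [Algebra L FL]
variable (G₁ G₂ : GaussDatum A π FL κ)

/-- **Chart-0 gluing in `NodalDefs` vocabulary.** -/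
theorem glued_of_chart0 {D : Divisor L FL} (hD : 0 ≤ D) {P₀ : Set (Place k κ)}
    {Fr : Place k κ → Place k κ} {S : Finset (Place k κ)}
    (hb : ∀ h₁ h₂ : κ, h₁ ∈ regOff P₀ → h₂ ∈ regOff P₀ →
      ((h₁, h₂) ∈ Rbar0 G₁ G₂ hD ↔ ∀ b ∈ S, ∃ c : k, HasValue (Fr b) h₁ c ∧ HasValue b h₂ c))
    {f : FL} (h₁ : f ∈ G₁.O) (h₂ : f ∈ G₂.O) {r : ℕ} (hf : f ∈ riemannRochSpace (r • D))
    (hreg₁ : G₁.red ⟨f, h₁⟩ ∈ regOff P₀) (hreg₂ : G₂.red ⟨f, h₂⟩ ∈ regOff P₀) :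
    ∀ b ∈ S, ∃ γ : k, Fermat.Agent.S34.NodalDefs.HasValue (Fr b) (G₁.red ⟨f, h₁⟩) γ ∧
      Fermat.Agent.S34.NodalDefs.HasValue b (G₂.red ⟨f, h₂⟩) γ := by
  intro b hbS
  have hmem : (G₁.red ⟨f, h₁⟩, G₂.red ⟨f, h₂⟩) ∈ Rbar0 G₁ G₂ hD :=
    ⟨r, f, h₁, h₂, hf, rfl⟩
  obtain ⟨c, hc1, hc2⟩ := (hb _ _ hreg₁ hreg₂).mp hmem b hbS
  exact ⟨c, (hasValue_iff_nodal _ _ _).mp hc1, (hasValue_iff_nodal _ _ _).mp hc2⟩

/-- the same for a function regular off the support of `D` -/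
theorem glued_of_chart0' [HasPrincipalDivisors L FL] {D : Divisor L FL} (hD : 0 ≤ D)
    {P₀ : Set (Place k κ)} {Fr : Place k κ → Place k κ} {S : Finset (Place k κ)}
    (hb : ∀ h₁ h₂ : κ, h₁ ∈ regOff P₀ → h₂ ∈ regOff P₀ →
      ((h₁, h₂) ∈ Rbar0 G₁ G₂ hD ↔ ∀ b ∈ S, ∃ c : k, HasValue (Fr b) h₁ c ∧ HasValue b h₂ c))
    {f : FL} (h₁ : f ∈ G₁.O) (h₂ : f ∈ G₂.O)
    (hf : ∀ P : Place L FL, D P = 0 → f = 0 ∨ 0 ≤ P.ord f)
    (hreg₁ : G₁.red ⟨f, h₁⟩ ∈ regOff P₀) (hreg₂ : G₂.red ⟨f, h₂⟩ ∈ regOff P₀) :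
    ∀ b ∈ S, ∃ γ : k, Fermat.Agent.S34.NodalDefs.HasValue (Fr b) (G₁.red ⟨f, h₁⟩) γ ∧
      Fermat.Agent.S34.NodalDefs.HasValue b (G₂.red ⟨f, h₂⟩) γ := by
  obtain ⟨m₀, hm₀⟩ := Fermat.Agent.S34.LevelMSurj.exists_mem_nsmul hD f hf
  exact glued_of_chart0 G₁ G₂ hD hb h₁ h₂ (hm₀ m₀ le_rfl) hreg₁ hreg₂

/-- conversely, a pair of functions regular off `P₀` and glued at all nodes is the reduction of an
integral function with poles at the poles of `x` only -/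
theorem exists_lift_of_glued {D : Divisor L FL} (hD : 0 ≤ D) {P₀ : Set (Place k κ)}
    {Fr : Place k κ → Place k κ} {S : Finset (Place k κ)}
    (hb : ∀ h₁ h₂ : κ, h₁ ∈ regOff P₀ → h₂ ∈ regOff P₀ →
      ((h₁, h₂) ∈ Rbar0 G₁ G₂ hD ↔ ∀ b ∈ S, ∃ c : k, HasValue (Fr b) h₁ c ∧ HasValue b h₂ c))
    {y₁ y₂ : κ} (hy₁ : y₁ ∈ regOff P₀) (hy₂ : y₂ ∈ regOff P₀)
    (hglue : ∀ b ∈ S, ∃ γ : k, Fermat.Agent.S34.NodalDefs.HasValue (Fr b) y₁ γ ∧
      Fermat.Agent.S34.NodalDefs.HasValue b y₂ γ) :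
    ∃ (r : ℕ) (f : FL) (h₁ : f ∈ G₁.O) (h₂ : f ∈ G₂.O), f ∈ riemannRochSpace (r • D) ∧
      G₁.red ⟨f, h₁⟩ = y₁ ∧ G₂.red ⟨f, h₂⟩ = y₂ := by
  have hmem : (y₁, y₂) ∈ Rbar0 G₁ G₂ hD := by
    rw [hb y₁ y₂ hy₁ hy₂]
    intro b hbS
    obtain ⟨γ, h1, h2⟩ := hglue b hbS
    exact ⟨γ, (hasValue_iff_nodal _ _ _).mpr h1, (hasValue_iff_nodal _ _ _).mpr h2⟩
  obtain ⟨r, f, h₁, h₂, hf, hp⟩ := hmem
  refine ⟨r, f, h₁, h₂, hf, ?_, ?_⟩
  · exact congrArg Prod.fst hp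
  · exact congrArg Prod.snd hp

end Fermat.Agent.S34.Euler.NodeValues
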