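import Mathlib
import Fermat.Agent.S34.Euler.FrobSide
import Fermat.Agent.S34.Euler.NodeValues

/-!
# PROJECT U (S34), Euler characteristic: `Chart.genus_le_of_charts` at
`κ = modularFunctionFieldFullC k N` with the Frobenius pair `(FrobK.phi, FrobK.Fr)`

All `k`-side arguments are discharged (`FrobSide`); the remaining hypotheses are in the shapes
delivered by the producers:

* `x ∈ O₁ ∩ O₂` with `red₁ x = red₂ x = j̄ ^ (n + 1)`, pole divisors `D`, `E`, `deg D = 2 deg E`;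
* `LS0`, `LS1` : the level-`M` lifting statements (in `redSpace₂` form);
* `hJ₀`, `hJ₁` : the radical-ideal statements in `FrobK.holo` / `FrobK.phiHolo` form;
* `CUSP` : a witness `p ∈ redSpace₂ (r • D)` with `p.1 = x₁ ^ r`, `p.2 * j̄ ^ (m + 1) = x₂ ^ r`.

Conclusion: the node set `S` (a finite set of `Fr²`-fixed non-cuspidal places), the genus
inequality `(NC)` and the chart-0 gluing description.
-/

set_option autoImplicit false
set_option linter.unusedSectionVars false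

noncomputable section

namespace Fermat.Agent.S34.Euler.ChartFullC

open AlgebraicCurve ModularCurve
open Fermat.Agent.S18.B.FkBasics (jk)
open Fermat.Agent.S18.NonSpecial Fermat.Agent.S37.Deuring.Core
open Fermat.Agent.S34.FrobK Fermat.Agent.S34.Euler.Places Fermat.Agent.S34.Euler.Value
  Fermat.Agent.S34.Euler.RedPair Fermat.Agent.S34.Euler.Chart Fermat.Agent.S34.Euler.FrobSide

variable (k : Type*) [Field k] (N : ℕ) [NeZero N]
variable (q : ℕ) [hq : Fact q.Prime] [CharP k q] [PerfectField k]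
variable [HasPrincipalDivisors k ↥(modularFunctionFieldFullC k N)] [IsAlgClosed k]

/-- the radical-ideal hypothesis in `holo` / `phiHolo` form, for an `Fr`-stable set `P` -/
def HJ (P : Set (Place k ↥(modularFunctionFieldFullC k N)))
    (hP : ∀ w, Fr k N q w ∈ P ↔ w ∈ P) : Prop :=
  ∀ w : holo k N P, (∀ b ∈ Zfix k N q P, b.adicValuation (w : ↥(modularFunctionFieldFullC k N)) < 1) →
    w ∈ Ideal.span (Set.range fun g : holo k N P => g - phiHolo k N q hP (phiHolo k N q hP g))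

/-- `HJ` gives the hypothesis `hJ` of `Chart.genus_le_of_charts` -/
theorem hJ_of_HJ (hdeg : ∀ v : Place k ↥(modularFunctionFieldFullC k N), v.deg = 1)
    (P : Set (Place k ↥(modularFunctionFieldFullC k N)))
    (hP : ∀ w, Fr k N q w ∈ P ↔ w ∈ P) (hFrP : ∀ v, v ∉ P → Fr k N q v ∉ P)
    (h : HJ k N q P hP) :
    ∀ w : regOff P, (∀ b ∈ Zfix k N q P,
        b.adicValuation (w : ↥(modularFunctionFieldFullC k N)) < 1) →
      w ∈ Ideal.span (Set.range fun g : regOff P =>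
        g - phiR (valueRule k N q) hdeg hFrP (phiR (valueRule k N q) hdeg hFrP g)) :=
  hJ_of_subalgebra (valueRule k N q) hdeg hFrP (Zfix k N q P) (holo k N P)
    (mem_holo_iff_mem_regOff k N P) (phiHolo k N q hP).toRingHom (fun _ => rfl) h

variable {k N q}
variable {L : Type*} [Field L] {A : ValuationSubring L} {π : A →+* k}
variable {FL : Type*} [Field FL] [Algebra L FL]

/-- **(NC) at `κ = modularFunctionFieldFullC k N`.** -/
theorem genus_le_of_charts_fullC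
    (G₁ G₂ : GaussDatum A π FL ↥(modularFunctionFieldFullC k N))
    {g gκ : ℕ} (HL : RiemannHyp L FL g) (Hκ : RiemannHyp k ↥(modularFunctionFieldFullC k N) gκ)
    {x : FL} (hxO₁ : x ∈ G₁.O) (hxO₂ : x ∈ G₂.O) {D : Divisor L FL} (hxD : IsPoleDiv x D)
    (n : ℕ) (hx₁ : G₁.red ⟨x, hxO₁⟩ = jk k N ^ (n + 1))
    (hx₂ : G₂.red ⟨x, hxO₂⟩ = jk k N ^ (n + 1))
    {E : Divisor k ↥(modularFunctionFieldFullC k N)} (hE : IsPoleDiv (jk k N ^ (n + 1)) E)
    (hpos : 0 < Divisor.degree E)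
    (hdeg : Divisor.degree D = Divisor.degree E + Divisor.degree E)
    -- chart 0
    (LS0 : ∀ h : ↥(modularFunctionFieldFullC k N),
      (∀ v : Place k ↥(modularFunctionFieldFullC k N), 0 ≤ v.ord (jk k N) → h = 0 ∨ 0 ≤ v.ord h) →
      ∃ r : ℕ, (h, phi k N q h) ∈ redSpace₂ G₁ G₂ (r • D) ∧
        (phi k N q h, h) ∈ redSpace₂ G₁ G₂ (r • D))
    (hJ₀ : HJ k N q (P0 k N) (Fr_mem_P0_iff k N q))
    -- chart 1
    (LS1 : ∀ h : ↥(modularFunctionFieldFullC k N),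
      (∀ v : Place k ↥(modularFunctionFieldFullC k N), v.ord (jk k N) ≤ 0 → h = 0 ∨ 0 ≤ v.ord h) →
      ∃ r : ℕ, (G₁.red ⟨x, hxO₁⟩ ^ r * h, G₂.red ⟨x, hxO₂⟩ ^ r * phi k N q h)
          ∈ redSpace₂ G₁ G₂ (r • D) ∧
        (G₁.red ⟨x, hxO₁⟩ ^ r * phi k N q h, G₂.red ⟨x, hxO₂⟩ ^ r * h)
          ∈ redSpace₂ G₁ G₂ (r • D))
    (hJ₁ : HJ k N q (P1 k N) (Fr_mem_P1_iff k N q))
    (CUSP : ∃ (r m : ℕ) (p : ↥(modularFunctionFieldFullC k N) × ↥(modularFunctionFieldFullC k N)),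
      p ∈ redSpace₂ G₁ G₂ (r • D) ∧ p.1 = G₁.red ⟨x, hxO₁⟩ ^ r ∧
        p.2 * jk k N ^ (m + 1) = G₂.red ⟨x, hxO₂⟩ ^ r) :
    ∃ S : Finset (Place k ↥(modularFunctionFieldFullC k N)),
      (∀ b ∈ S, Fr k N q (Fr k N q b) = b ∧ b ∉ P0 k N) ∧
      (g : ℤ) + 1 ≤ gκ + gκ + S.card ∧
      ∀ h₁ h₂ : ↥(modularFunctionFieldFullC k N), h₁ ∈ regOff (P0 k N) → h₂ ∈ regOff (P0 k N) →
        ((h₁, h₂) ∈ Rbar0 G₁ G₂ hxD.nonneg ↔
          ∀ b ∈ S, ∃ c : k, HasValue (Fr k N q b) h₁ c ∧ HasValue b h₂ c) := by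
  have hE₁ : IsPoleDiv (G₁.red ⟨x, hxO₁⟩) E := by rw [hx₁]; exact hE
  have hE₂ : IsPoleDiv (G₂.red ⟨x, hxO₂⟩) E := by rw [hx₂]; exact hE
  -- membership conversions
  have hreg₀ : ∀ h : ↥(modularFunctionFieldFullC k N), h ∈ regOff (P0 k N) →
      ∀ v : Place k ↥(modularFunctionFieldFullC k N), 0 ≤ v.ord (jk k N) → h = 0 ∨ 0 ≤ v.ord h := by
    intro h hh v hv
    rcases eq_or_ne h 0 with h0 | h0
    · exact Or.inl h0
    · exact Or.inr ((Fermat.Agent.S24.Ord.ord_nonneg_iff v h0).mpr (hh v (not_lt.mpr hv)))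
  have hreg₁ : ∀ h : ↥(modularFunctionFieldFullC k N), h ∈ regOff (P1 k N) →
      ∀ v : Place k ↥(modularFunctionFieldFullC k N), v.ord (jk k N) ≤ 0 → h = 0 ∨ 0 ≤ v.ord h := by
    intro h hh v hv
    rcases eq_or_ne h 0 with h0 | h0
    · exact Or.inl h0
    · exact Or.inr ((Fermat.Agent.S24.Ord.ord_nonneg_iff v h0).mpr (hh v (not_lt.mpr hv)))
  obtain ⟨r, m, p, hp, hp1, hp2⟩ := CUSP
  obtain ⟨S, hSZ, hNC, hb⟩ := genus_le_of_charts G₁ G₂ HL Hκ (valueRule k N q)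
    (Fr_injective k N q) hxO₁ hxO₂ hxD hE₁ hE₂ hpos hpos hdeg
    (P₀ := P0 k N) (P₁ := P1 k N)
    (pos_iff_mem_P0 k N hx₁ hE₁) (pos_iff_mem_P0 k N hx₂ hE₂)
    (pos_iff_mem_P1 k N hx₁) (pos_iff_mem_P1 k N hx₂)
    (Fr_not_mem_P0 k N q) (Fr_not_mem_P1 k N q)
    (fun h hh => by
      obtain ⟨r, h1, h2⟩ := LS0 h (hreg₀ h hh)
      exact ⟨⟨r, h1⟩, ⟨r, h2⟩⟩)
    (Zfix k N q (P0 k N)) (not_mem_of_mem_Zfix k N q)
    (hJ_of_HJ k N q Hκ.deg_one (P0 k N) (Fr_mem_P0_iff k N q) (Fr_not_mem_P0 k N q) hJ₀)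
    (fun h hh => by
      obtain ⟨r, h1, h2⟩ := LS1 h (hreg₁ h hh)
      exact ⟨⟨r, h1⟩, ⟨r, h2⟩⟩)
    (Zfix k N q (P1 k N)) (not_mem_of_mem_Zfix k N q)
    (hJ_of_HJ k N q Hκ.deg_one (P1 k N) (Fr_mem_P1_iff k N q) (Fr_not_mem_P1 k N q) hJ₁)
    (cusp_of_witness G₁ G₂ hxO₁ hxO₂ hxD (t := jk k N ^ (m + 1))
      (fun b hb => ord_jk_pow_neg k N b hb) (inv_jk_pow_mem_regOff k N (m + 1)) hp hp1 hp2
      (Zfix k N q (P1 k N)))
  refine ⟨S, fun b hbS => ?_, hNC, hb⟩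
  exact (mem_Zfix k N q).mp (hSZ hbS)

end Fermat.Agent.S34.Euler.ChartFullC
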