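import Mathlib
import Fermat.Agent.S34.HoloIdeal
import Fermat.Agent.S34.Euler.ChartFullC
import Fermat.Agent.S18.A.PoleBridge
import Fermat.Agent.S18.B.SeparableFk

/-!
# PROJECT U (S34): the radical-ideal hypotheses `HJ` of `ChartFullC.genus_le_of_charts_fullC`
from `HoloIdeal.inf_mv_le_span`

* `hJ_holo` : `HJ k N q S hS` for every finite non-empty `Fr`-stable set `S`;
* `hJ_P0`, `hJ_P1` : the two instances used by the Euler characteristic argument
  (`S` = poles of `j̄`, `S` = zeros of `j̄`).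
-/

set_option autoImplicit false
set_option linter.unusedSectionVars false

noncomputable section

namespace Fermat.Agent.S34.Euler.HoloBridge

open AlgebraicCurve ModularCurve
open Fermat.Agent.S18.B.FkBasics (jk)
open Fermat.Agent.S18.NonSpecial
open Fermat.Agent.S34.FrobK Fermat.Agent.S34.HoloIdeal Fermat.Agent.S34.Euler.FrobSide
  Fermat.Agent.S34.Euler.ChartFullC

variable (k : Type*) [Field k] (N : ℕ) [NeZero N]
variable (q : ℕ) [hq : Fact q.Prime] [CharP k q] [PerfectField k] [IsAlgClosed k]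
variable [HasPrincipalDivisors k ↥(modularFunctionFieldFullC k N)]

/-- **`HJ` for a finite non-empty `Fr`-stable set.** -/
theorem hJ_holo {gk : ℕ} (hR : RiemannHyp k ↥(modularFunctionFieldFullC k N) gk)
    {S : Set (Place k ↥(modularFunctionFieldFullC k N))}
    {Q0 : Place k ↥(modularFunctionFieldFullC k N)} (hQ0 : Q0 ∈ S)
    (hS : ∀ w, Fr k N q w ∈ S ↔ w ∈ S) (hSfin : S.Finite) : HJ k N q S hS := by
  classical
  intro w hw
  apply inf_mv_le_span k N q hR hQ0 hS hSfin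
  rw [Submodule.mem_finsetInf]
  intro J hJ
  obtain ⟨v, hv, rfl⟩ := Finset.mem_image.mp hJ
  have hv' := (mem_fixedOff k N q).mp hv
  show w ∈ mv k N S v
  rw [mem_mv_iff k N hv'.2]
  exact hw v ((mem_Zfix k N q).mpr hv')

theorem finite_P0 : (P0 k N).Finite :=
  (finite_ord_ne_zero k N (jk_ne_zero k N)).subset fun _ hv => ne_of_lt hv

theorem finite_P1 : (P1 k N).Finite :=
  (finite_ord_ne_zero k N (jk_ne_zero k N)).subset fun _ hv => ne_of_gt hv

theorem exists_mem_P0 : ∃ Q : Place k ↥(modularFunctionFieldFullC k N), Q ∈ P0 k N :=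
  Fermat.Agent.S18.A.PoleBridge.exists_pole (Fermat.Agent.S18.B.FkBasics.isFF k N)
    (Fermat.Agent.S18.B.SeparableFk.isSeparable_jk k N)

theorem exists_mem_P1 : ∃ Q : Place k ↥(modularFunctionFieldFullC k N), Q ∈ P1 k N := by
  obtain ⟨Q, hQ⟩ := Fermat.Agent.S18.A.PoleBridge.exists_pole
    (Fermat.Agent.S18.B.FkBasics.isFF k N).inv
    (Fermat.Agent.S18.A.Defs.isSeparable_inv (Fermat.Agent.S18.B.SeparableFk.isSeparable_jk k N))
  refine ⟨Q, ?_⟩
  rw [Q.ord_inv] at hQ
  show 0 < Q.ord (jk k N)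
  omega

/-- `HJ` at the poles of `j̄` -/
theorem hJ_P0 {gk : ℕ} (hR : RiemannHyp k ↥(modularFunctionFieldFullC k N) gk) :
    HJ k N q (P0 k N) (Fr_mem_P0_iff k N q) := by
  obtain ⟨Q0, hQ0⟩ := exists_mem_P0 k N
  exact hJ_holo k N q hR hQ0 (Fr_mem_P0_iff k N q) (finite_P0 k N)

/-- `HJ` at the zeros of `j̄` -/
theorem hJ_P1 {gk : ℕ} (hR : RiemannHyp k ↥(modularFunctionFieldFullC k N) gk) :
    HJ k N q (P1 k N) (Fr_mem_P1_iff k N q) := by
  obtain ⟨Q0, hQ0⟩ := exists_mem_P1 k N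
  exact hJ_holo k N q hR hQ0 (Fr_mem_P1_iff k N q) (finite_P1 k N)

end Fermat.Agent.S34.Euler.HoloBridge
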