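import Mathlib
import Fermat.Agent.S34.Euler.RedPair
import Fermat.Agent.S34.LevelMSurj
import Fermat.Agent.S34.Generic.Compat
import Fermat.Agent.S34.Euler.Chart

/-!
# PROJECT U (S34), Euler characteristic: the pairs `(ḡ, φ ḡ)`, `(φ ḡ, ḡ)` lie in the reduced lattice

Abstract producer of the two hypotheses (LS0), (LS1) of the two-chart bridge.

Setting: a level-`M` function field `FM / L` with a Gauss datum `GM : GaussDatum A π FM κ`
satisfying the Deuring hypotheses `H : Hyp GM gL gk`; a level-`qM` function field `FL / L` with TWO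
Gauss data `G₁ G₂ : GaussDatum A π FL κ` (both with residue function field `κ`); two ring maps
`α β : FM →+* FL` (the two degeneracy maps) and a map `φ : κ → κ` (the Frobenius pull-back) with the
reduction dictionary `PairDict`:

  `red₁ (α g) = ḡ`, `red₂ (α g) = φ ḡ`, `red₁ (β g) = φ ḡ`, `red₂ (β g) = ḡ`   for `g ∈ GM.O`.

`x ∈ FL` with pole divisor `D` (at `X₀(qM)`: `x = j · j_q`), `u ∈ GM.O` non-constant (`u = j`).

* `ls0` : if `α`, `β` send functions regular off the poles of `u` to functions regular off the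
  poles of `x`, then for every `ḡ ∈ κ` regular off the poles of `red u` and all large `r`:
  `(ḡ, φ ḡ) ∈ redSpace₂ (r D)` and `(φ ḡ, ḡ) ∈ redSpace₂ (r D)`.
* `ls1` : if `α`, `β` send functions regular off the zeros of `u` to functions regular off the
  zeros of `x`, then for every `ḡ ∈ κ` regular off the zeros of `red u` and all large `r`:
  `(x̄₁ ^ r ḡ, x̄₂ ^ r φ ḡ) ∈ redSpace₂ (r D)` and `(x̄₁ ^ r φ ḡ, x̄₂ ^ r ḡ) ∈ redSpace₂ (r D)`.
* `LS0`, `LS1` : the same, literally in the shape of the hypotheses of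
  `Euler.Chart.genus_le_of_charts` (`regOff`, `Rbar0`, `Rbar1`);
* `ls0_of_lift`, `ls1_of_lift` : the same for a given lift `g ∈ GM.O` of `ḡ`;
* `regular_of_restr_poles`, `regular_of_restr_zeros` : the pole hypotheses from restriction data
  `Generic.Compat.Restr` of places; `ord_nonneg_of_poleDiv_mul`, `ord_nonpos_of_ord_mul_nonpos` for
  `x = α u · β u`.
-/

set_option autoImplicit false
set_option linter.unusedSectionVars false
set_option linter.style.haveILetI false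

noncomputable section

namespace Fermat.Agent.S34.Euler.ChartLift

open AlgebraicCurve Fermat.Agent.S18.NonSpecial Fermat.Agent.S37.Deuring.Core
  Fermat.Agent.S34.Euler.RedPair Fermat.Agent.S34.LevelMSurj Fermat.Agent.S34.Euler.Places
  Fermat.Agent.S34.Euler.Chart

variable {L : Type*} [Field L] {k : Type*} [Field k]
variable {A : ValuationSubring L} {π : A →+* k}
variable {FM : Type*} [Field FM] [Algebra L FM]
variable {FL : Type*} [Field FL] [Algebra L FL]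
variable {κ : Type*} [Field κ] [Algebra k κ]

/-! ### membership in the reduced lattice from the position of the poles -/

section Lattice

variable {κ₁ : Type*} [Field κ₁] [Algebra k κ₁] {κ₂ : Type*} [Field κ₂] [Algebra k κ₂]
variable (G₁ : GaussDatum A π FL κ₁) (G₂ : GaussDatum A π FL κ₂)
variable [HasPrincipalDivisors L FL]

/-- chart `x ≠ ∞`: a function of `O₁ ∩ O₂` whose poles are among the poles of `x` reduces into
`redSpace₂ (r (x)_∞)` for all large `r`. -/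
theorem redPair_mem_of_poles {x : FL} {D : Divisor L FL} (hD : IsPoleDiv x D)
    (f : FL) (h₁ : f ∈ G₁.O) (h₂ : f ∈ G₂.O) (hf : ∀ P : Place L FL, D P = 0 → 0 ≤ P.ord f) :
    ∃ r₀ : ℕ, ∀ r : ℕ, r₀ ≤ r → redPair G₁ G₂ f h₁ h₂ ∈ redSpace₂ G₁ G₂ (r • D) := by
  obtain ⟨r₀, hr₀⟩ := exists_mem_nsmul hD.nonneg f (fun P hP => Or.inr (hf P hP))
  exact ⟨r₀, fun r hr => ⟨f, h₁, h₂, hr₀ r hr, rfl⟩⟩

theorem redPair_pow {x : FL} (h₁ : x ∈ G₁.O) (h₂ : x ∈ G₂.O) (r : ℕ) :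
    redPair G₁ G₂ (x ^ r) (G₁.O.pow_mem h₁ r) (G₂.O.pow_mem h₂ r)
      = redPair G₁ G₂ x h₁ h₂ ^ r := by
  unfold redPair
  ext
  · exact map_pow G₁.red ⟨x, h₁⟩ r
  · exact map_pow G₂.red ⟨x, h₂⟩ r

/-- `x ^ r f ∈ L(r (x)_∞)` for all large `r` when the poles of `f` are among the zeros of `x`. -/
theorem pow_mul_mem_rr {x : FL} {D : Divisor L FL} (hD : IsPoleDiv x D)
    (f : FL) (hf : ∀ P : Place L FL, P.ord x ≤ 0 → 0 ≤ P.ord f) :
    ∃ r₀ : ℕ, ∀ r : ℕ, r₀ ≤ r → x ^ r * f ∈ riemannRochSpace (r • D) := by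
  classical
  by_cases hf0 : f = 0
  · exact ⟨0, fun r _ => by rw [hf0, mul_zero]; exact Submodule.zero_mem _⟩
  by_cases hx0 : x = 0
  · refine ⟨1, fun r hr => ?_⟩
    rw [hx0, zero_pow (by omega), zero_mul]
    exact Submodule.zero_mem _
  obtain ⟨Df, hDf, -⟩ := HasPrincipalDivisors.exists_divisor (K := L) f hf0
  refine ⟨Df.support.sup fun P => (- Df P).toNat, fun r hr => ?_⟩
  rw [mem_riemannRochSpace_iff]
  intro P
  right
  have hpow : P.ord (x ^ r) = (r : ℤ) * P.ord x := by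
    rw [← zpow_natCast, Place.ord_zpow]
  rw [Finsupp.smul_apply, nsmul_eq_mul, Place.ord_mul _ (pow_ne_zero r hx0) hf0, hpow, hD P]
  rcases le_or_gt (P.ord x) 0 with hx | hx
  · have h1 := hf P hx
    have : max 0 (- P.ord x) = - P.ord x := by omega
    rw [this]
    nlinarith
  · have : max 0 (- P.ord x) = 0 := by omega
    rw [this, mul_zero, neg_zero]
    by_cases hPs : P ∈ Df.support
    · have h1 : (- Df P).toNat ≤ Df.support.sup fun P => (- Df P).toNat :=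
        Finset.le_sup (f := fun P => (- Df P).toNat) hPs
      have h2 : ((- Df P).toNat : ℤ) ≤ (r : ℤ) := by exact_mod_cast h1.trans hr
      have h3 := Int.self_le_toNat (- Df P)
      rw [← hDf P]
      nlinarith
    · rw [Finsupp.notMem_support_iff] at hPs
      rw [← hDf P, hPs, add_zero]
      positivity

/-- chart `x ≠ 0`: for `f ∈ O₁ ∩ O₂` whose poles are among the zeros of `x ∈ O₁ ∩ O₂`,
`(x̄₁ ^ r f̄₁, x̄₂ ^ r f̄₂) ∈ redSpace₂ (r (x)_∞)` for all large `r`. -/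
theorem pow_mul_redPair_mem_of_zeros {x : FL} (hx₁ : x ∈ G₁.O) (hx₂ : x ∈ G₂.O)
    {D : Divisor L FL} (hD : IsPoleDiv x D)
    (f : FL) (h₁ : f ∈ G₁.O) (h₂ : f ∈ G₂.O) (hf : ∀ P : Place L FL, P.ord x ≤ 0 → 0 ≤ P.ord f) :
    ∃ r₀ : ℕ, ∀ r : ℕ, r₀ ≤ r →
      redPair G₁ G₂ x hx₁ hx₂ ^ r * redPair G₁ G₂ f h₁ h₂ ∈ redSpace₂ G₁ G₂ (r • D) := by
  obtain ⟨r₀, hr₀⟩ := pow_mul_mem_rr hD f hf
  refine ⟨r₀, fun r hr => ⟨x ^ r * f, G₁.O.mul_mem _ _ (G₁.O.pow_mem hx₁ r) h₁,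
    G₂.O.mul_mem _ _ (G₂.O.pow_mem hx₂ r) h₂, hr₀ r hr, ?_⟩⟩
  rw [redPair_mul G₁ G₂ (G₁.O.pow_mem hx₁ r) (G₂.O.pow_mem hx₂ r) h₁ h₂, redPair_pow]

end Lattice

/-! ### the reduction dictionary of the two degeneracy maps -/

/-- The reduction dictionary: `(red₁, red₂)(α g) = (ḡ, φ ḡ)` and `(red₁, red₂)(β g) = (φ ḡ, ḡ)`
for every `g ∈ GM.O`. -/
structure PairDict (GM : GaussDatum A π FM κ) (G₁ G₂ : GaussDatum A π FL κ)
    (α β : FM →+* FL) (φ : κ → κ) : Prop where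
  alpha_mem₁ : ∀ g : GM.O, α (g : FM) ∈ G₁.O
  alpha_mem₂ : ∀ g : GM.O, α (g : FM) ∈ G₂.O
  beta_mem₁ : ∀ g : GM.O, β (g : FM) ∈ G₁.O
  beta_mem₂ : ∀ g : GM.O, β (g : FM) ∈ G₂.O
  red₁_alpha : ∀ g : GM.O, G₁.red ⟨α (g : FM), alpha_mem₁ g⟩ = GM.red g
  red₂_alpha : ∀ g : GM.O, G₂.red ⟨α (g : FM), alpha_mem₂ g⟩ = φ (GM.red g)
  red₁_beta : ∀ g : GM.O, G₁.red ⟨β (g : FM), beta_mem₁ g⟩ = φ (GM.red g)
  red₂_beta : ∀ g : GM.O, G₂.red ⟨β (g : FM), beta_mem₂ g⟩ = GM.red g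

namespace PairDict

variable {GM : GaussDatum A π FM κ} {G₁ G₂ : GaussDatum A π FL κ}
variable {α β : FM →+* FL} {φ : κ → κ}

theorem redPair_alpha (d : PairDict GM G₁ G₂ α β φ) (g : GM.O) :
    redPair G₁ G₂ (α (g : FM)) (d.alpha_mem₁ g) (d.alpha_mem₂ g) = (GM.red g, φ (GM.red g)) := by
  unfold redPair
  rw [d.red₁_alpha, d.red₂_alpha]

theorem redPair_beta (d : PairDict GM G₁ G₂ α β φ) (g : GM.O) :
    redPair G₁ G₂ (β (g : FM)) (d.beta_mem₁ g) (d.beta_mem₂ g) = (φ (GM.red g), GM.red g) := by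
  unfold redPair
  rw [d.red₁_beta, d.red₂_beta]

/-- `x = α u · β u` lies in `O₁ ∩ O₂` -/
theorem mul_mem₁ (d : PairDict GM G₁ G₂ α β φ) (u : GM.O) :
    α (u : FM) * β (u : FM) ∈ G₁.O := G₁.O.mul_mem _ _ (d.alpha_mem₁ u) (d.beta_mem₁ u)

theorem mul_mem₂ (d : PairDict GM G₁ G₂ α β φ) (u : GM.O) :
    α (u : FM) * β (u : FM) ∈ G₂.O := G₂.O.mul_mem _ _ (d.alpha_mem₂ u) (d.beta_mem₂ u)

/-- `red₁ (α u · β u) = ū · φ ū` -/
theorem red₁_mul (d : PairDict GM G₁ G₂ α β φ) (u : GM.O) :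
    G₁.red ⟨α (u : FM) * β (u : FM), d.mul_mem₁ u⟩ = GM.red u * φ (GM.red u) := by
  have : (⟨α (u : FM) * β (u : FM), d.mul_mem₁ u⟩ : G₁.O)
      = ⟨α (u : FM), d.alpha_mem₁ u⟩ * ⟨β (u : FM), d.beta_mem₁ u⟩ := rfl
  rw [this, map_mul, d.red₁_alpha, d.red₁_beta]

/-- `red₂ (α u · β u) = φ ū · ū` -/
theorem red₂_mul (d : PairDict GM G₁ G₂ α β φ) (u : GM.O) :
    G₂.red ⟨α (u : FM) * β (u : FM), d.mul_mem₂ u⟩ = φ (GM.red u) * GM.red u := by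
  have : (⟨α (u : FM) * β (u : FM), d.mul_mem₂ u⟩ : G₂.O)
      = ⟨α (u : FM), d.alpha_mem₂ u⟩ * ⟨β (u : FM), d.beta_mem₂ u⟩ := rfl
  rw [this, map_mul, d.red₂_alpha, d.red₂_beta]

end PairDict

/-! ### (LS0) and (LS1) -/

/-- regularity off a set of places, in `ord` form -/
theorem ord_nonneg_of_mem_regOff {P : Set (Place k κ)} {h : κ} (hh : h ∈ regOff P)
    {Q : Place k κ} (hQ : Q ∉ P) : 0 ≤ Q.ord h := by
  by_cases h0 : h = 0
  · rw [h0, Place.ord_zero]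
  · exact (Fermat.Agent.S24.Ord.ord_nonneg_iff Q h0).mpr (hh Q hQ)


section Main

variable {GM : GaussDatum A π FM κ} {G₁ G₂ : GaussDatum A π FL κ}
variable {α β : FM →+* FL} {φ : κ → κ} {gL gk : ℕ}
variable [HasPrincipalDivisors L FL]

/-- chart `x ≠ ∞`, for a given lift: if `α g`, `β g` are regular off the poles of `x`, the pairs
`(ḡ, φ ḡ)`, `(φ ḡ, ḡ)` lie in the reduction of `L(r D) ∩ O₁ ∩ O₂` for all large `r`. -/
theorem ls0_of_lift (d : PairDict GM G₁ G₂ α β φ) {x : FL} {D : Divisor L FL}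
    (hD : IsPoleDiv x D) (g : GM.O)
    (hαg : ∀ P : Place L FL, D P = 0 → 0 ≤ P.ord (α (g : FM)))
    (hβg : ∀ P : Place L FL, D P = 0 → 0 ≤ P.ord (β (g : FM))) :
    ∃ r₀ : ℕ, ∀ r : ℕ, r₀ ≤ r →
      (GM.red g, φ (GM.red g)) ∈ redSpace₂ G₁ G₂ (r • D) ∧
      (φ (GM.red g), GM.red g) ∈ redSpace₂ G₁ G₂ (r • D) := by
  obtain ⟨ra, hra⟩ := redPair_mem_of_poles G₁ G₂ hD (α (g : FM)) (d.alpha_mem₁ g)
    (d.alpha_mem₂ g) hαg
  obtain ⟨rb, hrb⟩ := redPair_mem_of_poles G₁ G₂ hD (β (g : FM)) (d.beta_mem₁ g)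
    (d.beta_mem₂ g) hβg
  refine ⟨max ra rb, fun r hr => ⟨?_, ?_⟩⟩
  · have := hra r ((le_max_left _ _).trans hr)
    rwa [d.redPair_alpha] at this
  · have := hrb r ((le_max_right _ _).trans hr)
    rwa [d.redPair_beta] at this

/-- chart `x ≠ 0`, for a given lift: if `α g`, `β g` are regular off the zeros of `x`, then
`x̄ ^ r (ḡ, φ ḡ)`, `x̄ ^ r (φ ḡ, ḡ)` lie in the reduction of `L(r D) ∩ O₁ ∩ O₂` for all large `r`. -/
theorem ls1_of_lift (d : PairDict GM G₁ G₂ α β φ) {x : FL} (hx₁ : x ∈ G₁.O) (hx₂ : x ∈ G₂.O)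
    {D : Divisor L FL} (hD : IsPoleDiv x D) (g : GM.O)
    (hαg : ∀ P : Place L FL, P.ord x ≤ 0 → 0 ≤ P.ord (α (g : FM)))
    (hβg : ∀ P : Place L FL, P.ord x ≤ 0 → 0 ≤ P.ord (β (g : FM))) :
    ∃ r₀ : ℕ, ∀ r : ℕ, r₀ ≤ r →
      (G₁.red ⟨x, hx₁⟩ ^ r * GM.red g, G₂.red ⟨x, hx₂⟩ ^ r * φ (GM.red g))
        ∈ redSpace₂ G₁ G₂ (r • D) ∧
      (G₁.red ⟨x, hx₁⟩ ^ r * φ (GM.red g), G₂.red ⟨x, hx₂⟩ ^ r * GM.red g)
        ∈ redSpace₂ G₁ G₂ (r • D) := by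
  obtain ⟨ra, hra⟩ := pow_mul_redPair_mem_of_zeros G₁ G₂ hx₁ hx₂ hD (α (g : FM)) (d.alpha_mem₁ g)
    (d.alpha_mem₂ g) hαg
  obtain ⟨rb, hrb⟩ := pow_mul_redPair_mem_of_zeros G₁ G₂ hx₁ hx₂ hD (β (g : FM)) (d.beta_mem₁ g)
    (d.beta_mem₂ g) hβg
  refine ⟨max ra rb, fun r hr => ⟨?_, ?_⟩⟩
  · have := hra r ((le_max_left _ _).trans hr)
    rwa [d.redPair_alpha] at this
  · have := hrb r ((le_max_right _ _).trans hr)
    rwa [d.redPair_beta] at this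

variable [HasPrincipalDivisors L FM] [HasPrincipalDivisors k κ] [Infinite k]

/-- **(LS0), chart `x ≠ ∞`.**  Every `ḡ ∈ κ` regular off the poles of `ū` gives two pairs
`(ḡ, φ ḡ)`, `(φ ḡ, ḡ)` in the reduction of `L(r D) ∩ O₁ ∩ O₂`, for all large `r`. -/
theorem ls0 (H : Hyp GM gL gk) (d : PairDict GM G₁ G₂ α β φ)
    (u : GM.O) (hu : GM.red u ≠ 0)
    {Du : Divisor L FM} {Dy : Divisor k κ} (hDu : IsPoleDiv ((u : GM.O) : FM) Du)
    (hDy : IsPoleDiv (GM.red u) Dy) (hdeg : Divisor.degree Du ≤ Divisor.degree Dy)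
    (hpos : 0 < Divisor.degree Du)
    {x : FL} {D : Divisor L FL} (hD : IsPoleDiv x D)
    (hα : ∀ g : FM, (∀ P' : Place L FM, 0 ≤ P'.ord ((u : GM.O) : FM) → 0 ≤ P'.ord g) →
      ∀ P : Place L FL, D P = 0 → 0 ≤ P.ord (α g))
    (hβ : ∀ g : FM, (∀ P' : Place L FM, 0 ≤ P'.ord ((u : GM.O) : FM) → 0 ≤ P'.ord g) →
      ∀ P : Place L FL, D P = 0 → 0 ≤ P.ord (β g))
    (y : κ) (hy : ∀ Q : Place k κ, 0 ≤ Q.ord (GM.red u) → 0 ≤ Q.ord y) :
    ∃ r₀ : ℕ, ∀ r : ℕ, r₀ ≤ r →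
      (y, φ y) ∈ redSpace₂ G₁ G₂ (r • D) ∧ (φ y, y) ∈ redSpace₂ G₁ G₂ (r • D) := by
  obtain ⟨g, hgy, hg⟩ := exists_lift_of_poles H u hu hDu hDy hdeg hpos y
    (fun Q hQ => Or.inr (hy Q hQ))
  have hg' : ∀ P' : Place L FM, 0 ≤ P'.ord ((u : GM.O) : FM) → 0 ≤ P'.ord ((g : GM.O) : FM) := by
    intro P' hP'
    rcases hg P' hP' with h | h
    · rw [h, Place.ord_zero]
    · exact h
  have := ls0_of_lift d hD g (hα _ hg') (hβ _ hg')
  rwa [hgy] at this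

/-- **(LS1), chart `x ≠ 0`.**  Every `ḡ ∈ κ` regular off the zeros of `ū` gives, after
multiplication by `x̄ ^ r`, two pairs in the reduction of `L(r D) ∩ O₁ ∩ O₂`, for all large `r`. -/
theorem ls1 (H : Hyp GM gL gk) (d : PairDict GM G₁ G₂ α β φ)
    (u : GM.O) (hu : GM.red u ≠ 0)
    {Zu : Divisor L FM} {Zy : Divisor k κ} (hZu : IsPoleDiv (((u : GM.O) : FM)⁻¹) Zu)
    (hZy : IsPoleDiv (GM.red u)⁻¹ Zy) (hdeg : Divisor.degree Zu ≤ Divisor.degree Zy)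
    (hpos : 0 < Divisor.degree Zu)
    {x : FL} (hx₁ : x ∈ G₁.O) (hx₂ : x ∈ G₂.O) {D : Divisor L FL} (hD : IsPoleDiv x D)
    (hα : ∀ g : FM, (∀ P' : Place L FM, P'.ord ((u : GM.O) : FM) ≤ 0 → 0 ≤ P'.ord g) →
      ∀ P : Place L FL, P.ord x ≤ 0 → 0 ≤ P.ord (α g))
    (hβ : ∀ g : FM, (∀ P' : Place L FM, P'.ord ((u : GM.O) : FM) ≤ 0 → 0 ≤ P'.ord g) →
      ∀ P : Place L FL, P.ord x ≤ 0 → 0 ≤ P.ord (β g))
    (y : κ) (hy : ∀ Q : Place k κ, Q.ord (GM.red u) ≤ 0 → 0 ≤ Q.ord y) :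
    ∃ r₀ : ℕ, ∀ r : ℕ, r₀ ≤ r →
      (G₁.red ⟨x, hx₁⟩ ^ r * y, G₂.red ⟨x, hx₂⟩ ^ r * φ y) ∈ redSpace₂ G₁ G₂ (r • D) ∧
      (G₁.red ⟨x, hx₁⟩ ^ r * φ y, G₂.red ⟨x, hx₂⟩ ^ r * y) ∈ redSpace₂ G₁ G₂ (r • D) := by
  obtain ⟨g, hgy, hg⟩ := exists_lift_of_zeros H u hu hZu hZy hdeg hpos y
    (fun Q hQ => Or.inr (hy Q hQ))
  have hg' : ∀ P' : Place L FM, P'.ord ((u : GM.O) : FM) ≤ 0 → 0 ≤ P'.ord ((g : GM.O) : FM) := by
    intro P' hP'
    rcases hg P' hP' with h | h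
    · rw [h, Place.ord_zero]
    · exact h
  have := ls1_of_lift d hx₁ hx₂ hD g (hα _ hg') (hβ _ hg')
  rwa [hgy] at this

/-- **(LS0)** literally in the shape of `Euler.Chart.genus_le_of_charts`. -/
theorem LS0 (H : Hyp GM gL gk) (d : PairDict GM G₁ G₂ α β φ)
    (u : GM.O) (hu : GM.red u ≠ 0)
    {Du : Divisor L FM} {Dy : Divisor k κ} (hDu : IsPoleDiv ((u : GM.O) : FM) Du)
    (hDy : IsPoleDiv (GM.red u) Dy) (hdeg : Divisor.degree Du ≤ Divisor.degree Dy)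
    (hpos : 0 < Divisor.degree Du)
    {x : FL} {D : Divisor L FL} (hD : IsPoleDiv x D)
    (hα : ∀ g : FM, (∀ P' : Place L FM, 0 ≤ P'.ord ((u : GM.O) : FM) → 0 ≤ P'.ord g) →
      ∀ P : Place L FL, D P = 0 → 0 ≤ P.ord (α g))
    (hβ : ∀ g : FM, (∀ P' : Place L FM, 0 ≤ P'.ord ((u : GM.O) : FM) → 0 ≤ P'.ord g) →
      ∀ P : Place L FL, D P = 0 → 0 ≤ P.ord (β g)) :
    ∀ h ∈ regOff {v : Place k κ | v.ord (GM.red u) < 0},
      (h, φ h) ∈ Rbar0 G₁ G₂ hD.nonneg ∧ (φ h, h) ∈ Rbar0 G₁ G₂ hD.nonneg := by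
  intro h hh
  obtain ⟨r₀, hr₀⟩ := ls0 H d u hu hDu hDy hdeg hpos hD hα hβ h
    (fun Q hQ => ord_nonneg_of_mem_regOff hh (by simpa using hQ))
  exact ⟨(mem_Rbar0_iff_redSpace₂ G₁ G₂ hD.nonneg).mpr ⟨r₀, (hr₀ r₀ le_rfl).1⟩,
    (mem_Rbar0_iff_redSpace₂ G₁ G₂ hD.nonneg).mpr ⟨r₀, (hr₀ r₀ le_rfl).2⟩⟩

/-- **(LS1)** literally in the shape of `Euler.Chart.genus_le_of_charts`. -/
theorem LS1 (H : Hyp GM gL gk) (d : PairDict GM G₁ G₂ α β φ)
    (u : GM.O) (hu : GM.red u ≠ 0)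
    {Zu : Divisor L FM} {Zy : Divisor k κ} (hZu : IsPoleDiv (((u : GM.O) : FM)⁻¹) Zu)
    (hZy : IsPoleDiv (GM.red u)⁻¹ Zy) (hdeg : Divisor.degree Zu ≤ Divisor.degree Zy)
    (hpos : 0 < Divisor.degree Zu)
    {x : FL} (hx₁ : x ∈ G₁.O) (hx₂ : x ∈ G₂.O) {D : Divisor L FL} (hD : IsPoleDiv x D)
    (hα : ∀ g : FM, (∀ P' : Place L FM, P'.ord ((u : GM.O) : FM) ≤ 0 → 0 ≤ P'.ord g) →
      ∀ P : Place L FL, P.ord x ≤ 0 → 0 ≤ P.ord (α g))
    (hβ : ∀ g : FM, (∀ P' : Place L FM, P'.ord ((u : GM.O) : FM) ≤ 0 → 0 ≤ P'.ord g) →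
      ∀ P : Place L FL, P.ord x ≤ 0 → 0 ≤ P.ord (β g)) :
    ∀ h ∈ regOff {v : Place k κ | 0 < v.ord (GM.red u)},
      (h, φ h) ∈ Rbar1 G₁ G₂ hx₁ hx₂ hD ∧ (φ h, h) ∈ Rbar1 G₁ G₂ hx₁ hx₂ hD := by
  intro h hh
  obtain ⟨r₀, hr₀⟩ := ls1 H d u hu hZu hZy hdeg hpos hx₁ hx₂ hD hα hβ h
    (fun Q hQ => ord_nonneg_of_mem_regOff hh (by simpa using hQ))
  exact ⟨(mem_Rbar1_iff_redSpace₂ G₁ G₂ hx₁ hx₂ hD).mpr ⟨r₀, (hr₀ r₀ le_rfl).1⟩,
    (mem_Rbar1_iff_redSpace₂ G₁ G₂ hx₁ hx₂ hD).mpr ⟨r₀, (hr₀ r₀ le_rfl).2⟩⟩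

end Main

/-! ### the pole hypotheses from restriction data of places -/

section Restrict

open Fermat.Agent.S34.Generic.Compat

variable {a : FM →+* FL}

theorem Restr.ord_nonneg_iff (ra : Restr L a) (P : Place L FL) (g : FM) :
    0 ≤ P.ord (a g) ↔ 0 ≤ (ra.res P).ord g := by
  rw [ra.ord_map]
  have he : (0 : ℤ) < (ra.e P : ℤ) := by exact_mod_cast ra.e_pos P
  constructor
  · intro h
    by_contra hlt
    push Not at hlt
    nlinarith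
  · intro h
    positivity

theorem Restr.ord_nonpos_iff (ra : Restr L a) (P : Place L FL) (g : FM) :
    P.ord (a g) ≤ 0 ↔ (ra.res P).ord g ≤ 0 := by
  rw [ra.ord_map]
  have he : (0 : ℤ) < (ra.e P : ℤ) := by exact_mod_cast ra.e_pos P
  constructor
  · intro h
    by_contra hlt
    push Not at hlt
    nlinarith
  · intro h
    nlinarith

/-- chart `x ≠ ∞`: if the poles of `x` contain the poles of `a u`, then `a` maps functions regular
off the poles of `u` to functions regular off the poles of `x`. -/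
theorem regular_of_restr_poles (ra : Restr L a) (u : FM) {D : Divisor L FL}
    (hu : ∀ P : Place L FL, D P = 0 → 0 ≤ P.ord (a u))
    (g : FM) (hg : ∀ P' : Place L FM, 0 ≤ P'.ord u → 0 ≤ P'.ord g)
    (P : Place L FL) (hP : D P = 0) : 0 ≤ P.ord (a g) :=
  (Restr.ord_nonneg_iff ra P g).mpr (hg _ ((Restr.ord_nonneg_iff ra P u).mp (hu P hP)))

/-- chart `x ≠ 0`: if the zeros of `x` contain the zeros of `a u`, then `a` maps functions regular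
off the zeros of `u` to functions regular off the zeros of `x`. -/
theorem regular_of_restr_zeros (ra : Restr L a) (u : FM) {x : FL}
    (hu : ∀ P : Place L FL, P.ord x ≤ 0 → P.ord (a u) ≤ 0)
    (g : FM) (hg : ∀ P' : Place L FM, P'.ord u ≤ 0 → 0 ≤ P'.ord g)
    (P : Place L FL) (hP : P.ord x ≤ 0) : 0 ≤ P.ord (a g) :=
  (Restr.ord_nonneg_iff ra P g).mpr (hg _ ((Restr.ord_nonpos_iff ra P u).mp (hu P hP)))

/-- for `x = a u · b u` with `a u`, `b u` having the same poles: the poles of `x` are the poles of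
`a u` -/
theorem ord_nonneg_of_poleDiv_mul {au bu : FL} {D : Divisor L FL} (hD : IsPoleDiv (au * bu) D)
    (hab : ∀ P : Place L FL, P.ord au < 0 ↔ P.ord bu < 0) (hau : au ≠ 0) (hbu : bu ≠ 0)
    (P : Place L FL) (hP : D P = 0) : 0 ≤ P.ord au ∧ 0 ≤ P.ord bu := by
  have h1 := hD P
  rw [hP, Place.ord_mul _ hau hbu] at h1
  have h2 := hab P
  by_contra hcon
  rw [not_and_or] at hcon
  rcases hcon with h | h
  · push Not at h
    have := h2.mp h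
    omega
  · push Not at h
    have := h2.mpr h
    omega

/-- for `x = a u · b u` with `a u`, `b u` having the same poles: the zeros of `a u` and of `b u`
are zeros of `x` -/
theorem ord_nonpos_of_ord_mul_nonpos {au bu : FL}
    (hab : ∀ P : Place L FL, P.ord au < 0 ↔ P.ord bu < 0) (hau : au ≠ 0) (hbu : bu ≠ 0)
    (P : Place L FL) (hP : P.ord (au * bu) ≤ 0) : P.ord au ≤ 0 ∧ P.ord bu ≤ 0 := by
  rw [Place.ord_mul _ hau hbu] at hP
  have h2 := hab P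
  by_contra hcon
  rw [not_and_or] at hcon
  rcases hcon with h | h
  · push Not at h
    have h3 : P.ord bu < 0 := by omega
    have := h2.mpr h3
    omega
  · push Not at h
    have h3 : P.ord au < 0 := by omega
    have := h2.mp h3
    omega

end Restrict

end Fermat.Agent.S34.Euler.ChartLift
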