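import Mathlib
import Fermat.Agent.S34.Euler.ChartLift
import Fermat.Agent.S34.LevelMSurjX0
import Fermat.Agent.S34.FrobK

/-!
# PROJECT U (S34), Euler characteristic: (LS0) and (LS1) over `X₀(M)`

The level-`M` side of `Euler/ChartLift.lean` instantiated at `F_M = ℚ̄(X₀(M))`,
`GM = gaussDatum M A hA hqM`, `u = j`, `κ = F_k(M) = modularFunctionFieldFullC k M`, `k = κ(A)`.
The level-`qM` side stays abstract: any function field `FL / ℚ̄` with two Gauss data `G₁ G₂` with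
residue function field `κ`, two embeddings `α β : F_M →+* FL` with restriction data `ra`, `rb`
(`Generic.Compat.Restr`) and the reduction dictionary `PairDict`.

* `ls0_X0` : for `ḡ` regular off the cusps (the poles of `j̄`): `(ḡ, φ ḡ)`, `(φ ḡ, ḡ)` lie in
  `redSpace₂ G₁ G₂ (r D)` for all large `r`, `D = (x)_∞`, provided `α j`, `β j` are regular off the
  poles of `x`;
* `ls1_X0` : for `ḡ` regular off the zeros of `j̄`: `x̄ ^ r (ḡ, φ ḡ)`, `x̄ ^ r (φ ḡ, ḡ)` lie in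
  `redSpace₂ G₁ G₂ (r D)` for all large `r`, provided `α j`, `β j` have no zeros off the zeros of `x`;
* `ls0_X0_mul`, `ls1_X0_mul` : the same for `x = α j · β j`, from the single hypothesis that `α j`
  and `β j` have the same poles;
* `LS0_X0`, `LS1_X0` : literally the hypotheses (LS0), (LS1) of `Euler.Chart.genus_le_of_charts`
  (`regOff`, `Rbar0`, `Rbar1`) for `x = α j · β j`;
* `ls0_holo`, `ls1_holo` : the same for `ḡ` in the holomorphy rings `FrobK.holo k M S`,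
  `S` = poles of `j̄`, resp. zeros of `j̄`.
-/

set_option autoImplicit false
set_option linter.unusedSectionVars false
set_option linter.style.haveILetI false

noncomputable section

namespace Fermat.Agent.S34.Euler.ChartLiftX0

open AlgebraicCurve ModularCurve IsLocalRing
open Fermat.Agent.S18.NonSpecial Fermat.Agent.S37.Deuring.Core
open Fermat.Agent.S37.Gauss.Datum
open Fermat.Agent.S24.DegreeAlg (jgen)
open Fermat.Agent.S18.B.FkBasics (jk)
open Fermat.Agent.S34.Euler.RedPair Fermat.Agent.S34.Euler.ChartLift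
open Fermat.Agent.S34.Generic.Compat Fermat.Agent.S34.Euler.Places Fermat.Agent.S34.Euler.Chart

local notation "Kb" => AlgebraicClosure ℚ

set_option synthInstance.maxHeartbeats 400000

/-- shortcut instance (the instance found by unification-free search, stated once) -/
local instance algKappa {M : ℕ} {A : ValuationSubring Kb} :
    Algebra (ResidueField ↥A) ↥(modularFunctionFieldFullC (ResidueField ↥A) M) :=
  SubalgebraClass.toAlgebra (modularFunctionFieldFullC (ResidueField ↥A) M)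

variable {q : ℕ} [Fact q.Prime] {M : ℕ} [NeZero M] {A : ValuationSubring Kb}
variable (hA : A.LiesOverPrime q) (hqM : ¬ q ∣ M)
variable {gL gk : ℕ} (H : Hyp (gaussDatum M A hA hqM) gL gk)
variable {FL : Type*} [Field FL] [Algebra Kb FL] [HasPrincipalDivisors Kb FL]
variable {G₁ G₂ : GaussDatum A (residue ↥A) FL ↥(modularFunctionFieldFullC (ResidueField ↥A) M)}
variable {α β : ↥(modularFunctionFieldBar M) →+* FL}
variable {φ : ↥(modularFunctionFieldFullC (ResidueField ↥A) M) →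
  ↥(modularFunctionFieldFullC (ResidueField ↥A) M)}

include H in
/-- **(LS0) over `X₀(M)`**: `x` any function of `FL` with pole divisor `D` such that `α j`, `β j`
are regular off the poles of `x`. -/
theorem ls0_X0 (d : PairDict (gaussDatum M A hA hqM) G₁ G₂ α β φ)
    (ra : Restr Kb α) (rb : Restr Kb β) {x : FL} {D : Divisor Kb FL} (hD : IsPoleDiv x D)
    (hxa : ∀ P : Place Kb FL, D P = 0 → 0 ≤ P.ord (α (jgen M)))
    (hxb : ∀ P : Place Kb FL, D P = 0 → 0 ≤ P.ord (β (jgen M)))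
    (y : ↥(modularFunctionFieldFullC (ResidueField ↥A) M))
    (hy : ∀ Q : Place (ResidueField ↥A) ↥(modularFunctionFieldFullC (ResidueField ↥A) M),
      0 ≤ Q.ord (jk (ResidueField ↥A) M) → 0 ≤ Q.ord y) :
    ∃ r₀ : ℕ, ∀ r : ℕ, r₀ ≤ r →
      (y, φ y) ∈ redSpace₂ G₁ G₂ (r • D) ∧ (φ y, y) ∈ redSpace₂ G₁ G₂ (r • D) := by
  obtain ⟨g, hgy, hg⟩ := Fermat.Agent.S34.LevelMSurjX0.exists_lift_off_cusps hA hqM H y
    (fun Q hQ => Or.inr (hy Q hQ))
  have hg' : ∀ P' : Place Kb ↥(modularFunctionFieldBar M), 0 ≤ P'.ord (jgen M) →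
      0 ≤ P'.ord ((g : ↥(gaussDatum M A hA hqM).O) : ↥(modularFunctionFieldBar M)) := by
    intro P' hP'
    rcases hg P' hP' with h | h
    · rw [h, Place.ord_zero]
    · exact h
  have := ls0_of_lift d hD g (regular_of_restr_poles ra (jgen M) hxa _ hg')
    (regular_of_restr_poles rb (jgen M) hxb _ hg')
  rwa [hgy] at this

include H in
/-- **(LS1) over `X₀(M)`**: `x ∈ O₁ ∩ O₂` with pole divisor `D` such that the zeros of `α j`, `β j`
are zeros of `x`. -/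
theorem ls1_X0 (d : PairDict (gaussDatum M A hA hqM) G₁ G₂ α β φ)
    (ra : Restr Kb α) (rb : Restr Kb β) {x : FL} (hx₁ : x ∈ G₁.O) (hx₂ : x ∈ G₂.O)
    {D : Divisor Kb FL} (hD : IsPoleDiv x D)
    (hxa : ∀ P : Place Kb FL, P.ord x ≤ 0 → P.ord (α (jgen M)) ≤ 0)
    (hxb : ∀ P : Place Kb FL, P.ord x ≤ 0 → P.ord (β (jgen M)) ≤ 0)
    (y : ↥(modularFunctionFieldFullC (ResidueField ↥A) M))
    (hy : ∀ Q : Place (ResidueField ↥A) ↥(modularFunctionFieldFullC (ResidueField ↥A) M),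
      Q.ord (jk (ResidueField ↥A) M) ≤ 0 → 0 ≤ Q.ord y) :
    ∃ r₀ : ℕ, ∀ r : ℕ, r₀ ≤ r →
      (G₁.red ⟨x, hx₁⟩ ^ r * y, G₂.red ⟨x, hx₂⟩ ^ r * φ y) ∈ redSpace₂ G₁ G₂ (r • D) ∧
      (G₁.red ⟨x, hx₁⟩ ^ r * φ y, G₂.red ⟨x, hx₂⟩ ^ r * y) ∈ redSpace₂ G₁ G₂ (r • D) := by
  obtain ⟨g, hgy, hg⟩ := Fermat.Agent.S34.LevelMSurjX0.exists_lift_off_zeros hA hqM H y
    (fun Q hQ => Or.inr (hy Q hQ))
  have hg' : ∀ P' : Place Kb ↥(modularFunctionFieldBar M), P'.ord (jgen M) ≤ 0 →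
      0 ≤ P'.ord ((g : ↥(gaussDatum M A hA hqM).O) : ↥(modularFunctionFieldBar M)) := by
    intro P' hP'
    rcases hg P' hP' with h | h
    · rw [h, Place.ord_zero]
    · exact h
  have := ls1_of_lift d hx₁ hx₂ hD g (regular_of_restr_zeros ra (jgen M) hxa _ hg')
    (regular_of_restr_zeros rb (jgen M) hxb _ hg')
  rwa [hgy] at this

/-! ### `x = α j · β j` -/

theorem jgen_ne_zero : (jgen M : ↥(modularFunctionFieldBar M)) ≠ 0 := fun h =>
  (Fermat.Agent.S18.A.Instances.isFF_jgen M).transcendental (h ▸ isAlgebraic_zero)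

include H in
/-- **(LS0) for `x = α j · β j`**, when `α j` and `β j` have the same poles. -/
theorem ls0_X0_mul (d : PairDict (gaussDatum M A hA hqM) G₁ G₂ α β φ)
    (ra : Restr Kb α) (rb : Restr Kb β) {D : Divisor Kb FL}
    (hD : IsPoleDiv (α (jgen M) * β (jgen M)) D)
    (hab : ∀ P : Place Kb FL, P.ord (α (jgen M)) < 0 ↔ P.ord (β (jgen M)) < 0)
    (y : ↥(modularFunctionFieldFullC (ResidueField ↥A) M))
    (hy : ∀ Q : Place (ResidueField ↥A) ↥(modularFunctionFieldFullC (ResidueField ↥A) M),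
      0 ≤ Q.ord (jk (ResidueField ↥A) M) → 0 ≤ Q.ord y) :
    ∃ r₀ : ℕ, ∀ r : ℕ, r₀ ≤ r →
      (y, φ y) ∈ redSpace₂ G₁ G₂ (r • D) ∧ (φ y, y) ∈ redSpace₂ G₁ G₂ (r • D) := by
  have ha : α (jgen M) ≠ 0 := (map_ne_zero α).mpr jgen_ne_zero
  have hb : β (jgen M) ≠ 0 := (map_ne_zero β).mpr jgen_ne_zero
  exact ls0_X0 hA hqM H d ra rb hD
    (fun P hP => (ord_nonneg_of_poleDiv_mul hD hab ha hb P hP).1)
    (fun P hP => (ord_nonneg_of_poleDiv_mul hD hab ha hb P hP).2) y hy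

include H in
/-- **(LS1) for `x = α j · β j`**, when `α j` and `β j` have the same poles. -/
theorem ls1_X0_mul (d : PairDict (gaussDatum M A hA hqM) G₁ G₂ α β φ)
    (ra : Restr Kb α) (rb : Restr Kb β) {D : Divisor Kb FL}
    (hD : IsPoleDiv (α (jgen M) * β (jgen M)) D)
    (hab : ∀ P : Place Kb FL, P.ord (α (jgen M)) < 0 ↔ P.ord (β (jgen M)) < 0)
    (y : ↥(modularFunctionFieldFullC (ResidueField ↥A) M))
    (hy : ∀ Q : Place (ResidueField ↥A) ↥(modularFunctionFieldFullC (ResidueField ↥A) M),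
      Q.ord (jk (ResidueField ↥A) M) ≤ 0 → 0 ≤ Q.ord y) :
    ∃ r₀ : ℕ, ∀ r : ℕ, r₀ ≤ r →
      (G₁.red ⟨_, d.mul_mem₁ (Fermat.Agent.S34.LevelMSurjX0.jO hA hqM)⟩ ^ r * y,
        G₂.red ⟨_, d.mul_mem₂ (Fermat.Agent.S34.LevelMSurjX0.jO hA hqM)⟩ ^ r * φ y)
          ∈ redSpace₂ G₁ G₂ (r • D) ∧
      (G₁.red ⟨_, d.mul_mem₁ (Fermat.Agent.S34.LevelMSurjX0.jO hA hqM)⟩ ^ r * φ y,
        G₂.red ⟨_, d.mul_mem₂ (Fermat.Agent.S34.LevelMSurjX0.jO hA hqM)⟩ ^ r * y)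
          ∈ redSpace₂ G₁ G₂ (r • D) := by
  have ha : α (jgen M) ≠ 0 := (map_ne_zero α).mpr jgen_ne_zero
  have hb : β (jgen M) ≠ 0 := (map_ne_zero β).mpr jgen_ne_zero
  exact ls1_X0 hA hqM H d ra rb (d.mul_mem₁ (Fermat.Agent.S34.LevelMSurjX0.jO hA hqM))
    (d.mul_mem₂ (Fermat.Agent.S34.LevelMSurjX0.jO hA hqM)) hD
    (fun P hP => (ord_nonpos_of_ord_mul_nonpos hab ha hb P hP).1)
    (fun P hP => (ord_nonpos_of_ord_mul_nonpos hab ha hb P hP).2) y hy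

/-- the reductions of `x = α j · β j`: `x̄₁ = j̄ · φ j̄` -/
theorem red₁_x (d : PairDict (gaussDatum M A hA hqM) G₁ G₂ α β φ) :
    G₁.red ⟨_, d.mul_mem₁ (Fermat.Agent.S34.LevelMSurjX0.jO hA hqM)⟩ =
      jk (ResidueField ↥A) M * φ (jk (ResidueField ↥A) M) := by
  rw [d.red₁_mul, Fermat.Agent.S34.LevelMSurjX0.red_jO]

/-- the reductions of `x = α j · β j`: `x̄₂ = φ j̄ · j̄` -/
theorem red₂_x (d : PairDict (gaussDatum M A hA hqM) G₁ G₂ α β φ) :
    G₂.red ⟨_, d.mul_mem₂ (Fermat.Agent.S34.LevelMSurjX0.jO hA hqM)⟩ =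
      φ (jk (ResidueField ↥A) M) * jk (ResidueField ↥A) M := by
  rw [d.red₂_mul, Fermat.Agent.S34.LevelMSurjX0.red_jO]

/-! ### holomorphy-ring form -/

include H in
/-- **(LS0)** for `ḡ` in the holomorphy ring of the complement of the cusps. -/
theorem ls0_holo (d : PairDict (gaussDatum M A hA hqM) G₁ G₂ α β φ)
    (ra : Restr Kb α) (rb : Restr Kb β) {D : Divisor Kb FL}
    (hD : IsPoleDiv (α (jgen M) * β (jgen M)) D)
    (hab : ∀ P : Place Kb FL, P.ord (α (jgen M)) < 0 ↔ P.ord (β (jgen M)) < 0)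
    (y : ↥(modularFunctionFieldFullC (ResidueField ↥A) M))
    (hy : y ∈ Fermat.Agent.S34.FrobK.holo (ResidueField ↥A) M
      {Q | Q.ord (jk (ResidueField ↥A) M) < 0}) :
    ∃ r₀ : ℕ, ∀ r : ℕ, r₀ ≤ r →
      (y, φ y) ∈ redSpace₂ G₁ G₂ (r • D) ∧ (φ y, y) ∈ redSpace₂ G₁ G₂ (r • D) := by
  haveI := Fermat.Agent.S18.ResidueBasics.isAlgClosed_residueField A
  refine ls0_X0_mul hA hqM H d ra rb hD hab y fun Q hQ => ?_
  exact (Fermat.Agent.S34.FrobK.mem_holo_iff_ord (ResidueField ↥A) M).mp hy Q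
    (by simpa using hQ)

include H in
/-- **(LS1)** for `ḡ` in the holomorphy ring of the complement of the zeros of `j̄`. -/
theorem ls1_holo (d : PairDict (gaussDatum M A hA hqM) G₁ G₂ α β φ)
    (ra : Restr Kb α) (rb : Restr Kb β) {D : Divisor Kb FL}
    (hD : IsPoleDiv (α (jgen M) * β (jgen M)) D)
    (hab : ∀ P : Place Kb FL, P.ord (α (jgen M)) < 0 ↔ P.ord (β (jgen M)) < 0)
    (y : ↥(modularFunctionFieldFullC (ResidueField ↥A) M))
    (hy : y ∈ Fermat.Agent.S34.FrobK.holo (ResidueField ↥A) M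
      {Q | 0 < Q.ord (jk (ResidueField ↥A) M)}) :
    ∃ r₀ : ℕ, ∀ r : ℕ, r₀ ≤ r →
      (G₁.red ⟨_, d.mul_mem₁ (Fermat.Agent.S34.LevelMSurjX0.jO hA hqM)⟩ ^ r * y,
        G₂.red ⟨_, d.mul_mem₂ (Fermat.Agent.S34.LevelMSurjX0.jO hA hqM)⟩ ^ r * φ y)
          ∈ redSpace₂ G₁ G₂ (r • D) ∧
      (G₁.red ⟨_, d.mul_mem₁ (Fermat.Agent.S34.LevelMSurjX0.jO hA hqM)⟩ ^ r * φ y,
        G₂.red ⟨_, d.mul_mem₂ (Fermat.Agent.S34.LevelMSurjX0.jO hA hqM)⟩ ^ r * y)
          ∈ redSpace₂ G₁ G₂ (r • D) := by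
  haveI := Fermat.Agent.S18.ResidueBasics.isAlgClosed_residueField A
  refine ls1_X0_mul hA hqM H d ra rb hD hab y fun Q hQ => ?_
  exact (Fermat.Agent.S34.FrobK.mem_holo_iff_ord (ResidueField ↥A) M).mp hy Q
    (by simpa using hQ)

/-! ### literally the hypotheses (LS0), (LS1) of `Euler.Chart.genus_le_of_charts` -/

include H in
/-- **(LS0) at `X₀(M)`**, literally: `P₀` = the poles of `j̄`. -/
theorem LS0_X0 (d : PairDict (gaussDatum M A hA hqM) G₁ G₂ α β φ)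
    (ra : Restr Kb α) (rb : Restr Kb β) {D : Divisor Kb FL}
    (hD : IsPoleDiv (α (jgen M) * β (jgen M)) D)
    (hab : ∀ P : Place Kb FL, P.ord (α (jgen M)) < 0 ↔ P.ord (β (jgen M)) < 0) :
    ∀ h ∈ regOff {v : Place (ResidueField ↥A) ↥(modularFunctionFieldFullC (ResidueField ↥A) M) |
        v.ord (jk (ResidueField ↥A) M) < 0},
      (h, φ h) ∈ Rbar0 G₁ G₂ hD.nonneg ∧ (φ h, h) ∈ Rbar0 G₁ G₂ hD.nonneg := by
  intro h hh
  obtain ⟨r₀, hr₀⟩ := ls0_X0_mul hA hqM H d ra rb hD hab h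
    (fun Q hQ => ord_nonneg_of_mem_regOff hh (by simpa using hQ))
  exact ⟨(mem_Rbar0_iff_redSpace₂ G₁ G₂ hD.nonneg).mpr ⟨r₀, (hr₀ r₀ le_rfl).1⟩,
    (mem_Rbar0_iff_redSpace₂ G₁ G₂ hD.nonneg).mpr ⟨r₀, (hr₀ r₀ le_rfl).2⟩⟩

include H in
/-- **(LS1) at `X₀(M)`**, literally: `P₁` = the zeros of `j̄`. -/
theorem LS1_X0 (d : PairDict (gaussDatum M A hA hqM) G₁ G₂ α β φ)
    (ra : Restr Kb α) (rb : Restr Kb β) {D : Divisor Kb FL}
    (hD : IsPoleDiv (α (jgen M) * β (jgen M)) D)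
    (hab : ∀ P : Place Kb FL, P.ord (α (jgen M)) < 0 ↔ P.ord (β (jgen M)) < 0) :
    ∀ h ∈ regOff {v : Place (ResidueField ↥A) ↥(modularFunctionFieldFullC (ResidueField ↥A) M) |
        0 < v.ord (jk (ResidueField ↥A) M)},
      (h, φ h) ∈ Rbar1 G₁ G₂ (d.mul_mem₁ (Fermat.Agent.S34.LevelMSurjX0.jO hA hqM))
          (d.mul_mem₂ (Fermat.Agent.S34.LevelMSurjX0.jO hA hqM)) hD ∧
      (φ h, h) ∈ Rbar1 G₁ G₂ (d.mul_mem₁ (Fermat.Agent.S34.LevelMSurjX0.jO hA hqM))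
          (d.mul_mem₂ (Fermat.Agent.S34.LevelMSurjX0.jO hA hqM)) hD := by
  intro h hh
  obtain ⟨r₀, hr₀⟩ := ls1_X0_mul hA hqM H d ra rb hD hab h
    (fun Q hQ => ord_nonneg_of_mem_regOff hh (by simpa using hQ))
  exact ⟨(mem_Rbar1_iff_redSpace₂ G₁ G₂ _ _ hD).mpr ⟨r₀, (hr₀ r₀ le_rfl).1⟩,
    (mem_Rbar1_iff_redSpace₂ G₁ G₂ _ _ hD).mpr ⟨r₀, (hr₀ r₀ le_rfl).2⟩⟩

end Fermat.Agent.S34.Euler.ChartLiftX0
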