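import Mathlib
import Fermat.Agent.S34.EulerX0
import Fermat.Agent.S34.CuspRegular
import Fermat.Agent.S34.Euler.ChartFullC

/-!
# PROJECT U (S34): the genus inequality `(NC)` and the node set at `X₀(M q)`

`E = ℚ̄(X₀(M q))`, `k = κ(A)` the residue field of a valuation ring of `ℚ̄` over `q`,
`κ = modularFunctionFieldFullC k M`, `x = j · j_q`.

`nc_X0` : from a pair of Gauss data `G₁, G₂` with `EulerX0.PairRed` (`GaussPairX0`), the level-`M`
lifting statements `LS0`, `LS1` (`Euler/ChartLiftX0`) and the radical-ideal statements `HJ` at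
the poles and at the zeros of `j̄` (`HoloIdeal`), there is a finite set `S` of `Fr²`-fixed
non-cuspidal places of `κ` with

* `g(X₀(M q)) + 1 ≤ 2 g(κ) + #S`;
* for `h₁, h₂` regular off the cusps: `(h₁, h₂) ∈ Rbar0 ↔ ∀ b ∈ S, h₁ (Fr b) = h₂ b`.

The `x`-data (`D`, `E`, degrees) come from `EulerX0`, the `(CUSP)` witness from `CuspRegular`.
-/

set_option autoImplicit false
set_option linter.unusedSectionVars false
set_option linter.style.haveILetI false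

noncomputable section

namespace Fermat.Agent.S34.Euler.NCX0

open AlgebraicCurve ModularCurve IsLocalRing
open Fermat.Agent.S24.DegreeAlg (jgen)
open Fermat.Agent.S18.B.FkBasics (jk)
open Fermat.Agent.S34.PowerBasisX0
open Fermat.Agent.S18.NonSpecial Fermat.Agent.S37.Deuring.Core
open Fermat.Agent.S34.FrobK Fermat.Agent.S34.Euler.Places Fermat.Agent.S34.Euler.Value
  Fermat.Agent.S34.Euler.RedPair Fermat.Agent.S34.Euler.Chart Fermat.Agent.S34.Euler.FrobSide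
  Fermat.Agent.S34.Euler.ChartFullC Fermat.Agent.S34.EulerX0

local notation "Kb" => AlgebraicClosure ℚ

set_option synthInstance.maxHeartbeats 400000

attribute [local instance 2000] algResFk

variable {q : ℕ} [hq : Fact q.Prime] [NeZero q] {M : ℕ} [NeZero M]

theorem jE_eq : Fermat.Agent.S34.CuspRegular.jE M q = jgen (M * q) := alpha_jgen

theorem xE_eq : Fermat.Agent.S34.CuspRegular.xE M q = xE M q := by
  unfold Fermat.Agent.S34.CuspRegular.xE xE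
  rw [jE_eq]

variable (hqM : ¬ q ∣ M) {A : ValuationSubring Kb} (hA : A.LiesOverPrime q)
variable [IsAlgClosed (ResidueField ↥A)] [CharP (ResidueField ↥A) q]
  [HasPrincipalDivisors (ResidueField ↥A) ↥(modularFunctionFieldFullC (ResidueField ↥A) M)]
variable {G₁ G₂ : GaussDatum A (residue ↥A) ↥(modularFunctionFieldBar (M * q))
  ↥(modularFunctionFieldFullC (ResidueField ↥A) M)}

/-- the `(CUSP)` witness for the `x` of `EulerX0` -/
theorem exists_cusp_witness (hP : PairRed G₁ G₂) :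
    ∃ p ∈ redSpace₂ G₁ G₂ (q • D hqM), p.1 = G₁.red ⟨xE M q, hP.xE_mem₁⟩ ^ q ∧
      p.2 * jk (ResidueField ↥A) M ^ (q ^ 2 - 1) = G₂.red ⟨xE M q, hP.xE_mem₂⟩ ^ q := by
  have hj₁ : Fermat.Agent.S34.CuspRegular.jE M q ∈ G₁.O := by rw [jE_eq]; exact hP.j_mem₁
  have hj₂ : Fermat.Agent.S34.CuspRegular.jE M q ∈ G₂.O := by rw [jE_eq]; exact hP.j_mem₂
  have h11 : G₁.red ⟨Fermat.Agent.S34.CuspRegular.jE M q, hj₁⟩ = jk (ResidueField ↥A) M := by
    have e : (⟨Fermat.Agent.S34.CuspRegular.jE M q, hj₁⟩ : G₁.O) = ⟨jgen (M * q), hP.j_mem₁⟩ :=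
      Subtype.ext jE_eq
    rw [e, hP.red₁_j]
  have h21 : G₂.red ⟨Fermat.Agent.S34.CuspRegular.jE M q, hj₂⟩ = jk (ResidueField ↥A) M ^ q := by
    have e : (⟨Fermat.Agent.S34.CuspRegular.jE M q, hj₂⟩ : G₂.O) = ⟨jgen (M * q), hP.j_mem₂⟩ :=
      Subtype.ext jE_eq
    rw [e, hP.red₂_j]
  have hD : IsPoleDiv (Fermat.Agent.S34.CuspRegular.xE M q) (D hqM) := by
    rw [xE_eq]; exact isPoleDiv_xE hqM
  have hx₁ : Fermat.Agent.S34.CuspRegular.xE M q ∈ G₁.O := by rw [xE_eq]; exact hP.xE_mem₁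
  have hx₂ : Fermat.Agent.S34.CuspRegular.xE M q ∈ G₂.O := by rw [xE_eq]; exact hP.xE_mem₂
  obtain ⟨p, hp, hp1, hp2⟩ := Fermat.Agent.S34.CuspRegular.exists_cusp_witness G₁ G₂ hj₁ hj₂
    hP.jl_mem₁ hP.jl_mem₂ h11 hP.red₁_jl h21 hP.red₂_jl hD hx₁ hx₂
  have e₁ : (⟨Fermat.Agent.S34.CuspRegular.xE M q, hx₁⟩ : G₁.O) = ⟨xE M q, hP.xE_mem₁⟩ :=
    Subtype.ext xE_eq
  have e₂ : (⟨Fermat.Agent.S34.CuspRegular.xE M q, hx₂⟩ : G₂.O) = ⟨xE M q, hP.xE_mem₂⟩ :=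
    Subtype.ext xE_eq
  rw [e₁] at hp1
  rw [e₂] at hp2
  exact ⟨p, hp, hp1, hp2⟩

include hA in
/-- **`(NC)` and the node set at `X₀(M q)`.** -/
theorem nc_X0 (hP : PairRed G₁ G₂) {g gM : ℕ}
    (HL : RiemannHyp Kb ↥(modularFunctionFieldBar (M * q)) g)
    (HM : RiemannHyp (ResidueField ↥A) ↥(modularFunctionFieldFullC (ResidueField ↥A) M) gM)
    (LS0 : ∀ h : ↥(modularFunctionFieldFullC (ResidueField ↥A) M),
      (∀ v : Place (ResidueField ↥A) ↥(modularFunctionFieldFullC (ResidueField ↥A) M),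
        0 ≤ v.ord (jk (ResidueField ↥A) M) → h = 0 ∨ 0 ≤ v.ord h) →
      ∃ r : ℕ, (h, phi (ResidueField ↥A) M q h) ∈ redSpace₂ G₁ G₂ (r • D hqM) ∧
        (phi (ResidueField ↥A) M q h, h) ∈ redSpace₂ G₁ G₂ (r • D hqM))
    (hJ₀ : HJ (ResidueField ↥A) M q (P0 (ResidueField ↥A) M) (Fr_mem_P0_iff (ResidueField ↥A) M q))
    (LS1 : ∀ h : ↥(modularFunctionFieldFullC (ResidueField ↥A) M),
      (∀ v : Place (ResidueField ↥A) ↥(modularFunctionFieldFullC (ResidueField ↥A) M),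
        v.ord (jk (ResidueField ↥A) M) ≤ 0 → h = 0 ∨ 0 ≤ v.ord h) →
      ∃ r : ℕ, (G₁.red ⟨xE M q, hP.xE_mem₁⟩ ^ r * h,
            G₂.red ⟨xE M q, hP.xE_mem₂⟩ ^ r * phi (ResidueField ↥A) M q h)
          ∈ redSpace₂ G₁ G₂ (r • D hqM) ∧
        (G₁.red ⟨xE M q, hP.xE_mem₁⟩ ^ r * phi (ResidueField ↥A) M q h,
            G₂.red ⟨xE M q, hP.xE_mem₂⟩ ^ r * h)
          ∈ redSpace₂ G₁ G₂ (r • D hqM))
    (hJ₁ : HJ (ResidueField ↥A) M q (P1 (ResidueField ↥A) M) (Fr_mem_P1_iff (ResidueField ↥A) M q)) :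
    ∃ S : Finset (Place (ResidueField ↥A) ↥(modularFunctionFieldFullC (ResidueField ↥A) M)),
      (∀ b ∈ S, Fr (ResidueField ↥A) M q (Fr (ResidueField ↥A) M q b) = b ∧
        b ∉ P0 (ResidueField ↥A) M) ∧
      (g : ℤ) + 1 ≤ gM + gM + S.card ∧
      ∀ h₁ h₂ : ↥(modularFunctionFieldFullC (ResidueField ↥A) M),
        h₁ ∈ regOff (P0 (ResidueField ↥A) M) → h₂ ∈ regOff (P0 (ResidueField ↥A) M) →
        ((h₁, h₂) ∈ Rbar0 G₁ G₂ (isPoleDiv_xE hqM).nonneg ↔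
          ∀ b ∈ S, ∃ c : ResidueField ↥A,
            HasValue (Fr (ResidueField ↥A) M q b) h₁ c ∧ HasValue b h₂ c) := by
  have hpos : 0 < Divisor.degree ((q + 1) • EkA A M) := by
    rw [map_nsmul]
    exact nsmul_pos (degree_EkA_pos (A := A) (M := M)) (Nat.succ_ne_zero q)
  obtain ⟨p, hp, hp1, hp2⟩ := exists_cusp_witness hqM hP
  have hq2 : q ^ 2 - 1 = (q ^ 2 - 2) + 1 := by
    have : 2 ≤ q ^ 2 := by nlinarith [hq.out.two_le]
    omega
  rw [hq2] at hp2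
  exact genus_le_of_charts_fullC G₁ G₂ HL HM hP.xE_mem₁ hP.xE_mem₂ (isPoleDiv_xE hqM) q
    hP.red₁_xE hP.red₂_xE (isPoleDiv_jk_pow_A (A := A) (M := M) (q + 1)) hpos
    (degree_D_eq hqM hA) LS0 hJ₀ LS1 hJ₁ ⟨q, q ^ 2 - 2, p, hp, hp1, hp2⟩

end Fermat.Agent.S34.Euler.NCX0
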