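import Mathlib
import Fermat.Agent.S34.Euler.NCX0
import Fermat.Agent.S34.Euler.HoloBridge

/-!
# PROJECT U (S34): `(NC)` and the node set at `X₀(M q)`, radical-ideal hypotheses discharged

`nc_X0_of_lift` = `NCX0.nc_X0` with `hJ₀`, `hJ₁` supplied by `HoloBridge` (`HoloIdeal`): the only
remaining inputs are the pair of Gauss data with `EulerX0.PairRed` and the two level-`M` lifting
statements `LS0`, `LS1`.
-/

set_option autoImplicit false
set_option linter.unusedSectionVars false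

noncomputable section

namespace Fermat.Agent.S34.Euler.NCX0Holo

open AlgebraicCurve ModularCurve IsLocalRing
open Fermat.Agent.S18.B.FkBasics (jk)
open Fermat.Agent.S18.NonSpecial Fermat.Agent.S37.Deuring.Core
open Fermat.Agent.S34.FrobK Fermat.Agent.S34.Euler.Places Fermat.Agent.S34.Euler.Value
  Fermat.Agent.S34.Euler.RedPair Fermat.Agent.S34.Euler.Chart Fermat.Agent.S34.Euler.FrobSide
  Fermat.Agent.S34.EulerX0

local notation "Kb" => AlgebraicClosure ℚ

set_option synthInstance.maxHeartbeats 400000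

attribute [local instance 2000] algResFk

variable {q : ℕ} [hq : Fact q.Prime] [NeZero q] {M : ℕ} [NeZero M]
variable (hqM : ¬ q ∣ M) {A : ValuationSubring Kb} (hA : A.LiesOverPrime q)
variable [IsAlgClosed (ResidueField ↥A)] [CharP (ResidueField ↥A) q]
  [HasPrincipalDivisors (ResidueField ↥A) ↥(modularFunctionFieldFullC (ResidueField ↥A) M)]
variable {G₁ G₂ : GaussDatum A (residue ↥A) ↥(modularFunctionFieldBar (M * q))
  ↥(modularFunctionFieldFullC (ResidueField ↥A) M)}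

include hA in
/-- **`(NC)` and the node set at `X₀(M q)`** from `PairRed`, `LS0`, `LS1`. -/
theorem nc_X0_of_lift (hP : PairRed G₁ G₂) {g gM : ℕ}
    (HL : RiemannHyp Kb ↥(modularFunctionFieldBar (M * q)) g)
    (HM : RiemannHyp (ResidueField ↥A) ↥(modularFunctionFieldFullC (ResidueField ↥A) M) gM)
    (LS0 : ∀ h : ↥(modularFunctionFieldFullC (ResidueField ↥A) M),
      (∀ v : Place (ResidueField ↥A) ↥(modularFunctionFieldFullC (ResidueField ↥A) M),
        0 ≤ v.ord (jk (ResidueField ↥A) M) → h = 0 ∨ 0 ≤ v.ord h) →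
      ∃ r : ℕ, (h, phi (ResidueField ↥A) M q h) ∈ redSpace₂ G₁ G₂ (r • D hqM) ∧
        (phi (ResidueField ↥A) M q h, h) ∈ redSpace₂ G₁ G₂ (r • D hqM))
    (LS1 : ∀ h : ↥(modularFunctionFieldFullC (ResidueField ↥A) M),
      (∀ v : Place (ResidueField ↥A) ↥(modularFunctionFieldFullC (ResidueField ↥A) M),
        v.ord (jk (ResidueField ↥A) M) ≤ 0 → h = 0 ∨ 0 ≤ v.ord h) →
      ∃ r : ℕ, (G₁.red ⟨xE M q, hP.xE_mem₁⟩ ^ r * h,
            G₂.red ⟨xE M q, hP.xE_mem₂⟩ ^ r * phi (ResidueField ↥A) M q h)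
          ∈ redSpace₂ G₁ G₂ (r • D hqM) ∧
        (G₁.red ⟨xE M q, hP.xE_mem₁⟩ ^ r * phi (ResidueField ↥A) M q h,
            G₂.red ⟨xE M q, hP.xE_mem₂⟩ ^ r * h)
          ∈ redSpace₂ G₁ G₂ (r • D hqM)) :
    ∃ S : Finset (Place (ResidueField ↥A) ↥(modularFunctionFieldFullC (ResidueField ↥A) M)),
      (∀ b ∈ S, Fr (ResidueField ↥A) M q (Fr (ResidueField ↥A) M q b) = b ∧
        b ∉ P0 (ResidueField ↥A) M) ∧
      (g : ℤ) + 1 ≤ gM + gM + S.card ∧
      ∀ h₁ h₂ : ↥(modularFunctionFieldFullC (ResidueField ↥A) M),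
        h₁ ∈ regOff (P0 (ResidueField ↥A) M) → h₂ ∈ regOff (P0 (ResidueField ↥A) M) →
        ((h₁, h₂) ∈ Rbar0 G₁ G₂ (isPoleDiv_xE hqM).nonneg ↔
          ∀ b ∈ S, ∃ c : ResidueField ↥A,
            HasValue (Fr (ResidueField ↥A) M q b) h₁ c ∧ HasValue b h₂ c) :=
  Fermat.Agent.S34.Euler.NCX0.nc_X0 hqM hA hP HL HM LS0
    (Fermat.Agent.S34.Euler.HoloBridge.hJ_P0 (ResidueField ↥A) M q HM) LS1
    (Fermat.Agent.S34.Euler.HoloBridge.hJ_P1 (ResidueField ↥A) M q HM)

end Fermat.Agent.S34.Euler.NCX0Holo
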